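/-
S41 / L5 (helper18): the FORMAL part of adjointness.

From `res ⊣ cor` (`hadjA`) and an isometric involution `W` of the upper level (PD6), for skew forms:
* `adj_twist`   : `resB := W ∘ res` is adjoint to `corB := cor ∘ W`            (= `hadjB`);
* `selfadj_comp`: `T := cor ∘ W ∘ res` is self-adjoint for the lower form      (= `hself`, `T = T_ℓ`);
* `selfadj_of_eq`: the same for an endomorphism `T` given pointwise by `T x = cor (W (res x))`;
* `adj_prod`    : adjointness of `(x₁,x₂) ↦ rA x₁ + rB x₂` and `h ↦ (cA h, cB h)` for the product form.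
Everything is abstract linear algebra over a commutative ring (Mathlib only).
-/
import Mathlib

set_option autoImplicit false

namespace Fermat.Agent.S41.PD.AdjFormal

variable {R : Type*} [CommRing R]
variable {X Y : Type*} [AddCommGroup X] [Module R X] [AddCommGroup Y] [Module R Y]
variable (BX : X →ₗ[R] X →ₗ[R] R) (BY : Y →ₗ[R] Y →ₗ[R] R)
variable (rA : X →ₗ[R] Y) (cA : Y →ₗ[R] X) (W : Y →ₗ[R] Y)

/-- an isometric involution can be moved to the other side. -/
theorem isom_move (hW : ∀ y y', BY (W y) (W y') = BY y y') (hWW : ∀ y, W (W y) = y) (y y' : Y) :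
    BY (W y) y' = BY y (W y') := by
  have := hW y (W y')
  rw [hWW] at this
  exact this

/-- **`hadjB`**: `W ∘ res` is adjoint to `cor ∘ W`. -/
theorem adj_twist (hadjA : ∀ x h, BY (rA x) h = BX x (cA h))
    (hW : ∀ y y', BY (W y) (W y') = BY y y') (hWW : ∀ y, W (W y) = y) (x : X) (h : Y) :
    BY (W (rA x)) h = BX x (cA (W h)) := by
  rw [isom_move BY W hW hWW, hadjA]

/-- adjointness on the other side, for skew forms. -/
theorem adj_flip (hadjA : ∀ x h, BY (rA x) h = BX x (cA h))
    (hsX : ∀ a b, BX a b + BX b a = 0) (hsY : ∀ a b, BY a b + BY b a = 0) (x : X) (h : Y) :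
    BY h (rA x) = BX (cA h) x := by
  have h1 := hsY h (rA x)
  have h2 := hsX (cA h) x
  have h3 := hadjA x h
  have e1 : BY h (rA x) = -BY (rA x) h := eq_neg_of_add_eq_zero_left h1
  have e2 : BX (cA h) x = -BX x (cA h) := eq_neg_of_add_eq_zero_left h2
  rw [e1, e2, h3]

/-- **`hself`**: `T = cor ∘ W ∘ res` is self-adjoint for the lower form. -/
theorem selfadj_comp (hadjA : ∀ x h, BY (rA x) h = BX x (cA h))
    (hW : ∀ y y', BY (W y) (W y') = BY y y') (hWW : ∀ y, W (W y) = y)
    (hsX : ∀ a b, BX a b + BX b a = 0) (hsY : ∀ a b, BY a b + BY b a = 0) (x w : X) :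
    BX x (cA (W (rA w))) = BX (cA (W (rA x))) w := by
  rw [← hadjA, ← adj_flip BX BY rA cA hadjA hsX hsY, isom_move BY W hW hWW]

/-- **`hself`** for an endomorphism given pointwise by `T x = cor (W (res x))`. -/
theorem selfadj_of_eq (T : X →ₗ[R] X) (hT : ∀ x, T x = cA (W (rA x)))
    (hadjA : ∀ x h, BY (rA x) h = BX x (cA h))
    (hW : ∀ y y', BY (W y) (W y') = BY y y') (hWW : ∀ y, W (W y) = y)
    (hsX : ∀ a b, BX a b + BX b a = 0) (hsY : ∀ a b, BY a b + BY b a = 0) (x w : X) :
    BX x (T w) = BX (T x) w := by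
  rw [hT, hT]
  exact selfadj_comp BX BY rA cA W hadjA hW hWW hsX hsY x w

/-- the same when `T` is only known to be `cor ∘ resB` with `resB = W ∘ res` pointwise
(shape of (I2): `corA (resB x) = T x`). -/
theorem selfadj_of_resB (T : X →ₗ[R] X) (rB : X →ₗ[R] Y) (hrB : ∀ x, rB x = W (rA x))
    (hT : ∀ x, cA (rB x) = T x)
    (hadjA : ∀ x h, BY (rA x) h = BX x (cA h))
    (hW : ∀ y y', BY (W y) (W y') = BY y y') (hWW : ∀ y, W (W y) = y)
    (hsX : ∀ a b, BX a b + BX b a = 0) (hsY : ∀ a b, BY a b + BY b a = 0) (x w : X) :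
    BX x (T w) = BX (T x) w :=
  selfadj_of_eq BX BY rA cA W T (fun x => by rw [← hT, hrB]) hadjA hW hWW hsX hsY x w

/-- the product form on `X × X`. -/
noncomputable def prodForm : (X × X) →ₗ[R] (X × X) →ₗ[R] R :=
  (BX.compl₁₂ (LinearMap.fst R X X) (LinearMap.fst R X X)) +
    (BX.compl₁₂ (LinearMap.snd R X X) (LinearMap.snd R X X))

@[simp] theorem prodForm_apply (a b : X × X) :
    prodForm BX a b = BX a.1 b.1 + BX a.2 b.2 := rfl

/-- **`hadj`** for `i^* = rA ⊕ rB`, `i_* = (cA, cB)` and the product form. -/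
theorem adj_prod (rB : X →ₗ[R] Y) (cB : Y →ₗ[R] X)
    (hadjA : ∀ x h, BY (rA x) h = BX x (cA h)) (hadjB : ∀ x h, BY (rB x) h = BX x (cB h))
    (x : X × X) (h : Y) :
    BY ((rA.coprod rB) x) h = prodForm BX x ((cA.prod cB) h) := by
  simp [LinearMap.coprod_apply, hadjA, hadjB]

/-- surjectivity of the product form from surjectivity of the factor. -/
theorem prodForm_surjective (hBX : Function.Surjective BX) :
    Function.Surjective (prodForm BX) := by
  intro φ
  obtain ⟨a, ha⟩ := hBX (φ.comp (LinearMap.inl R X X))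
  obtain ⟨b, hb⟩ := hBX (φ.comp (LinearMap.inr R X X))
  refine ⟨(a, b), ?_⟩
  ext w
  · simpa using LinearMap.congr_fun ha w
  · simpa using LinearMap.congr_fun hb w

/-- self-adjointness passes to the product form. -/
theorem selfadj_prod (T : X →ₗ[R] X) (hself : ∀ x w, BX x (T w) = BX (T x) w) (x w : X × X) :
    prodForm BX x ((T.prodMap T) w) = prodForm BX ((T.prodMap T) x) w := by
  simp [hself]

end Fermat.Agent.S41.PD.AdjFormal
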