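import Fermat.Agent.S41.PD.ShapiroPar
import Fermat.Agent.S29.Betti.EigenSupport

/-!
# S41 / L5 / PD1b, part 3 : the Betti module `XMod N A A` inside the combinatorial model

`PN N = SL(2,ℤ) ⧸ Γ₀(N)` (a type synonym carrying its own `Fintype`/`DecidableEq` instances),
`DN N : Core.Datum (PN N)`, and for a domain `A` of characteristic zero

* `shapN N A : (Additive (Gamma0 N) →+ A) ≃ₗ[A] (DN N).Q A`,
* `mem_XMod_iff_d` : `c ∈ XMod N A A ↔ d (shapN c) = 0`,
* `shapX N A : XMod N A A ≃ₗ[A] ker d`, `shapJ N A : XMod N A A ≃ₗ[A] range j`,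
* `BX N A : XMod N A A →ₗ[A] Dual A (XMod N A A)`, skew, bijective over a PID.
-/

set_option autoImplicit false
set_option linter.unusedSectionVars false

namespace Fermat.Agent.S41.PD.ShapiroX

open scoped MatrixGroups
open CongruenceSubgroup ModularGroup Fermat.Agent.S41.PD.Core Fermat.Agent.S41.PD.Present
  Fermat.Agent.S41.PD.Shapiro Fermat.Agent.S41.PD.ShapiroPar Fermat.Agent.S29.Betti

noncomputable section

universe v

variable (N : ℕ) [NeZero N]

/-- the coset space `SL(2,ℤ) ⧸ Γ₀(N)`. -/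
def PN : Type := SL(2, ℤ) ⧸ Gamma0 N

instance instMulActionPN : MulAction SL(2, ℤ) (PN N) :=
  inferInstanceAs (MulAction SL(2, ℤ) (SL(2, ℤ) ⧸ Gamma0 N))

instance instFintypePN : Fintype (PN N) := Fintype.ofFinite (SL(2, ℤ) ⧸ Gamma0 N)

instance instDecidableEqPN : DecidableEq (PN N) := Classical.decEq _

/-- the class of `g`. -/
def PN.mk (g : SL(2, ℤ)) : PN N := (QuotientGroup.mk g : SL(2, ℤ) ⧸ Gamma0 N)

theorem PN.smul_mk (g h : SL(2, ℤ)) : g • PN.mk N h = PN.mk N (g * h) := rfl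

theorem PN.mk_eq_mk_iff (g h : SL(2, ℤ)) : PN.mk N g = PN.mk N h ↔ g⁻¹ * h ∈ Gamma0 N :=
  QuotientGroup.eq

theorem PN.mk_surjective : Function.Surjective (PN.mk N) := QuotientGroup.mk_surjective

/-- the chosen section. -/
def PN.out (x : PN N) : SL(2, ℤ) := Quotient.out x

theorem PN.mk_out (x : PN N) : PN.mk N (PN.out N x) = x := Quotient.out_eq' x

/-- the base point. -/
def PN.base : PN N := PN.mk N 1

theorem neg_one_mem_Gamma0 : (-1 : SL(2, ℤ)) ∈ Gamma0 N := by
  rw [Gamma0_mem]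
  simp

theorem PN.neg_one_smul (x : PN N) : (-1 : SL(2, ℤ)) • x = x := by
  obtain ⟨g, rfl⟩ := PN.mk_surjective N x
  rw [PN.smul_mk, PN.mk_eq_mk_iff]
  have h1 : ((-1 : SL(2, ℤ)))⁻¹ = -1 :=
    inv_eq_of_mul_eq_one_right (by rw [neg_mul_neg, one_mul])
  have : (-1 * g)⁻¹ * g = -1 := by
    rw [mul_inv_rev, h1, mul_neg, mul_one, neg_mul, inv_mul_cancel]
  rw [this]
  exact neg_one_mem_Gamma0 N

theorem PN.exists_smul_eq (x y : PN N) : ∃ g : SL(2, ℤ), g • x = y := by
  obtain ⟨g, rfl⟩ := PN.mk_surjective N x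
  obtain ⟨h, rfl⟩ := PN.mk_surjective N y
  exact ⟨h * g⁻¹, by rw [PN.smul_mk, inv_mul_cancel_right]⟩

theorem PN.mem_iff (g : SL(2, ℤ)) : g ∈ Gamma0 N ↔ g • PN.base N = PN.base N := by
  rw [PN.base, PN.smul_mk, PN.mk_eq_mk_iff, mul_one, mul_one, inv_mem_iff]

theorem PN.out_smul_base (x : PN N) : PN.out N x • PN.base N = x := by
  rw [PN.base, PN.smul_mk, mul_one, PN.mk_out]

/-- the datum of `Γ₀(N)`. -/
def DN : Datum (PN N) := datumOf (PN.neg_one_smul N) (PN.exists_smul_eq N)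

variable (A : Type v) [CommRing A] [IsDomain A] [CharZero A]

/-- the Shapiro cocycle of a character of `Γ₀(N)` (section `PN.out`). -/
def dcoN (ψ : Additive (Gamma0 N) →+ A) : SL(2, ℤ) → PN N → A :=
  dco (PN.mem_iff N) (PN.out_smul_base N) ψ

/-- **Shapiro** for `Γ₀(N)`. -/
def shapN : (Additive (Gamma0 N) →+ A) ≃ₗ[A] (DN N).Q A :=
  shapEquiv (PN.neg_one_smul N) (PN.exists_smul_eq N) (PN.mem_iff N) (PN.out_smul_base N) A

theorem shapN_eq (ψ : Additive (Gamma0 N) →+ A) (m1 m2 : PN N → A)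
    (h1 : (DN N).dS A m1 = dcoN N A ψ S) (h2 : (DN N).dR A m2 = dcoN N A ψ (S * T)) :
    shapN N A ψ = Submodule.Quotient.mk (m2 - m1) :=
  shap_eq (PN.neg_one_smul N) (PN.exists_smul_eq N) (PN.mem_iff N) (PN.out_smul_base N) A ψ m1 m2
    h1 h2

theorem d_shapN (ψ : Additive (Gamma0 N) →+ A) :
    (DN N).d A (shapN N A ψ) = Submodule.Quotient.mk (dcoN N A ψ tauP) :=
  d_shap (PN.neg_one_smul N) (PN.exists_smul_eq N) (PN.mem_iff N) (PN.out_smul_base N) A ψ

/-- **`XMod N A A` is the kernel of `d`.** -/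
theorem mem_XMod_iff_d (c : Additive (Gamma0 N) →+ A) :
    c ∈ XMod N A A ↔ (DN N).d A (shapN N A c) = 0 := by
  rw [mem_XMod_iff]
  have key := d_shap_eq_zero_iff (PN.neg_one_smul N) (PN.exists_smul_eq N) (PN.mem_iff N)
    (PN.out_smul_base N) A c
  change _ ↔ (datumOf (PN.neg_one_smul N) (PN.exists_smul_eq N)).d A
    (shap (PN.neg_one_smul N) (PN.exists_smul_eq N) (PN.mem_iff N) (PN.out_smul_base N) A c) = 0
  rw [key]
  constructor
  · intro h γ hγ
    exact h γ (Or.inl hγ)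
  · intro h γ hγ
    rcases hγ with hγ | hγ
    · exact h γ hγ
    · obtain ⟨n, hn, hn1⟩ := hγ.exists_pow_eq_one
      exact psi_torsion A c γ n hn hn1

/-- the Shapiro isomorphism restricted to `XMod`. -/
def shapX : XMod N A A ≃ₗ[A] LinearMap.ker ((DN N).d A) :=
  LinearEquiv.ofBijective
    ((shapN N A).toLinearMap.restrict (p := XMod N A A) (q := LinearMap.ker ((DN N).d A))
      (fun c hc => LinearMap.mem_ker.2 ((mem_XMod_iff_d N A c).1 hc)))
    ⟨by
      intro c c' h
      apply Subtype.ext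
      apply (shapN N A).injective
      have h' := congrArg Subtype.val h
      rw [LinearMap.coe_restrict_apply, LinearMap.coe_restrict_apply] at h'
      exact h',
    by
      intro q
      refine ⟨⟨(shapN N A).symm q.1, ?_⟩, ?_⟩
      · rw [mem_XMod_iff_d, LinearEquiv.apply_symm_apply]
        exact LinearMap.mem_ker.1 q.2
      · apply Subtype.ext
        exact (shapN N A).apply_symm_apply q.1⟩

theorem shapX_coe (c : XMod N A A) :
    ((shapX N A c : LinearMap.ker ((DN N).d A)) : (DN N).Q A) = shapN N A c.1 := rfl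

/-- `XMod N A A ≃ range j` (PD3). -/
def shapJ : XMod N A A ≃ₗ[A] LinearMap.range ((DN N).j A) :=
  (shapX N A).trans (LinearEquiv.ofEq _ _ ((DN N).range_j_eq_ker_d A).symm)

theorem shapJ_coe (c : XMod N A A) :
    ((shapJ N A c : LinearMap.range ((DN N).j A)) : (DN N).Q A) = shapN N A c.1 := rfl

/-- **the Poincaré pairing on `XMod N A A`**. -/
def BX : XMod N A A →ₗ[A] Module.Dual A (XMod N A A) :=
  (shapJ N A).dualMap.toLinearMap ∘ₗ (DN N).BH A ∘ₗ (shapJ N A).toLinearMap

theorem BX_apply (c c' : XMod N A A) :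
    BX N A c c' = (DN N).BH A (shapJ N A c) (shapJ N A c') := rfl

theorem BX_skew (c c' : XMod N A A) : BX N A c c' + BX N A c' c = 0 := by
  rw [BX_apply, BX_apply]
  exact (DN N).BH_skew A _ _

/-- computing `BX` through compactly supported representatives. -/
theorem BX_eq_pair (c c' : XMod N A A) (x x' : (DN N).Zsub A)
    (hx : (DN N).j A x = shapN N A c.1) (hx' : (DN N).j A x' = shapN N A c'.1) :
    BX N A c c' = (DN N).pair A x ((DN N).j A x') := by
  have e1 : shapJ N A c = ((DN N).j A).rangeRestrict x := Subtype.ext hx.symm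
  have e2 : shapJ N A c' = ((DN N).j A).rangeRestrict x' := Subtype.ext hx'.symm
  rw [BX_apply, e1, e2, Datum.BH_j]

/-- **Unimodularity** of the Poincaré pairing on `XMod N A A` over a PID of characteristic `0`. -/
theorem BX_bijective [IsPrincipalIdealRing A] : Function.Bijective (BX N A) := by
  have h2 : (2 : A) ≠ 0 := by norm_num
  have h3 : (3 : A) ≠ 0 := by norm_num
  have hB := (DN N).BH_bijective A h2 h3
  unfold BX
  rw [LinearMap.coe_comp, LinearMap.coe_comp]
  exact (shapJ N A).dualMap.bijective.comp (hB.comp (shapJ N A).bijective)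

end

end Fermat.Agent.S41.PD.ShapiroX
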