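import Fermat.Agent.S41.PD.CorBridge
import Fermat.Agent.S41.PD.ShapiroX
import Fermat.Agent.S41.Degen.Cor

/-!
# S41 / L5 ↔ L1 : `corChar` on `PN (N q) → PN N` is the L1 corestriction `Degen.Cor.corA`

For ANY equivariant `f : PN (N*q) → PN N` with `f base = base` and ANY section `σ'` of `PN (N*q)`,
the corestriction `ShapiroFunct.corChar` (transfer through the pushed-forward Shapiro cocycle) equals
helper20's `Degen.Cor.corA d` (explicit transversal `corRep d : OnePoint (ZMod q) → SL(2,ℤ)`).
-/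

set_option autoImplicit false
set_option linter.unusedSectionVars false

namespace Fermat.Agent.S41.PD.CorBridgeX

open scoped MatrixGroups
open CongruenceSubgroup
open Fermat.Agent.S41.PD.Shapiro Fermat.Agent.S41.PD.ShapiroFunct Fermat.Agent.S41.PD.ShapiroX
open Fermat.Agent.S41.Degen Fermat.Agent.S41.Degen.Cor

noncomputable section

variable {N q : ℕ} [NeZero N] [NeZero (N * q)] [Fact q.Prime] (d : ALData N q)
variable {σ' : PN (N * q) → SL(2, ℤ)} (hσ' : ∀ x : PN (N * q), σ' x • PN.base (N * q) = x)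
variable {f : PN (N * q) → PN N} (hf : ∀ (g : SL(2, ℤ)) (x' : PN (N * q)), f (g • x') = g • f x')
  (hf0 : f (PN.base (N * q)) = PN.base N)
variable (A : Type*) [CommRing A]

include hf0 in
/-- **`corChar = corA`.** -/
theorem corChar_eq_corA (ψ' : Additive (Gamma0 (N * q)) →+ A) :
    corChar (PN.mem_iff N) (PN.mem_iff (N * q)) hσ' hf A ψ' = corA d A ψ' := by
  apply AddMonoidHom.ext
  intro γ
  obtain ⟨γ, rfl⟩ := Additive.ofMul.surjective γ
  rw [corA_apply]
  exact CorBridge.corChar_eq_sum (PN.mem_iff N) (PN.mem_iff (N * q)) hσ' hf hf0 (corRep d)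
    (corRep_mem d)
    (fun h hh => existsUnique_corRep Fact.out d h (Fermat.Agent.S29.Betti.dvd_of_mem_Gamma0 ⟨h, hh⟩))
    γ ((corDatum d).act γ) ((corDatum d).step γ) (corDatum_rel_SL d γ) A ψ'

end

end Fermat.Agent.S41.PD.CorBridgeX
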