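import Fermat.Agent.S41.PD.ResCorX
import Fermat.Agent.S41.PD.CorBridgeX
import Fermat.Agent.S41.PD.AdjFormal
import Fermat.Agent.S41.Degen.TqComp
import Fermat.Agent.S41.Degen.IStar

/-!
# S41 / L5 : the duality block in the shape consumed by `Count.Product`

`X := XMod N ℤ ℤ`, `Y := XMod (N*q) ℤ ℤ`, forms `BX N ℤ`, `BX (N*q) ℤ` (helper17's unimodular Poincaré
pairings).  From the single hypothesis `WIsom` (= PD6: the Atkin–Lehner conjugation `opWX` is an isometry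
of the Poincaré pairing) we get

* `hadjA` (UNCONDITIONAL): `BX (N*q) (resAX x) h = BX N x (corAX d h)`;
* `hadjB` : `BX (N*q) (resBX x) h = BX N x (corBX d h)`;
* `hself` : `T_ℓ` (`ℓ ∤ N`) is self-adjoint for `BX N`.
-/

set_option autoImplicit false
set_option linter.unusedSectionVars false

namespace Fermat.Agent.S41.PD.BlockPD

open scoped MatrixGroups
open CongruenceSubgroup
open Fermat.Agent.S41.PD.ShapiroX Fermat.Agent.S41.PD.ResCorX
open Fermat.Agent.S41.Degen Fermat.Agent.S41.Degen.Cor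
open Fermat.Agent.S29.Betti

noncomputable section

/-- **PD6 (hypothesis shape)**: the Atkin–Lehner conjugation is an isometry of the Poincaré pairing on
`XMod (M*ℓ) ℤ ℤ`. -/
def WIsom (M ℓ : ℕ) [NeZero ℓ] [NeZero (M * ℓ)] (d : ALData M ℓ) : Prop :=
  ∀ u u' : XMod (M * ℓ) ℤ ℤ, BX (M * ℓ) ℤ (opWX ℤ ℤ d u) (opWX ℤ ℤ d u') = BX (M * ℓ) ℤ u u'

variable {N q : ℕ} [NeZero N] [NeZero (N * q)] [Fact q.Prime]

/-- helper17's `corCharX` is helper20's `corAX`. -/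
theorem corCharX_eq_corAX (d : ALData N q) (h : XMod (N * q) ℤ ℤ) :
    corCharX N q ℤ h = corAX ℤ ℤ d h := by
  apply Subtype.ext
  rw [corCharX_coe, corAX_coe]
  exact CorBridgeX.corChar_eq_corA d (PN.out_smul_base (N * q)) (projPN_smul N q)
    (projPN_base N q) ℤ h.1

/-- **`hadjA`** (unconditional): restriction and corestriction are adjoint. -/
theorem hadjA (d : ALData N q) (x : XMod N ℤ ℤ) (h : XMod (N * q) ℤ ℤ) :
    BX (N * q) ℤ (resAX N q ℤ ℤ x) h = BX N ℤ x (corAX ℤ ℤ d h) := by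
  rw [BX_resAX_corCharX, corCharX_eq_corAX d]

/-- **`hadjB`**: the twisted pair. -/
theorem hadjB (d : ALData N q) (hW : WIsom N q d) (x : XMod N ℤ ℤ) (h : XMod (N * q) ℤ ℤ) :
    haveI : NeZero q := ⟨(Fact.out : q.Prime).ne_zero⟩
    BX (N * q) ℤ (resBX N q ℤ ℤ x) h = BX N ℤ x (corBX ℤ ℤ d h) := by
  have : NeZero q := ⟨(Fact.out : q.Prime).ne_zero⟩
  rw [resBX_eq ℤ ℤ d x, corBX_apply]
  exact AdjFormal.adj_twist (BX N ℤ) (BX (N * q) ℤ) (resAX N q ℤ ℤ) (corAX ℤ ℤ d) (opWX ℤ ℤ d)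
    (hadjA d) hW (opWX_opWX ℤ ℤ d) x h

/-- **`hself`**: `T_q` is self-adjoint for `BX N` (apply with `q := ℓ₀`). -/
theorem hself (d : ALData N q) (hqN : ¬ q ∣ N) (hW : WIsom N q d) (x w : XMod N ℤ ℤ) :
    BX N ℤ x (heckeX hqN ℤ ℤ w) = BX N ℤ (heckeX hqN ℤ ℤ x) w := by
  have : NeZero q := ⟨(Fact.out : q.Prime).ne_zero⟩
  exact AdjFormal.selfadj_of_resB (BX N ℤ) (BX (N * q) ℤ) (resAX N q ℤ ℤ) (corAX ℤ ℤ d)
    (opWX ℤ ℤ d) (heckeX hqN ℤ ℤ) (resBX N q ℤ ℤ) (resBX_eq ℤ ℤ d)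
    (TqComp.corAX_resBX d hqN ℤ ℤ) (hadjA d) hW (opWX_opWX ℤ ℤ d) (BX_skew N ℤ)
    (BX_skew (N * q) ℤ) x w

end

end Fermat.Agent.S41.PD.BlockPD
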