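import Fermat.Agent.S41.PD.CuspFormula

/-!
# S41 / L5 (PD6, part 4): automorphisms permute the cusp elements

In the situation of `CuspFormula.Setup`, under abstract hypotheses on the parabolic element `gT`
(`ParabHyp`: classification of positive parabolic elements and the commutation lemma), an
automorphism `α` of `Γ` preserving positivity and `ζ` permutes the cusp elements up to
`Γ`-conjugacy and `ζ`; hence the cusp sum of a cup primitive is `α`-invariant.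
-/

set_option autoImplicit false
set_option linter.unusedSectionVars false

namespace Fermat.Agent.S41.PD.CuspPerm

open Fermat.Agent.S41.PD.Core Fermat.Agent.S41.PD.ShapiroSec Fermat.Agent.S41.PD.CuspFormula

variable {G : Type*} [Group G] {Γ : Subgroup G} [Fintype (G ⧸ Γ)] [DecidableEq (G ⧸ Γ)]
variable (X : Setup Γ)

/-! ### equality up to the central element -/

/-- `a = b` or `a = ζ b`. -/
def Eqz (a b : G) : Prop := a = b ∨ a = X.ζ * b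

theorem eqz_refl (a : G) : Eqz X a a := Or.inl rfl

theorem zeta_zeta_mul (a : G) : X.ζ * (X.ζ * a) = a := by
  rw [← mul_assoc, X.hζ2, one_mul]

theorem eqz_symm {a b : G} (h : Eqz X a b) : Eqz X b a := by
  rcases h with rfl | rfl
  · exact Or.inl rfl
  · exact Or.inr (zeta_zeta_mul X b).symm

theorem eqz_trans {a b c : G} (h1 : Eqz X a b) (h2 : Eqz X b c) : Eqz X a c := by
  rcases h1 with rfl | rfl <;> rcases h2 with rfl | rfl
  · exact Or.inl rfl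
  · exact Or.inr rfl
  · exact Or.inr rfl
  · exact Or.inl (zeta_zeta_mul X c)

theorem eqz_zeta_mul (a : G) : Eqz X (X.ζ * a) a := Or.inr rfl

theorem eqz_mul_left (g : G) {a b : G} (h : Eqz X a b) : Eqz X (g * a) (g * b) := by
  rcases h with rfl | rfl
  · exact Or.inl rfl
  · refine Or.inr ?_
    rw [← mul_assoc, X.hζc g, mul_assoc]

theorem eqz_mul_right (g : G) {a b : G} (h : Eqz X a b) : Eqz X (a * g) (b * g) := by
  rcases h with rfl | rfl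
  · exact Or.inl rfl
  · exact Or.inr (mul_assoc _ _ _)

theorem eqz_mul {a b a' b' : G} (h : Eqz X a b) (h' : Eqz X a' b') : Eqz X (a * a') (b * b') :=
  eqz_trans X (eqz_mul_right X a' h) (eqz_mul_left X b h')

theorem eqz_inv {a b : G} (h : Eqz X a b) : Eqz X a⁻¹ b⁻¹ := by
  rcases h with rfl | rfl
  · exact Or.inl rfl
  · refine Or.inr ?_
    have hζi : X.ζ⁻¹ = X.ζ := inv_eq_of_mul_eq_one_right X.hζ2
    rw [mul_inv_rev, hζi, X.hζc]

theorem eqz_npow {a b : G} (h : Eqz X a b) (n : ℕ) : Eqz X (a ^ n) (b ^ n) := by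
  induction n with
  | zero => simp only [pow_zero]; exact eqz_refl X 1
  | succ n ih => rw [pow_succ, pow_succ]; exact eqz_mul X ih h

theorem eqz_zpow {a b : G} (h : Eqz X a b) (i : ℤ) : Eqz X (a ^ i) (b ^ i) := by
  cases i with
  | ofNat n => simpa using eqz_npow X h n
  | negSucc n => simpa using eqz_inv X (eqz_npow X h (n + 1))

theorem eqz_mem {a b : G} (h : Eqz X a b) : a ∈ Γ ↔ b ∈ Γ := by
  rcases h with rfl | rfl
  · exact Iff.rfl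
  · exact Γ.mul_mem_cancel_left X.hζΓ

theorem eqz_smul {a b : G} (h : Eqz X a b) (y : G ⧸ Γ) : a • y = b • y := by
  rcases h with rfl | rfl
  · rfl
  · rw [mul_smul, Sec.central_smul X.hζc X.hζΓ]

theorem eqz_mk {a b : G} (h : Eqz X a b) :
    (QuotientGroup.mk a : G ⧸ Γ) = QuotientGroup.mk b := by
  have := eqz_smul X h (QuotientGroup.mk 1 : G ⧸ Γ)
  simpa [MulAction.Quotient.smul_mk] using this

/-- abstract hypotheses on the parabolic element. -/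
structure ParabHyp where
  /-- positive parabolic elements -/
  Pos : G → Prop
  pos_zeta : ∀ τ, Pos (X.ζ * τ) ↔ Pos τ
  pos_conj : ∀ (h : G) (m : ℕ), 0 < m → Pos (h⁻¹ * X.gT ^ m * h)
  k1 : ∀ τ, Pos τ → ∃ (h : G) (m : ℕ), 0 < m ∧ Eqz X τ (h⁻¹ * X.gT ^ m * h)
  k2 : ∀ (a : G) (n m : ℕ), 0 < n → 0 < m → Eqz X (X.gT ^ n * a) (a * X.gT ^ m) →
    n = m ∧ ∃ i : ℤ, Eqz X a (X.gT ^ i)


variable {X} (H : ParabHyp X)

namespace ParabHyp

include H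

/-- no positive power of `gT` is `1` or `ζ`. -/
theorem npow_not_eqz_one {N : ℕ} (hN : 0 < N) : ¬ Eqz X (X.gT ^ N) 1 := by
  intro h
  have h2 : X.gT ^ (2 * N) = 1 := by
    rw [mul_comm, pow_mul, pow_two]
    rcases h with h | h
    · rw [h, one_mul]
    · rw [h, mul_one, X.hζ2]
  have h3 : Eqz X (X.gT ^ N * 1) (1 * X.gT ^ (2 * N)) := by
    rw [mul_one, one_mul, h2]; exact h
  have := (H.k2 1 N (2 * N) hN (by omega) h3).1
  omega

/-- powers of `gT` are distinct modulo `ζ`. -/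
theorem zpow_inj {a b : ℤ} (h : Eqz X (X.gT ^ a) (X.gT ^ b)) : a = b := by
  by_contra hne
  have key : ∀ a b : ℤ, b < a → Eqz X (X.gT ^ a) (X.gT ^ b) → False := by
    intro a b hlt h
    have h1 : Eqz X (X.gT ^ (a - b)) 1 := by
      have := eqz_mul_right X (X.gT ^ b)⁻¹ h
      rw [mul_inv_cancel, ← zpow_neg, ← zpow_add, ← sub_eq_add_neg] at this
      exact this
    obtain ⟨N, hN⟩ : ∃ N : ℕ, a - b = N := ⟨(a - b).toNat, by omega⟩
    rw [hN, zpow_natCast] at h1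
    exact H.npow_not_eqz_one (by omega) h1
  rcases lt_or_gt_of_ne hne with hlt | hgt
  · exact key b a hlt (eqz_symm X h)
  · exact key a b hgt h

end ParabHyp


/-! ### cycle representatives and cusp elements -/

section Cusp

theorem cycRep_idem (t : Equiv.Perm (G ⧸ Γ)) (a : G ⧸ Γ) : cycRep t (cycRep t a) = cycRep t a := by
  unfold cycRep
  congr 1
  apply Quotient.sound
  exact (cycRep_sameCycle t a).symm

theorem cycRep_zpow (t : Equiv.Perm (G ⧸ Γ)) (i : ℤ) (a : G ⧸ Γ) :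
    cycRep t ((t ^ i) a) = cycRep t a := by
  unfold cycRep
  congr 1
  apply Quotient.sound
  show Equiv.Perm.SameCycle t ((t ^ i) a) a
  exact Equiv.Perm.SameCycle.symm ⟨i, rfl⟩

omit [Fintype (G ⧸ Γ)] [DecidableEq (G ⧸ Γ)] in
theorem conj_mem_iff (a g : G) :
    a⁻¹ * g * a ∈ Γ ↔ g • (QuotientGroup.mk a : G ⧸ Γ) = QuotientGroup.mk a := by
  rw [MulAction.Quotient.smul_mk, smul_eq_mul, eq_comm, QuotientGroup.eq, mul_assoc]

omit [Fintype (G ⧸ Γ)] [DecidableEq (G ⧸ Γ)] in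
theorem perm_zpow_apply (g : G) (i : ℤ) (y : G ⧸ Γ) : (perm (Γ := Γ) g ^ i) y = g ^ i • y := by
  rw [← map_zpow]
  rfl

variable (X) (s₀ : Sec Γ)

/-- `y` is the last point of its `gT`-cycle. -/
def IsLast (y : G ⧸ Γ) : Prop := X.gT • y = cycRep (perm (Γ := Γ) X.gT) y

/-- the cusp element at `y` (equal to `1` unless `y` is last). -/
noncomputable def kapT (y : G ⧸ Γ) : Γ := (adSec s₀ X.gT).kap X.gT y

/-- the cycle length. -/
noncomputable def nn (y : G ⧸ Γ) : ℕ := kk X.gT y + 1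

theorem nn_pos (y : G ⧸ Γ) : 0 < nn X y := Nat.succ_pos _

variable {X}

theorem kapT_coe {y : G ⧸ Γ} (hy : IsLast X y) :
    ((kapT X s₀ y : Γ) : G) = (s₀.σ (cycRep (perm X.gT) y))⁻¹ * X.gT ^ nn X y *
      s₀.σ (cycRep (perm X.gT) y) :=
  adSec_kap_of_eq s₀ X.gT y hy

theorem kapT_of_not {y : G ⧸ Γ} (hy : ¬ IsLast X y) : kapT X s₀ y = 1 :=
  adSec_kap_of_ne s₀ X.gT y hy

theorem pow_nn_smul {y : G ⧸ Γ} (hy : IsLast X y) :
    X.gT ^ nn X y • cycRep (perm (Γ := Γ) X.gT) y = cycRep (perm X.gT) y := by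
  have h1 := kk_spec (Γ := Γ) X.gT y
  rw [perm_pow_apply] at h1
  rw [nn, pow_succ', mul_smul, h1]
  exact hy

theorem nn_dvd {y : G ⧸ Γ} (hy : IsLast X y) {i : ℤ}
    (hi : X.gT ^ i • cycRep (perm (Γ := Γ) X.gT) y = cycRep (perm X.gT) y) :
    (nn X y : ℤ) ∣ i := by
  have hn : (0 : ℤ) < nn X y := by exact_mod_cast nn_pos X y
  have hpow : ∀ q : ℤ, X.gT ^ ((nn X y : ℤ) * q) • cycRep (perm (Γ := Γ) X.gT) y =
      cycRep (perm X.gT) y := by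
    intro q
    have h1 : (perm (Γ := Γ) X.gT ^ nn X y) (cycRep (perm X.gT) y) = cycRep (perm X.gT) y := by
      rw [perm_pow_apply]; exact pow_nn_smul hy
    have h2 : ((perm (Γ := Γ) X.gT ^ nn X y) ^ q) (cycRep (perm X.gT) y) =
        cycRep (perm X.gT) y := by
      exact Equiv.Perm.zpow_apply_eq_self_of_apply_eq_self h1 q
    rw [← perm_zpow_apply, zpow_mul, zpow_natCast]
    exact h2
  have hrem : X.gT ^ (i % (nn X y : ℤ)) • cycRep (perm (Γ := Γ) X.gT) y =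
      cycRep (perm X.gT) y := by
    have h3 : i % (nn X y : ℤ) = i + (nn X y : ℤ) * (-(i / (nn X y : ℤ))) := by
      have := Int.emod_add_mul_ediv i (nn X y : ℤ)
      linarith
    rw [h3, zpow_add, mul_smul, hpow, hi]
  have h0 : 0 ≤ i % (nn X y : ℤ) := Int.emod_nonneg _ hn.ne'
  have hlt : i % (nn X y : ℤ) < nn X y := Int.emod_lt_of_pos _ hn
  obtain ⟨m, hm⟩ : ∃ m : ℕ, i % (nn X y : ℤ) = m := ⟨(i % (nn X y : ℤ)).toNat, by omega⟩
  rw [hm, zpow_natCast] at hrem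
  rcases Nat.eq_zero_or_pos m with rfl | hmpos
  · exact Int.dvd_of_emod_eq_zero (by simpa using hm)
  · have hle : nn X y ≤ m := kk_succ_le (Γ := Γ) X.gT y hmpos hrem
    omega

theorem kapT_zpow {y : G ⧸ Γ} (hy : IsLast X y) (e : ℤ) :
    (((kapT X s₀ y : Γ) : G)) ^ e = (s₀.σ (cycRep (perm X.gT) y))⁻¹ *
      X.gT ^ ((nn X y : ℤ) * e) * s₀.σ (cycRep (perm X.gT) y) := by
  rw [kapT_coe s₀ hy, zpow_mul, zpow_natCast]
  have : ∀ (a b : G), (a⁻¹ * b * a) ^ e = a⁻¹ * b ^ e * a := by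
    intro a b
    have := map_zpow (MulAut.conj a⁻¹) b e
    simpa [MulAut.conj_apply, mul_assoc] using this.symm
  exact this _ _

end Cusp


/-! ### classification of the cusp generators -/

section Classify

variable (s₀ : Sec Γ)

/-- a cusp generator: a positive parabolic element of `Γ` generating its centraliser mod `ζ`. -/
def IsCuspGen (τ : Γ) : Prop :=
  H.Pos (τ : G) ∧ ∀ β : Γ, β * τ = τ * β → ∃ i : ℤ, Eqz X (β : G) ((τ : G) ^ i)

/-- (B1) the cusp elements are cusp generators. -/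
theorem isCuspGen_kapT {y : G ⧸ Γ} (hy : IsLast X y) : IsCuspGen H (kapT X s₀ y) := by
  refine ⟨?_, ?_⟩
  · rw [kapT_coe s₀ hy]; exact H.pos_conj _ _ (nn_pos X y)
  · intro β hβ
    have hκ := kapT_coe s₀ hy
    set σ := s₀.σ (cycRep (perm X.gT) y) with hσ
    set n := nn X y with hn
    have hcomm : X.gT ^ n * (σ * β * σ⁻¹) = (σ * β * σ⁻¹) * X.gT ^ n := by
      have h1 : ((β * kapT X s₀ y : Γ) : G) = ((kapT X s₀ y * β : Γ) : G) := by rw [hβ]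
      rw [Subgroup.coe_mul, Subgroup.coe_mul, hκ] at h1
      calc X.gT ^ n * (σ * β * σ⁻¹) = σ * (σ⁻¹ * X.gT ^ n * σ * β) * σ⁻¹ := by group
        _ = σ * (β * (σ⁻¹ * X.gT ^ n * σ)) * σ⁻¹ := by rw [h1]
        _ = (σ * β * σ⁻¹) * X.gT ^ n := by group
    obtain ⟨-, i, hi⟩ := H.k2 _ n n (nn_pos X y) (nn_pos X y) (Or.inl hcomm)
    have h2 : Eqz X (β : G) (σ⁻¹ * X.gT ^ i * σ) := by
      have := eqz_mul_right X σ (eqz_mul_left X σ⁻¹ hi)
      have e1 : σ⁻¹ * (σ * β * σ⁻¹) * σ = (β : G) := by group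
      rw [e1] at this
      exact this
    have h3 : σ⁻¹ * X.gT ^ i * σ ∈ Γ := (eqz_mem X h2).mp β.2
    have h4 : X.gT ^ i • cycRep (perm (Γ := Γ) X.gT) y = cycRep (perm X.gT) y := by
      have := (conj_mem_iff σ (X.gT ^ i)).mp h3
      rwa [s₀.mk_σ] at this
    obtain ⟨e, rfl⟩ := nn_dvd hy h4
    refine ⟨e, ?_⟩
    rw [kapT_zpow s₀ hy e]
    exact h2

include H in
/-- (B3) distinct last points give non-conjugate cusp elements. -/
theorem last_eq_of_conj {y y' : G ⧸ Γ} (hy : IsLast X y) (hy' : IsLast X y') (δ : Γ)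
    (h : Eqz X ((kapT X s₀ y : Γ) : G) ((δ * kapT X s₀ y' * δ⁻¹ : Γ) : G)) : y = y' := by
  rw [Subgroup.coe_mul, Subgroup.coe_mul, Subgroup.coe_inv, kapT_coe s₀ hy, kapT_coe s₀ hy'] at h
  set σ := s₀.σ (cycRep (perm X.gT) y) with hσ
  set σ' := s₀.σ (cycRep (perm X.gT) y') with hσ'
  have h1 : Eqz X (X.gT ^ nn X y * (σ * δ * σ'⁻¹)) ((σ * δ * σ'⁻¹) * X.gT ^ nn X y') := by
    have := eqz_mul_right X (δ * σ'⁻¹) (eqz_mul_left X σ h)
    have e1 : σ * (σ⁻¹ * X.gT ^ nn X y * σ) * (δ * σ'⁻¹) = X.gT ^ nn X y * (σ * δ * σ'⁻¹) := by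
      group
    have e2 : σ * (δ * (σ'⁻¹ * X.gT ^ nn X y' * σ') * (δ : G)⁻¹) * (δ * σ'⁻¹) =
        (σ * δ * σ'⁻¹) * X.gT ^ nn X y' := by group
    rw [e1, e2] at this
    exact this
  obtain ⟨-, i, hi⟩ := H.k2 _ _ _ (nn_pos X y) (nn_pos X y') h1
  have h2 : Eqz X (σ * δ) (X.gT ^ i * σ') := by
    have := eqz_mul_right X σ' hi
    have e1 : σ * δ * σ'⁻¹ * σ' = σ * δ := by group
    rw [e1] at this
    exact this
  have h3 := eqz_mk (Γ := Γ) X h2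
  have h4 : cycRep (perm (Γ := Γ) X.gT) y = X.gT ^ i • cycRep (perm (Γ := Γ) X.gT) y' := by
    have e1 : (QuotientGroup.mk (σ * δ) : G ⧸ Γ) = cycRep (perm X.gT) y := by
      rw [QuotientGroup.mk_mul_of_mem σ δ.2, s₀.mk_σ]
    have e2 : (QuotientGroup.mk (X.gT ^ i * σ') : G ⧸ Γ) =
        X.gT ^ i • cycRep (perm (Γ := Γ) X.gT) y' := s₀.mk_mul_σ _ _
    rw [← e1, ← e2, h3]
  have h5 : cycRep (perm (Γ := Γ) X.gT) y = cycRep (perm X.gT) y' := by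
    have := congrArg (cycRep (perm (Γ := Γ) X.gT)) h4
    rw [cycRep_idem, ← perm_zpow_apply, cycRep_zpow, cycRep_idem] at this
    exact this
  have h6 : X.gT • y = X.gT • y' := by
    have a1 : X.gT • y = cycRep (perm (Γ := Γ) X.gT) y := hy
    have a2 : X.gT • y' = cycRep (perm (Γ := Γ) X.gT) y' := hy'
    rw [a1, a2, h5]
  exact MulAction.injective X.gT h6


/-- (B2) every cusp generator is conjugate (up to `ζ`) to a cusp element. -/
theorem exists_conj_of_isCuspGen {τ : Γ} (hτ : IsCuspGen H τ) :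
    ∃ y, IsLast X y ∧ ∃ δ : Γ, Eqz X (τ : G) ((δ * kapT X s₀ y * δ⁻¹ : Γ) : G) := by
  obtain ⟨h, m, hm, hτ1⟩ := H.k1 _ hτ.1
  have hmem : h⁻¹ * X.gT ^ m * h ∈ Γ := (eqz_mem X hτ1).mp τ.2
  have hfix : X.gT ^ m • (QuotientGroup.mk h : G ⧸ Γ) = QuotientGroup.mk h :=
    (conj_mem_iff h _).mp hmem
  set y₁ : G ⧸ Γ := QuotientGroup.mk h with hy₁
  set r := cycRep (perm (Γ := Γ) X.gT) y₁ with hr
  set y := X.gT⁻¹ • r with hyd
  have hyr : X.gT • y = r := smul_inv_smul _ _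
  have hrep : cycRep (perm (Γ := Γ) X.gT) y = r := by
    rw [← cycRep_smul X.gT y, hyr]; exact cycRep_idem _ _
  have hy : IsLast X y := by unfold IsLast; rw [hrep]; exact hyr
  have hk₁ : X.gT ^ kk X.gT y₁ • r = y₁ := by
    have := kk_spec (Γ := Γ) X.gT y₁
    rwa [perm_pow_apply] at this
  set k₁ := kk X.gT y₁ with hk₁d
  set σ := s₀.σ r with hσ
  have hδ : (X.gT ^ k₁ * σ)⁻¹ * h ∈ Γ := by
    rw [← QuotientGroup.eq, s₀.mk_mul_σ, hk₁]
  -- `gT^m` fixes `r`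
  have hfixr : X.gT ^ (m : ℤ) • r = r := by
    rw [zpow_natCast]
    have h1 : X.gT ^ k₁ • (X.gT ^ m • r) = X.gT ^ k₁ • r := by
      rw [← mul_smul, ← pow_add, add_comm, pow_add, mul_smul, hk₁, hfix]
    exact MulAction.injective _ h1
  obtain ⟨e, he⟩ := nn_dvd hy (by rw [hrep]; exact hfixr)
  have hnpos : (0 : ℤ) < nn X y := by exact_mod_cast nn_pos X y
  have hepos : 0 < e := by
    have : (0 : ℤ) < (nn X y : ℤ) * e := by rw [← he]; exact_mod_cast hm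
    exact (pos_iff_pos_of_mul_pos this).mp hnpos
  set δ : Γ := ⟨_, hδ⟩ with hδd
  set κ := kapT X s₀ y with hκd
  -- `h⁻¹ gT^m h = δ⁻¹ κ^e δ`
  have hconj : h⁻¹ * X.gT ^ m * h = ((δ⁻¹ * κ ^ e * δ : Γ) : G) := by
    rw [Subgroup.coe_mul, Subgroup.coe_mul, Subgroup.coe_inv, Subgroup.coe_zpow,
      kapT_zpow s₀ hy e, hrep, ← he, zpow_natCast]
    change _ = ((X.gT ^ k₁ * σ)⁻¹ * h)⁻¹ * (σ⁻¹ * X.gT ^ m * σ) * ((X.gT ^ k₁ * σ)⁻¹ * h)
    have hc : X.gT ^ k₁ * X.gT ^ m = X.gT ^ m * X.gT ^ k₁ := by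
      rw [← pow_add, ← pow_add, add_comm]
    calc h⁻¹ * X.gT ^ m * h
        = h⁻¹ * (X.gT ^ k₁ * X.gT ^ m * (X.gT ^ k₁)⁻¹) * h := by rw [hc]; group
      _ = _ := by group
  -- the element `β = δ⁻¹ κ δ` commutes with `τ`
  have hζΓc : ∀ g : Γ, g * ⟨X.ζ, X.hζΓ⟩ = ⟨X.ζ, X.hζΓ⟩ * g := fun g =>
    Subtype.ext (X.hζc g)
  have hτΓ : τ = δ⁻¹ * κ ^ e * δ ∨ τ = ⟨X.ζ, X.hζΓ⟩ * (δ⁻¹ * κ ^ e * δ) := by
    rw [hconj] at hτ1
    rcases hτ1 with h1 | h1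
    · exact Or.inl (Subtype.ext h1)
    · exact Or.inr (Subtype.ext h1)
  have hβ : (δ⁻¹ * κ * δ) * τ = τ * (δ⁻¹ * κ * δ) := by
    have hc : (δ⁻¹ * κ * δ) * (δ⁻¹ * κ ^ e * δ) = (δ⁻¹ * κ ^ e * δ) * (δ⁻¹ * κ * δ) := by
      group
    rcases hτΓ with h1 | h1
    · rw [h1, hc]
    · rw [h1]
      calc (δ⁻¹ * κ * δ) * (⟨X.ζ, X.hζΓ⟩ * (δ⁻¹ * κ ^ e * δ))
          = ((δ⁻¹ * κ * δ) * ⟨X.ζ, X.hζΓ⟩) * (δ⁻¹ * κ ^ e * δ) := (mul_assoc _ _ _).symm
        _ = (⟨X.ζ, X.hζΓ⟩ * (δ⁻¹ * κ * δ)) * (δ⁻¹ * κ ^ e * δ) := by rw [hζΓc]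
        _ = ⟨X.ζ, X.hζΓ⟩ * ((δ⁻¹ * κ * δ) * (δ⁻¹ * κ ^ e * δ)) := mul_assoc _ _ _
        _ = ⟨X.ζ, X.hζΓ⟩ * ((δ⁻¹ * κ ^ e * δ) * (δ⁻¹ * κ * δ)) := by rw [hc]
        _ = _ := (mul_assoc _ _ _).symm
  obtain ⟨i, hi⟩ := hτ.2 _ hβ
  -- `κ ≈ κ^(e i)`
  have h1 : Eqz X ((δ⁻¹ * κ * δ : Γ) : G) (((δ⁻¹ * κ ^ e * δ : Γ) : G) ^ i) := by
    refine eqz_trans X hi (eqz_zpow X ?_ i)
    rw [← hconj]; exact hτ1
  have h2 : Eqz X ((κ : Γ) : G) (((κ : Γ) : G) ^ (e * i)) := by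
    have e1 : ((δ⁻¹ * κ ^ e * δ : Γ) : G) ^ i = (δ : G)⁻¹ * ((κ : G) ^ (e * i)) * δ := by
      rw [Subgroup.coe_mul, Subgroup.coe_mul, Subgroup.coe_inv, Subgroup.coe_zpow, zpow_mul]
      have := map_zpow (MulAut.conj (δ : G)⁻¹) ((κ : G) ^ e) i
      simpa [MulAut.conj_apply, mul_assoc] using this.symm
    rw [e1, Subgroup.coe_mul, Subgroup.coe_mul, Subgroup.coe_inv] at h1
    have := eqz_mul_right X (δ : G)⁻¹ (eqz_mul_left X (δ : G) h1)
    have a1 : (δ : G) * ((δ : G)⁻¹ * (κ : G) * δ) * (δ : G)⁻¹ = κ := by group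
    have a2 : (δ : G) * ((δ : G)⁻¹ * (κ : G) ^ (e * i) * δ) * (δ : G)⁻¹ = (κ : G) ^ (e * i) := by
      group
    rw [a1, a2] at this
    exact this
  have h3 : Eqz X (X.gT ^ ((nn X y : ℤ) * 1)) (X.gT ^ ((nn X y : ℤ) * (e * i))) := by
    have e1 := kapT_zpow s₀ hy 1
    have e2 := kapT_zpow s₀ hy (e * i)
    rw [zpow_one] at e1
    rw [e2, e1, hrep] at h2
    have := eqz_mul_right X σ⁻¹ (eqz_mul_left X σ h2)
    have a1 : ∀ g : G, σ * (σ⁻¹ * g * σ) * σ⁻¹ = g := fun g => by group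
    rw [a1, a1] at this
    exact this
  have h4 := H.zpow_inj h3
  have h5 : e * i = 1 := by
    have : (nn X y : ℤ) * (e * i) = (nn X y : ℤ) * 1 := h4.symm
    exact mul_left_cancel₀ hnpos.ne' this
  have he1 : e = 1 := by
    rcases Int.eq_one_or_neg_one_of_mul_eq_one h5 with h6 | h6
    · exact h6
    · omega
  refine ⟨y, hy, δ⁻¹, ?_⟩
  rw [inv_inv]
  rw [he1, zpow_one] at hconj
  rw [← hconj]
  exact hτ1

end Classify


/-! ### invariance of the cusp sum -/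

section Invariance

variable {A : Type*} [CommRing A] (s₀ : Sec Γ)

omit H in
theorem eqz_coe_iff (a b : Γ) :
    Eqz X (a : G) (b : G) ↔ a = b ∨ a = ⟨X.ζ, X.hζΓ⟩ * b := by
  unfold Eqz
  constructor
  · rintro (h | h)
    · exact Or.inl (Subtype.ext h)
    · exact Or.inr (Subtype.ext h)
  · rintro (h | h)
    · exact Or.inl (congrArg Subtype.val h)
    · exact Or.inr (congrArg Subtype.val h)

omit H in
/-- a cup primitive is conjugation invariant on elements killed by `φ` and `ψ`. -/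
theorem cup_conj {φ ψ c : Γ → A} (hφ : X.IsAdm φ)
    (hc : ∀ a b, c (a * b) = c a + c b + φ a * ψ b) (τ δ : Γ) (h1 : φ τ = 0) (h2 : ψ τ = 0) :
    c (δ * τ * δ⁻¹) = c τ := by
  have hc1 : c 1 = 0 := by
    have := hc 1 1
    rw [mul_one, hφ.one, zero_mul, add_zero] at this
    exact (add_eq_left.mp this.symm)
  have e1 := hc (δ * τ) δ⁻¹
  have e2 := hc δ τ
  have e3 := hc δ δ⁻¹
  rw [mul_inv_cancel, hc1] at e3
  rw [e1, e2, hφ.add, h1, h2]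
  linear_combination -e3

omit H in
theorem cup_eqz {φ ψ c : Γ → A} (hφ : X.IsAdm φ)
    (hc : ∀ a b, c (a * b) = c a + c b + φ a * ψ b) (h2 : ∀ a : A, 2 * a = 0 → a = 0)
    {τ τ' : Γ} (h : Eqz X (τ : G) (τ' : G)) : c τ = c τ' := by
  rcases (eqz_coe_iff τ τ').mp h with h | h
  · rw [h]
  · rw [h, hc, X.cup_zeta hφ hc h2, hφ.zeta]
    ring

/-- (B4) automorphisms preserving positivity and `ζ` preserve cusp generators. -/
theorem isCuspGen_map (α : Γ ≃* Γ) (hαζ : α ⟨X.ζ, X.hζΓ⟩ = ⟨X.ζ, X.hζΓ⟩)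
    (hαpos : ∀ γ : Γ, H.Pos (γ : G) → H.Pos ((α γ : Γ) : G)) {τ : Γ} (hτ : IsCuspGen H τ) :
    IsCuspGen H (α τ) := by
  refine ⟨hαpos τ hτ.1, ?_⟩
  intro β hβ
  have h1 : α.symm β * τ = τ * α.symm β := by
    have := congrArg α.symm hβ
    rwa [map_mul, map_mul, α.symm_apply_apply] at this
  obtain ⟨i, hi⟩ := hτ.2 _ h1
  refine ⟨i, ?_⟩
  rw [← Subgroup.coe_zpow] at hi ⊢
  rw [eqz_coe_iff] at hi ⊢
  rcases hi with hi | hi
  · left
    have := congrArg α hi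
    rwa [α.apply_symm_apply, map_zpow] at this
  · right
    have := congrArg α hi
    rwa [α.apply_symm_apply, map_mul, hαζ, map_zpow] at this

open Classical in
/-- **the cusp sum of a cup primitive is invariant under automorphisms preserving positivity**. -/
theorem csum_comp_eq {φ ψ c : Γ → A} (hφ : X.IsAdm φ) (hψ : X.IsAdm ψ)
    (hc : ∀ a b, c (a * b) = c a + c b + φ a * ψ b) (h2 : ∀ a : A, 2 * a = 0 → a = 0)
    (α : Γ ≃* Γ) (hαζ : α ⟨X.ζ, X.hζΓ⟩ = ⟨X.ζ, X.hζΓ⟩)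
    (hαpos : ∀ γ : Γ, H.Pos (γ : G) → H.Pos ((α γ : Γ) : G)) :
    csum (adSec s₀ X.gT) (fun γ => c (α γ)) X.gT = csum (adSec s₀ X.gT) c X.gT := by
  have hc1 : c 1 = 0 := by
    have := hc 1 1
    rw [mul_one, hφ.one, zero_mul, add_zero] at this
    exact (add_eq_left.mp this.symm)
  -- reduce to sums over the last points
  have hred : ∀ f : Γ → A, f 1 = 0 →
      csum (adSec s₀ X.gT) f X.gT = ∑ y : {y // IsLast X y}, f (kapT X s₀ y) := by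
    intro f hf
    unfold csum
    rw [← Finset.sum_subtype (Finset.univ.filter (IsLast X)) (by simp)
      (fun y => f (kapT X s₀ y))]
    symm
    apply Finset.sum_subset (Finset.filter_subset _ _)
    intro y _ hy
    rw [Finset.mem_filter] at hy
    have hy' : ¬ IsLast X y := fun h => hy ⟨Finset.mem_univ _, h⟩
    rw [kapT_of_not s₀ hy', hf]
  rw [hred _ (by simp only [map_one]; exact hc1), hred c hc1]
  -- the permutation of the last points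
  have hex : ∀ y : {y // IsLast X y}, ∃ y' : {y // IsLast X y}, ∃ δ : Γ,
      Eqz X ((α (kapT X s₀ y) : Γ) : G) ((δ * kapT X s₀ y' * δ⁻¹ : Γ) : G) := by
    intro y
    obtain ⟨y', hy', δ, hδ⟩ := exists_conj_of_isCuspGen H s₀
      (isCuspGen_map H α hαζ hαpos (isCuspGen_kapT H s₀ y.2))
    exact ⟨⟨y', hy'⟩, δ, hδ⟩
  choose ρ δ hρ using hex
  have hkill : ∀ y : {y // IsLast X y}, φ (kapT X s₀ y) = 0 ∧ ψ (kapT X s₀ y) = 0 := by
    intro y
    have hm : (s₀.σ (cycRep (perm X.gT) y.1))⁻¹ * X.gT ^ nn X y.1 *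
        s₀.σ (cycRep (perm X.gT) y.1) ∈ Γ := by
      rw [← kapT_coe s₀ y.2]; exact (kapT X s₀ y.1).2
    have he : kapT X s₀ y.1 = ⟨_, hm⟩ := Subtype.ext (kapT_coe s₀ y.2)
    rw [he]
    exact ⟨hφ.par _ _ hm, hψ.par _ _ hm⟩
  have hval : ∀ y : {y // IsLast X y}, c (α (kapT X s₀ y)) = c (kapT X s₀ (ρ y)) := by
    intro y
    rw [cup_eqz hφ hc h2 (hρ y), cup_conj hφ hc _ _ (hkill (ρ y)).1 (hkill (ρ y)).2]
  have hinj : Function.Injective ρ := by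
    intro y₁ y₂ h12
    have h1 := hρ y₁
    have h2' := hρ y₂
    rw [h12] at h1
    -- `α κ₁ ≈ δ₁ κ' δ₁⁻¹`, `α κ₂ ≈ δ₂ κ' δ₂⁻¹`
    set κ' := kapT X s₀ (ρ y₂) with hκ'
    set d := α.symm (δ y₁ * (δ y₂)⁻¹) with hd
    have h3 : Eqz X ((kapT X s₀ y₁ : Γ) : G) ((d * kapT X s₀ y₂ * d⁻¹ : Γ) : G) := by
      rw [eqz_coe_iff] at h1 h2' ⊢
      have hα : α (d * kapT X s₀ y₂ * d⁻¹) =
          (δ y₁ * (δ y₂)⁻¹) * α (kapT X s₀ y₂) * (δ y₁ * (δ y₂)⁻¹)⁻¹ := by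
        rw [map_mul, map_mul, map_inv, hd, α.apply_symm_apply]
      have hζΓc : ∀ g : Γ, g * ⟨X.ζ, X.hζΓ⟩ = ⟨X.ζ, X.hζΓ⟩ * g := fun g =>
        Subtype.ext (X.hζc g)
      have hζ2 : (⟨X.ζ, X.hζΓ⟩ : Γ) * ⟨X.ζ, X.hζΓ⟩ = 1 := Subtype.ext X.hζ2
      -- solve for `κ'`
      have hκ2 : α (kapT X s₀ y₂) = δ y₂ * κ' * (δ y₂)⁻¹ ∨
          α (kapT X s₀ y₂) = ⟨X.ζ, X.hζΓ⟩ * (δ y₂ * κ' * (δ y₂)⁻¹) := h2'
      have key : α (kapT X s₀ y₁) = α (d * kapT X s₀ y₂ * d⁻¹) ∨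
          α (kapT X s₀ y₁) = α (⟨X.ζ, X.hζΓ⟩ * (d * kapT X s₀ y₂ * d⁻¹)) := by
        rw [map_mul α ⟨X.ζ, X.hζΓ⟩, hαζ, hα]
        rcases h1 with h1 | h1 <;> rcases hκ2 with hκ2 | hκ2
        · left; rw [h1, hκ2]; group
        · right
          rw [h1, hκ2]
          have : δ y₁ * (δ y₂)⁻¹ * (⟨X.ζ, X.hζΓ⟩ * (δ y₂ * κ' * (δ y₂)⁻¹)) *
              (δ y₁ * (δ y₂)⁻¹)⁻¹ = ⟨X.ζ, X.hζΓ⟩ * (δ y₁ * κ' * (δ y₁)⁻¹) := by
            rw [← mul_assoc _ (⟨X.ζ, X.hζΓ⟩ : Γ), hζΓc, mul_assoc (⟨X.ζ, X.hζΓ⟩ : Γ),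
              mul_assoc (⟨X.ζ, X.hζΓ⟩ : Γ)]
            congr 1
            group
          rw [this, ← mul_assoc, hζ2, one_mul]
        · right
          rw [h1, hκ2]
          congr 1
          group
        · left
          rw [h1, hκ2]
          have : δ y₁ * (δ y₂)⁻¹ * (⟨X.ζ, X.hζΓ⟩ * (δ y₂ * κ' * (δ y₂)⁻¹)) *
              (δ y₁ * (δ y₂)⁻¹)⁻¹ = ⟨X.ζ, X.hζΓ⟩ * (δ y₁ * κ' * (δ y₁)⁻¹) := by
            rw [← mul_assoc _ (⟨X.ζ, X.hζΓ⟩ : Γ), hζΓc, mul_assoc (⟨X.ζ, X.hζΓ⟩ : Γ),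
              mul_assoc (⟨X.ζ, X.hζΓ⟩ : Γ)]
            congr 1
            group
          rw [this]
      rcases key with key | key
      · exact Or.inl (α.injective key)
      · exact Or.inr (α.injective key)
    exact Subtype.ext (last_eq_of_conj H s₀ y₁.2 y₂.2 d h3)
  have hbij : Function.Bijective ρ := Finite.injective_iff_bijective.mp hinj
  calc ∑ y : {y // IsLast X y}, c (α (kapT X s₀ y))
      = ∑ y : {y // IsLast X y}, c (kapT X s₀ (ρ y)) := Finset.sum_congr rfl fun y _ => hval y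
    _ = ∑ y : {y // IsLast X y}, c (kapT X s₀ y) :=
        Equiv.sum_comp (Equiv.ofBijective ρ hbij) (fun y => c (kapT X s₀ y))

/-- **Invariance of the Poincaré pairing** under an automorphism of `Γ` preserving `ζ` and
positive parabolic elements. -/
theorem pair_comp_eq [IsDomain A] (h2 : (2 : A) ≠ 0) (h3 : (3 : A) ≠ 0)
    {φ ψ c : Γ → A} (hφ : X.IsAdm φ) (hψ : X.IsAdm ψ)
    (hc : ∀ a b, c (a * b) = c a + c b + φ a * ψ b)
    (α : Γ ≃* Γ) (hαζ : α ⟨X.ζ, X.hζΓ⟩ = ⟨X.ζ, X.hζΓ⟩)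
    (hαpos : ∀ γ : Γ, H.Pos (γ : G) → H.Pos ((α γ : Γ) : G))
    (hφα : X.IsAdm (fun γ => φ (α γ))) (hψα : X.IsAdm (fun γ => ψ (α γ))) :
    X.D.pair A ⟨X.xOf s₀ (fun γ => φ (α γ)), X.xOf_mem s₀ hφα h2 h3⟩
        (X.D.j A ⟨X.xOf s₀ (fun γ => ψ (α γ)), X.xOf_mem s₀ hψα h2 h3⟩) =
      X.D.pair A ⟨X.xOf s₀ φ, X.xOf_mem s₀ hφ h2 h3⟩
        (X.D.j A ⟨X.xOf s₀ ψ, X.xOf_mem s₀ hψ h2 h3⟩) := by
  have h2' : ∀ a : A, 2 * a = 0 → a = 0 := fun a ha =>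
    (mul_eq_zero.mp ha).resolve_left h2
  have hcα : ∀ a b : Γ, (fun γ => c (α γ)) (a * b) =
      (fun γ => c (α γ)) a + (fun γ => c (α γ)) b + φ (α a) * ψ (α b) := by
    intro a b
    simp only [map_mul, hc]
  rw [X.pair_eq_neg_csum (c := fun γ => c (α γ)) s₀ h2 h3 hφα hψα hcα, X.pair_eq_neg_csum s₀ h2 h3 hφ hψ hc,
    csum_comp_eq H s₀ hφ hψ hc h2' α hαζ hαpos]

end Invariance

end Fermat.Agent.S41.PD.CuspPerm
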