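/-
S41 / L5 (PD), piece (K) of helper2's plan (board #1870), helper3: elementary facts on
parabolic elements of `SL(2, ℤ)`.  Mathlib only.  `T = ModularGroup.T = !![1, 1; 0, 1]`.

* `K1` : a trace-`2ε` element `τ` with `ε (τ₀₁ - τ₁₀) > 0` is `± h⁻¹ T^m h`, `m > 0`;
* `K2` : `T^n a = ± a T^m` (`n, m > 0`) forces `n = m` and `a = ± T^i`;
* `K3` : positivity `ε (τ₀₁ - τ₁₀) > 0` is transported by integral intertwiners of positive
         determinant;
* `K3'`: `τ = h⁻¹ T^m h` has trace `2` and `τ₀₁ - τ₁₀ = m (h₁₀² + h₁₁²) > 0`.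
-/
import Mathlib

set_option autoImplicit false
set_option linter.unusedSimpArgs false

open Matrix Matrix.SpecialLinearGroup ModularGroup
open scoped MatrixGroups

namespace Fermat.Agent.S41.PD.Parab

/-! ### Entry API for `SL(2, ℤ)` -/

theorem ext4 {g h : SL(2, ℤ)} (h00 : g 0 0 = h 0 0) (h01 : g 0 1 = h 0 1)
    (h10 : g 1 0 = h 1 0) (h11 : g 1 1 = h 1 1) : g = h := by
  ext i j
  fin_cases i <;> fin_cases j <;> assumption

theorem det_eq (g : SL(2, ℤ)) : g 0 0 * g 1 1 - g 0 1 * g 1 0 = 1 := by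
  have h := g.det_coe
  rw [Matrix.det_fin_two] at h
  exact h

theorem mul_entry (g h : SL(2, ℤ)) (i j : Fin 2) :
    (g * h) i j = g i 0 * h 0 j + g i 1 * h 1 j := by
  simp [Matrix.mul_apply, Fin.sum_univ_two]

theorem inv_00 (g : SL(2, ℤ)) : g⁻¹ 0 0 = g 1 1 := by
  rw [SL2_inv_expl]; rfl

theorem inv_01 (g : SL(2, ℤ)) : g⁻¹ 0 1 = -g 0 1 := by
  rw [SL2_inv_expl]; rfl

theorem inv_10 (g : SL(2, ℤ)) : g⁻¹ 1 0 = -g 1 0 := by
  rw [SL2_inv_expl]; rfl

theorem inv_11 (g : SL(2, ℤ)) : g⁻¹ 1 1 = g 0 0 := by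
  rw [SL2_inv_expl]; rfl

theorem neg_entry (g : SL(2, ℤ)) (i j : Fin 2) : (-g) i j = -g i j := by
  simp

theorem T_zpow_00 (n : ℤ) : (T ^ n) 0 0 = 1 := by
  have := coe_T_zpow n
  simp [this]

theorem T_zpow_01 (n : ℤ) : (T ^ n) 0 1 = n := by
  have := coe_T_zpow n
  simp [this]

theorem T_zpow_10 (n : ℤ) : (T ^ n) 1 0 = 0 := by
  have := coe_T_zpow n
  simp [this]

theorem T_zpow_11 (n : ℤ) : (T ^ n) 1 1 = 1 := by
  have := coe_T_zpow n
  simp [this]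

theorem T_pow_00 (n : ℕ) : (T ^ n) 0 0 = 1 := by
  rw [← zpow_natCast]; exact T_zpow_00 n

theorem T_pow_01 (n : ℕ) : (T ^ n) 0 1 = n := by
  rw [← zpow_natCast]; exact T_zpow_01 n

theorem T_pow_10 (n : ℕ) : (T ^ n) 1 0 = 0 := by
  rw [← zpow_natCast]; exact T_zpow_10 n

theorem T_pow_11 (n : ℕ) : (T ^ n) 1 1 = 1 := by
  rw [← zpow_natCast]; exact T_zpow_11 n

theorem trace_eq (g : SL(2, ℤ)) : (g : Matrix (Fin 2) (Fin 2) ℤ).trace = g 0 0 + g 1 1 := by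
  simp [Matrix.trace_fin_two]

/-- Entries of `h⁻¹ * T ^ m * h` (`m : ℤ`). -/
theorem conj_T_zpow_entries (h : SL(2, ℤ)) (m : ℤ) :
    (h⁻¹ * T ^ m * h) 0 0 = 1 + m * (h 1 0 * h 1 1) ∧
    (h⁻¹ * T ^ m * h) 0 1 = m * (h 1 1) ^ 2 ∧
    (h⁻¹ * T ^ m * h) 1 0 = -(m * (h 1 0) ^ 2) ∧
    (h⁻¹ * T ^ m * h) 1 1 = 1 - m * (h 1 0 * h 1 1) := by
  have hd := det_eq h
  refine ⟨?_, ?_, ?_, ?_⟩
  · simp only [mul_entry, inv_00, inv_01, inv_10, inv_11, T_zpow_00, T_zpow_01, T_zpow_10,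
      T_zpow_11]
    linear_combination (1 : ℤ) * hd
  · simp only [mul_entry, inv_00, inv_01, inv_10, inv_11, T_zpow_00, T_zpow_01, T_zpow_10,
      T_zpow_11]
    ring
  · simp only [mul_entry, inv_00, inv_01, inv_10, inv_11, T_zpow_00, T_zpow_01, T_zpow_10,
      T_zpow_11]
    ring
  · simp only [mul_entry, inv_00, inv_01, inv_10, inv_11, T_zpow_00, T_zpow_01, T_zpow_10,
      T_zpow_11]
    linear_combination (1 : ℤ) * hd

/-- Entries of `h⁻¹ * T ^ m * h` (`m : ℕ`). -/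
theorem conj_T_pow_entries (h : SL(2, ℤ)) (m : ℕ) :
    (h⁻¹ * T ^ m * h) 0 0 = 1 + m * (h 1 0 * h 1 1) ∧
    (h⁻¹ * T ^ m * h) 0 1 = m * (h 1 1) ^ 2 ∧
    (h⁻¹ * T ^ m * h) 1 0 = -(m * (h 1 0) ^ 2) ∧
    (h⁻¹ * T ^ m * h) 1 1 = 1 - m * (h 1 0 * h 1 1) := by
  have := conj_T_zpow_entries h (m : ℤ)
  rwa [zpow_natCast] at this

theorem bottom_row_sq_pos (h : SL(2, ℤ)) : 0 < (h 1 0) ^ 2 + (h 1 1) ^ 2 := by
  have hd := det_eq h
  by_contra hc
  have h1 : (h 1 0) ^ 2 = 0 := by nlinarith [sq_nonneg (h 1 0), sq_nonneg (h 1 1)]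
  have h2 : (h 1 1) ^ 2 = 0 := by nlinarith [sq_nonneg (h 1 0), sq_nonneg (h 1 1)]
  have h3 : h 1 0 = 0 := by simpa using h1
  have h4 : h 1 1 = 0 := by simpa using h2
  rw [h3, h4] at hd
  simp at hd

/-- **(K3')** `τ = h⁻¹ T^m h` has trace `2` and `τ₀₁ - τ₁₀ = m (h₁₀² + h₁₁²) > 0`. -/
theorem K3' (h : SL(2, ℤ)) {m : ℕ} (hm : 0 < m) :
    ((h⁻¹ * T ^ m * h : SL(2, ℤ)) : Matrix (Fin 2) (Fin 2) ℤ).trace = 2 ∧
    (h⁻¹ * T ^ m * h) 0 1 - (h⁻¹ * T ^ m * h) 1 0 = m * ((h 1 0) ^ 2 + (h 1 1) ^ 2) ∧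
    0 < (h⁻¹ * T ^ m * h) 0 1 - (h⁻¹ * T ^ m * h) 1 0 := by
  obtain ⟨e00, e01, e10, e11⟩ := conj_T_pow_entries h m
  have hpos := bottom_row_sq_pos h
  have hdiff : (h⁻¹ * T ^ m * h) 0 1 - (h⁻¹ * T ^ m * h) 1 0 =
      m * ((h 1 0) ^ 2 + (h 1 1) ^ 2) := by
    rw [e01, e10]; ring
  refine ⟨?_, hdiff, ?_⟩
  · rw [trace_eq, e00, e11]; ring
  · rw [hdiff]
    have : (0 : ℤ) < m := by exact_mod_cast hm
    positivity

/-- **(K2)** `T^n a = ± a T^m` with `n, m > 0` forces `n = m` and `a = ± T^i`. -/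
theorem K2 (a : SL(2, ℤ)) {n m : ℕ} (hn : 0 < n) (hm : 0 < m)
    (h : T ^ n * a = a * T ^ m ∨ T ^ n * a = -(a * T ^ m)) :
    n = m ∧ ∃ i : ℤ, a = T ^ i ∨ a = -T ^ i := by
  have hd := det_eq a
  have hnZ : (0 : ℤ) < n := by exact_mod_cast hn
  have hmZ : (0 : ℤ) < m := by exact_mod_cast hm
  rcases h with h | h
  · have e00 := congrArg (fun g : SL(2, ℤ) => g 0 0) h
    have e01 := congrArg (fun g : SL(2, ℤ) => g 0 1) h
    simp only [mul_entry, T_pow_00, T_pow_01, T_pow_10, T_pow_11] at e00 e01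
    have ha10 : a 1 0 = 0 := by
      have : (n : ℤ) * a 1 0 = 0 := by linarith
      rcases mul_eq_zero.mp this with h0 | h0
      · omega
      · exact h0
    rw [ha10] at hd
    have hprod : a 0 0 * a 1 1 = 1 := by linarith
    rcases Int.eq_one_or_neg_one_of_mul_eq_one' hprod with ⟨h00, h11⟩ | ⟨h00, h11⟩
    · have hnm : (n : ℤ) = m := by rw [h00, h11] at e01; linarith
      refine ⟨by exact_mod_cast hnm, a 0 1, Or.inl ?_⟩
      apply ext4
      · rw [T_zpow_00, h00]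
      · rw [T_zpow_01]
      · rw [T_zpow_10, ha10]
      · rw [T_zpow_11, h11]
    · have hnm : (n : ℤ) = m := by rw [h00, h11] at e01; linarith
      refine ⟨by exact_mod_cast hnm, -a 0 1, Or.inr ?_⟩
      apply ext4
      · rw [neg_entry, T_zpow_00, h00]
      · rw [neg_entry, T_zpow_01]; ring
      · rw [neg_entry, T_zpow_10, ha10]; ring
      · rw [neg_entry, T_zpow_11, h11]
  · exfalso
    have e00 := congrArg (fun g : SL(2, ℤ) => g 0 0) h
    have e10 := congrArg (fun g : SL(2, ℤ) => g 1 0) h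
    simp only [mul_entry, neg_entry, T_pow_00, T_pow_01, T_pow_10, T_pow_11] at e00 e10
    have ha10 : a 1 0 = 0 := by linarith
    have ha00 : a 0 0 = 0 := by rw [ha10] at e00; linarith
    rw [ha10, ha00] at hd
    simp at hd

/-- `K1` for `ε = 1`. -/
theorem K1_pos (τ : SL(2, ℤ)) (htr : τ 0 0 + τ 1 1 = 2) (hpos : 0 < τ 0 1 - τ 1 0) :
    ∃ (h : SL(2, ℤ)) (m : ℕ), 0 < m ∧ τ = h⁻¹ * T ^ m * h := by
  have hd := det_eq τ
  -- a primitive fixed vector `(x, y)`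
  obtain ⟨x, y, hxy, E1, E2⟩ : ∃ x y : ℤ, IsCoprime x y ∧
      τ 0 0 * x + τ 0 1 * y = x ∧ τ 1 0 * x + τ 1 1 * y = y := by
    by_cases hb : τ 0 1 = 0
    · refine ⟨0, 1, isCoprime_zero_left.mpr isUnit_one, by simp [hb], ?_⟩
      have h1 : (τ 0 0 - 1) ^ 2 = 0 := by
        have : τ 1 1 = 2 - τ 0 0 := by linarith
        rw [hb, this] at hd
        linarith
      have h2 : τ 0 0 = 1 := by
        have := pow_eq_zero_iff (two_ne_zero) |>.mp h1
        linarith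
      have : τ 1 1 = 1 := by linarith
      simp [this]
    · have hgpos : 0 < Int.gcd (τ 0 1) (1 - τ 0 0) := Int.gcd_pos_of_ne_zero_left _ hb
      obtain ⟨x, y, hxy1, hx, hy⟩ := Int.exists_gcd_one hgpos
      set g : ℤ := (Int.gcd (τ 0 1) (1 - τ 0 0) : ℤ) with hg
      have hg0 : g ≠ 0 := by
        rw [hg]
        exact_mod_cast hgpos.ne'
      have hcop : IsCoprime x y := Int.isCoprime_iff_gcd_eq_one.mpr hxy1
      refine ⟨x, y, hcop, ?_, ?_⟩
      · have : τ 0 0 = 1 - y * g := by linarith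
        rw [this, hx]; ring
      · -- multiply by `g`
        have h11 : τ 1 1 = 1 + y * g := by linarith
        have key : g * (τ 1 0 * x + τ 1 1 * y - y) = 0 := by
          have h00 : τ 0 0 = 1 - y * g := by linarith
          rw [h00, h11, hx] at hd
          rw [h11]
          linear_combination (-1 : ℤ) * hd
        have := (mul_eq_zero.mp key).resolve_left hg0
        linarith
  obtain ⟨u, w, huw⟩ := hxy
  -- `h = !![u, w; -y, x]`
  let h : SL(2, ℤ) := ⟨!![u, w; -y, x], by rw [Matrix.det_fin_two_of]; linarith⟩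
  have h00 : h 0 0 = u := rfl
  have h01 : h 0 1 = w := rfl
  have h10 : h 1 0 = -y := rfl
  have h11 : h 1 1 = x := rfl
  set M : SL(2, ℤ) := h * τ * h⁻¹ with hM
  have M00 : M 0 0 = 1 := by
    simp only [hM, mul_entry, inv_00, inv_01, inv_10, inv_11, h00, h01, h10, h11]
    linear_combination u * E1 + w * E2 + huw
  have M10 : M 1 0 = 0 := by
    simp only [hM, mul_entry, inv_00, inv_01, inv_10, inv_11, h00, h01, h10, h11]
    linear_combination (-y) * E1 + x * E2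
  have M11 : M 1 1 = 1 := by
    have := det_eq M
    rw [M00, M10] at this
    linarith
  have hMT : M = T ^ (M 0 1) := by
    apply ext4
    · rw [T_zpow_00, M00]
    · rw [T_zpow_01]
    · rw [T_zpow_10, M10]
    · rw [T_zpow_11, M11]
  have hτ : τ = h⁻¹ * T ^ (M 0 1) * h := by
    rw [← hMT, hM]; group
  -- positivity of `m`
  obtain ⟨-, e01, e10, -⟩ := conj_T_zpow_entries h (M 0 1)
  have hdiff : τ 0 1 - τ 1 0 = M 0 1 * ((h 1 0) ^ 2 + (h 1 1) ^ 2) := by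
    rw [hτ, e01, e10]; ring
  have hsq := bottom_row_sq_pos h
  have hm : 0 < M 0 1 := by
    rw [hdiff] at hpos
    exact pos_of_mul_pos_left hpos hsq.le
  refine ⟨h, (M 0 1).toNat, by omega, ?_⟩
  have : ((M 0 1).toNat : ℤ) = M 0 1 := Int.toNat_of_nonneg hm.le
  rw [← zpow_natCast, this]
  exact hτ

/-- **(K1)** a trace-`2ε` element `τ` with `ε (τ₀₁ - τ₁₀) > 0` is `± h⁻¹ T^m h`, `m > 0`. -/
theorem K1 (τ : SL(2, ℤ)) {ε : ℤ} (hε : ε = 1 ∨ ε = -1)
    (htr : (τ : Matrix (Fin 2) (Fin 2) ℤ).trace = 2 * ε) (hpos : 0 < ε * (τ 0 1 - τ 1 0)) :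
    ∃ (h : SL(2, ℤ)) (m : ℕ), 0 < m ∧ (τ = h⁻¹ * T ^ m * h ∨ τ = -(h⁻¹ * T ^ m * h)) := by
  rw [trace_eq] at htr
  rcases hε with rfl | rfl
  · obtain ⟨h, m, hm, e⟩ := K1_pos τ (by linarith) (by linarith)
    exact ⟨h, m, hm, Or.inl e⟩
  · obtain ⟨h, m, hm, e⟩ := K1_pos (-τ) (by rw [neg_entry, neg_entry]; linarith)
      (by rw [neg_entry, neg_entry]; linarith)
    refine ⟨h, m, hm, Or.inr ?_⟩
    rw [← e, neg_neg]

/-- The positivity inequality behind `K3`: for a nilpotent `!![α, β; γ, -α]` (`α² + βγ = 0`)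
with `β - γ > 0` and an integral matrix `!![p, q; r, s]` of nonzero determinant. -/
theorem quad_pos {p q r s α β γ : ℤ} (hΔ : p * s - q * r ≠ 0) (hnil : α ^ 2 + β * γ = 0)
    (hpos : 0 < β - γ) :
    0 < (p ^ 2 + r ^ 2) * β - 2 * (p * q + r * s) * α - (q ^ 2 + s ^ 2) * γ := by
  set E := (p ^ 2 + r ^ 2) * β - 2 * (p * q + r * s) * α - (q ^ 2 + s ^ 2) * γ with hE
  have key : E * (β - γ) = (β * p - α * q) ^ 2 + (β * r - α * s) ^ 2 +
      (α * p + γ * q) ^ 2 + (α * r + γ * s) ^ 2 := by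
    rw [hE]
    linear_combination (-(p ^ 2 + r ^ 2) - (q ^ 2 + s ^ 2)) * hnil
  by_contra hcon
  have hE0 : E ≤ 0 := not_lt.mp hcon
  have hle : E * (β - γ) ≤ 0 := mul_nonpos_of_nonpos_of_nonneg hE0 hpos.le
  rw [key] at hle
  have s1 := sq_nonneg (β * p - α * q)
  have s2 := sq_nonneg (β * r - α * s)
  have s3 := sq_nonneg (α * p + γ * q)
  have s4 := sq_nonneg (α * r + γ * s)
  have z1 : β * p - α * q = 0 := by
    have : (β * p - α * q) ^ 2 = 0 := by linarith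
    simpa using this
  have z2 : β * r - α * s = 0 := by
    have : (β * r - α * s) ^ 2 = 0 := by linarith
    simpa using this
  have z3 : α * p + γ * q = 0 := by
    have : (α * p + γ * q) ^ 2 = 0 := by linarith
    simpa using this
  have z4 : α * r + γ * s = 0 := by
    have : (α * r + γ * s) ^ 2 = 0 := by linarith
    simpa using this
  have hβ : β * (p * s - q * r) = 0 := by linear_combination s * z1 - q * z2
  have hγ : γ * (p * s - q * r) = 0 := by linear_combination p * z4 - r * z3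
  have hβ0 : β = 0 := (mul_eq_zero.mp hβ).resolve_right hΔ
  have hγ0 : γ = 0 := (mul_eq_zero.mp hγ).resolve_right hΔ
  rw [hβ0, hγ0] at hpos
  simp at hpos

/-- **(K3)** positivity is transported by integral intertwiners of positive determinant. -/
theorem K3 {D : Matrix (Fin 2) (Fin 2) ℤ} (hD : 0 < D.det) {τ τ' : SL(2, ℤ)}
    (hint : D * (τ : Matrix (Fin 2) (Fin 2) ℤ) = (τ' : Matrix (Fin 2) (Fin 2) ℤ) * D)
    {ε : ℤ} (hε : ε = 1 ∨ ε = -1) (htr : (τ : Matrix (Fin 2) (Fin 2) ℤ).trace = 2 * ε)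
    (hpos : 0 < ε * (τ 0 1 - τ 1 0)) : 0 < ε * (τ' 0 1 - τ' 1 0) := by
  rw [trace_eq] at htr
  have hd := det_eq τ
  rw [Matrix.det_fin_two] at hD
  have e00 := congrFun (congrFun hint 0) 0
  have e01 := congrFun (congrFun hint 0) 1
  have e10 := congrFun (congrFun hint 1) 0
  have e11 := congrFun (congrFun hint 1) 1
  simp only [Matrix.mul_apply, Fin.sum_univ_two] at e00 e01 e10 e11
  set p := D 0 0
  set q := D 0 1
  set r := D 1 0
  set s := D 1 1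
  set Δ := p * s - q * r with hΔ
  have hε2 : ε ^ 2 = 1 := by rcases hε with rfl | rfl <;> norm_num
  -- the nilpotent part of `ε τ`
  have hnil : (ε * τ 0 0 - 1) ^ 2 + (ε * τ 0 1) * (ε * τ 1 0) = 0 := by
    have h11 : τ 1 1 = 2 * ε - τ 0 0 := by linarith
    rw [h11] at hd
    linear_combination ((τ 0 0) ^ 2 + τ 0 1 * τ 1 0) * hε2 + (-1 : ℤ) * hd
  have hq := quad_pos (p := p) (q := q) (r := r) (s := s) (ne_of_gt hD) hnil
    (by have : ε * τ 0 1 - ε * τ 1 0 = ε * (τ 0 1 - τ 1 0) := by ring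
        rw [this]; exact hpos)
  -- `Δ * ε * (τ' 0 1 - τ' 1 0)` is the quadratic expression
  have hb' : Δ * τ' 0 1 = p * (p * τ 0 1 + q * τ 1 1) - q * (p * τ 0 0 + q * τ 1 0) := by
    rw [hΔ]; linear_combination q * e00 - p * e01
  have hc' : Δ * τ' 1 0 = s * (r * τ 0 0 + s * τ 1 0) - r * (r * τ 0 1 + s * τ 1 1) := by
    rw [hΔ]; linear_combination r * e11 - s * e10
  have hmain : Δ * (ε * (τ' 0 1 - τ' 1 0)) =
      (p ^ 2 + r ^ 2) * (ε * τ 0 1) - 2 * (p * q + r * s) * (ε * τ 0 0 - 1) -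
        (q ^ 2 + s ^ 2) * (ε * τ 1 0) := by
    have h11 : τ 1 1 = 2 * ε - τ 0 0 := by linarith
    rw [h11] at hb' hc'
    linear_combination ε * hb' - ε * hc' + (2 * (p * q + r * s)) * hε2
  rw [← hmain] at hq
  exact pos_of_mul_pos_right hq hD.le

end Fermat.Agent.S41.PD.Parab
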