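import Fermat.Agent.S41.PD.SetupX
import Fermat.Agent.S41.PD.CuspPerm
import Fermat.Agent.S41.PD.Parab
import Fermat.Agent.S41.Degen.Defs

/-!
# S41 / L5 (PD6, final): the Atkin–Lehner operator `W` is an isometry of the Poincaré pairing

`hIsomW : BX (N*q) ℤ (opWX ℤ ℤ d y) (opWX ℤ ℤ d y') = BX (N*q) ℤ y y'`.

Instantiation of `CuspPerm.csum_comp_eq` for `Γ = Γ₀(M)`: `ParabHyp (setupX M)` from
`Parab.K1`, `K2`, `K3'` (through `gT = S T S = -(S T S⁻¹)`), the automorphism `wEquiv d` (`wConj d`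
is bijective by `wConj_wConj`), positivity transport by `Parab.K3` with `D = d.wMat`
(`det = q > 0`).
-/

set_option autoImplicit false
set_option linter.unusedSectionVars false

namespace Fermat.Agent.S41.PD.WIsom

open scoped MatrixGroups
open CongruenceSubgroup ModularGroup Fermat.Agent.S41.PD.Core Fermat.Agent.S41.PD.ShapiroX
  Fermat.Agent.S41.PD.ShapiroSec Fermat.Agent.S41.PD.CuspFormula Fermat.Agent.S41.PD.CuspPerm
  Fermat.Agent.S41.PD.SetupX Fermat.Agent.S41.Degen Fermat.Agent.S29.Betti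

attribute [local instance] fintypeQuot decEqQuot

noncomputable section

/-! ### positive parabolic elements -/

/-- positive parabolic elements of `SL(2, ℤ)`. -/
def PosP (τ : SL(2, ℤ)) : Prop :=
  ∃ ε : ℤ, (ε = 1 ∨ ε = -1) ∧ (τ : Matrix (Fin 2) (Fin 2) ℤ).trace = 2 * ε ∧
    0 < ε * (τ 0 1 - τ 1 0)

theorem posP_neg {τ : SL(2, ℤ)} (h : PosP τ) : PosP (-τ) := by
  obtain ⟨ε, hε, htr, hpos⟩ := h
  refine ⟨-ε, ?_, ?_, ?_⟩
  · rcases hε with rfl | rfl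
    · right; rfl
    · left; norm_num
  · rw [Matrix.SpecialLinearGroup.coe_neg, Matrix.trace_neg, htr]; ring
  · rw [Parab.neg_entry, Parab.neg_entry]
    have : -ε * (-τ 0 1 - -τ 1 0) = ε * (τ 0 1 - τ 1 0) := by ring
    rw [this]; exact hpos

theorem posP_neg_iff (τ : SL(2, ℤ)) : PosP (-τ) ↔ PosP τ :=
  ⟨fun h => by simpa using posP_neg h, posP_neg⟩

variable (M : ℕ) [NeZero M]

theorem zeta_eq : (setupX M).ζ = -1 := rfl

theorem eqz_iff (a b : SL(2, ℤ)) : Eqz (setupX M) a b ↔ a = b ∨ a = -b := by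
  unfold Eqz
  rw [zeta_eq, neg_one_mul]

theorem posP_eqz {a b : SL(2, ℤ)} (h : Eqz (setupX M) a b) : PosP a ↔ PosP b := by
  rcases (eqz_iff M a b).mp h with rfl | rfl
  · exact Iff.rfl
  · exact posP_neg_iff b

theorem S_inv : (S : SL(2, ℤ))⁻¹ = -S := by
  apply inv_eq_of_mul_eq_one_right
  rw [mul_neg, Present.S_mul_S_SL, neg_neg]

/-- `gT = S T S = - (S T S⁻¹)`. -/
theorem eqz_gT : Eqz (setupX M) (setupX M).gT (S * T * S⁻¹) := by
  rw [eqz_iff]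
  right
  rw [setupX_gT, S_inv, mul_neg, neg_neg]

theorem eqz_gT_pow (n : ℕ) : Eqz (setupX M) ((setupX M).gT ^ n) (S * T ^ n * S⁻¹) := by
  have := eqz_npow (setupX M) (eqz_gT M) n
  rwa [conj_pow] at this

theorem eqz_gT_zpow (i : ℤ) : Eqz (setupX M) ((setupX M).gT ^ i) (S * T ^ i * S⁻¹) := by
  have := eqz_zpow (setupX M) (eqz_gT M) i
  rwa [conj_zpow] at this

/-- conjugates of powers of `gT`, up to sign, as conjugates of powers of `T`. -/
theorem eqz_conj_gT (h : SL(2, ℤ)) (m : ℕ) :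
    Eqz (setupX M) (h⁻¹ * (setupX M).gT ^ m * h) ((S⁻¹ * h)⁻¹ * T ^ m * (S⁻¹ * h)) := by
  have := eqz_mul_right (setupX M) h (eqz_mul_left (setupX M) h⁻¹ (eqz_gT_pow M m))
  have e : h⁻¹ * (S * T ^ m * S⁻¹) * h = (S⁻¹ * h)⁻¹ * T ^ m * (S⁻¹ * h) := by group
  rwa [e] at this

/-- **the parabolic hypotheses for `Γ₀(M)`**. -/
def parabHypX : ParabHyp (setupX M) where
  Pos := PosP
  pos_zeta τ := by
    rw [zeta_eq, neg_one_mul]
    exact posP_neg_iff τ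
  pos_conj h m hm := by
    rw [posP_eqz M (eqz_conj_gT M h m)]
    obtain ⟨h1, -, h3⟩ := Parab.K3' (S⁻¹ * h) hm
    exact ⟨1, Or.inl rfl, by rw [h1]; ring, by rw [one_mul]; exact h3⟩
  k1 τ hτ := by
    obtain ⟨ε, hε, htr, hpos⟩ := hτ
    obtain ⟨h', m, hm, hh⟩ := Parab.K1 τ hε htr hpos
    refine ⟨S * h', m, hm, ?_⟩
    have e1 : Eqz (setupX M) τ (h'⁻¹ * T ^ m * h') := (eqz_iff M _ _).mpr hh
    have e2 := eqz_conj_gT M (S * h') m
    rw [inv_mul_cancel_left] at e2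
    exact eqz_trans _ e1 (eqz_symm _ e2)
  k2 a n m hn hm h := by
    -- translate to `T`
    have h1 : Eqz (setupX M) (S * T ^ n * S⁻¹ * a) (a * (S * T ^ m * S⁻¹)) :=
      eqz_trans _ (eqz_mul_right _ a (eqz_symm _ (eqz_gT_pow M n)))
        (eqz_trans _ h (eqz_mul_left _ a (eqz_gT_pow M m)))
    have h2 := eqz_mul_right (setupX M) S (eqz_mul_left (setupX M) S⁻¹ h1)
    have e1 : S⁻¹ * (S * T ^ n * S⁻¹ * a) * S = T ^ n * (S⁻¹ * a * S) := by group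
    have e2 : S⁻¹ * (a * (S * T ^ m * S⁻¹)) * S = (S⁻¹ * a * S) * T ^ m := by group
    rw [e1, e2, eqz_iff] at h2
    obtain ⟨hnm, i, hi⟩ := Parab.K2 (S⁻¹ * a * S) hn hm h2
    refine ⟨hnm, i, ?_⟩
    have h3 : Eqz (setupX M) (S⁻¹ * a * S) (T ^ i) := (eqz_iff M _ _).mpr hi
    have h4 := eqz_mul_right (setupX M) S⁻¹ (eqz_mul_left (setupX M) S h3)
    have e3 : S * (S⁻¹ * a * S) * S⁻¹ = a := by group
    rw [e3] at h4
    exact eqz_trans _ h4 (eqz_symm _ (eqz_gT_zpow M i))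

/-! ### the automorphism -/

variable {N q : ℕ} [NeZero q]

/-- `wConj d` as an automorphism of `Γ₀(N q)`. -/
def wEquiv (d : ALData N q) : Gamma0 (N * q) ≃* Gamma0 (N * q) :=
  MulEquiv.ofBijective (wConj d) ⟨wConj_injective d, fun β =>
    ⟨wConj d (d.g0⁻¹ * β * d.g0), by rw [wConj_wConj]; group⟩⟩

@[simp] theorem wEquiv_apply (d : ALData N q) (γ : Gamma0 (N * q)) : wEquiv d γ = wConj d γ := rfl

variable [NeZero (N * q)]

theorem wEquiv_neg_one (d : ALData N q) :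
    wEquiv d ⟨-1, neg_one_mem_Gamma0 (N * q)⟩ = ⟨-1, neg_one_mem_Gamma0 (N * q)⟩ := by
  rw [wEquiv_apply]
  apply wConj_eq
  simp

theorem wMat_det_pos (d : ALData N q) : 0 < d.wMat.det := by
  rw [d.wMat_det]
  exact_mod_cast Nat.pos_of_ne_zero (NeZero.ne q)

theorem posP_wConj (d : ALData N q) (γ : Gamma0 (N * q)) (h : PosP (γ : SL(2, ℤ))) :
    PosP ((wConj d γ : Gamma0 (N * q)) : SL(2, ℤ)) := by
  obtain ⟨ε, hε, htr, hpos⟩ := h
  refine ⟨ε, hε, ?_, ?_⟩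
  · rw [trace_wConj]; exact htr
  · exact Parab.K3 (wMat_det_pos d) (wConj_spec d γ) hε htr hpos

/-! ### the isometry -/

/-- **`W` is an isometry of the Poincaré pairing** (`Assembly.HIsomW`, `BlockPD.WIsom`). -/
theorem hIsomW (d : ALData N q) (y y' : XMod (N * q) ℤ ℤ) :
    BX (N * q) ℤ (opWX ℤ ℤ d y) (opWX ℤ ℤ d y') = BX (N * q) ℤ y y' := by
  obtain ⟨c, hc, hB⟩ := exists_BX_eq_neg_csum (N * q) ℤ y y' (outSecX (N * q))
  have hc' : ∀ a b : Gamma0 (N * q), (fun γ => c (wEquiv d γ)) (a * b) =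
      (fun γ => c (wEquiv d γ)) a + (fun γ => c (wEquiv d γ)) b +
        funOf (N * q) ℤ (opWX ℤ ℤ d y).1 a * funOf (N * q) ℤ (opWX ℤ ℤ d y').1 b := by
    intro a b
    simp only [map_mul, hc]
    rfl
  rw [BX_eq_neg_csum (N * q) ℤ _ _ (fun γ => c (wEquiv d γ)) hc' (outSecX (N * q)), hB]
  congr 1
  have h2 : ∀ a : ℤ, 2 * a = 0 → a = 0 := fun a ha => by omega
  exact csum_comp_eq (parabHypX (N * q)) (outSecX (N * q))
    (isAdm_of_mem_XMod (N * q) ℤ y.2) (isAdm_of_mem_XMod (N * q) ℤ y'.2) hc h2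
    (wEquiv d) (wEquiv_neg_one d) (fun γ hγ => posP_wConj d γ hγ)

end

end Fermat.Agent.S41.PD.WIsom
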