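import Fermat.Agent.S41.PD.Dual

/-!
# S41 / L5 : the image of the boundary map `d` is the kernel of the coordinate sum

`(S-1)M + (T-1)M = ker Σ` (transitivity), hence `range d = ker (Σ : M ⧸ (T-1)M → A)`.
-/

set_option autoImplicit false
set_option linter.unusedSectionVars false

namespace Fermat.Agent.S41.PD.Core

universe u v

section Basic

variable {P : Type u} [Fintype P] [DecidableEq P]
variable (A : Type v) [CommRing A]

/-- the coordinate sum `x ↦ ∑ p, x p`. -/
def sumL : (P → A) →ₗ[A] A := form A (fun _ => 1)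

lemma sumL_apply (x : P → A) : sumL A x = ∑ p, x p := by
  simp [sumL, form_apply]

lemma sumL_op (σ : Equiv.Perm P) (x : P → A) : sumL A (op A σ x) = sumL A x := by
  rw [sumL_apply, sumL_apply]
  exact Equiv.sum_comp σ x

lemma op_single (σ : Equiv.Perm P) (p : P) :
    op A σ (Pi.single p 1) = Pi.single (σ⁻¹ p) 1 := by
  ext q
  simp only [op_apply, Pi.single_apply]
  congr 1
  rw [eq_iff_iff, Equiv.Perm.eq_inv_iff_eq]

end Basic

namespace Datum

variable {P : Type u} [Fintype P] [DecidableEq P] (D : Datum P)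
variable (A : Type v) [CommRing A]

/-- `ker Σ ≤ (S-1)M + (R-1)M` (transitivity). -/
theorem ker_sumL_le : LinearMap.ker (sumL (P := P) A) ≤
    LinearMap.range (D.dS A) ⊔ LinearMap.range (D.dR A) := by
  intro y hy
  rw [LinearMap.mem_ker, sumL_apply] at hy
  rcases isEmpty_or_nonempty P with hP | ⟨⟨p0⟩⟩
  · have : y = 0 := by ext p; exact (hP.false p).elim
    rw [this]; exact Submodule.zero_mem _
  set I := LinearMap.range (D.dS A) ⊔ LinearMap.range (D.dR A) with hI
  -- all `δ_p` are congruent modulo `I`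
  have hconst : ∀ p, (Submodule.Quotient.mk (Pi.single p (1 : A)) : (P → A) ⧸ I) =
      Submodule.Quotient.mk (Pi.single p0 (1 : A)) := by
    intro p
    refine D.const_of_invariant (fun p => (Submodule.Quotient.mk (Pi.single p (1 : A)) :
      (P → A) ⧸ I)) (fun p => ?_) (fun p => ?_) p p0
    · -- `δ_{s p} - δ_p = (S-1) δ_p`
      rw [Submodule.Quotient.eq]
      apply Submodule.mem_sup_left
      refine ⟨Pi.single p 1, ?_⟩
      simp only [dS, LinearMap.sub_apply, LinearMap.id_apply, S, op_single, D.s_inv]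
    · -- `δ_p - δ_{r p} = (R-1) δ_{r p}`
      rw [Submodule.Quotient.eq, ← Submodule.neg_mem_iff]
      apply Submodule.mem_sup_right
      refine ⟨Pi.single (D.r p) 1, ?_⟩
      have hrr : D.r⁻¹ (D.r p) = p := by simp
      simp only [dR, LinearMap.sub_apply, LinearMap.id_apply, R, op_single, hrr]
      abel
  have hy' : y = ∑ p, y p • ((Pi.single p (1 : A) : P → A) - Pi.single p0 1) := by
    simp only [smul_sub, Finset.sum_sub_distrib, ← Finset.sum_smul, hy, zero_smul, sub_zero]
    ext q
    simp [Finset.sum_apply, Pi.single_apply]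
  rw [hy']
  refine Submodule.sum_mem _ fun p _ => Submodule.smul_mem _ _ ?_
  exact (Submodule.Quotient.eq I).1 (hconst p)

/-- `(R-1)M ≤ (S-1)M + (T-1)M`. -/
theorem range_dR_le : LinearMap.range (D.dR A) ≤
    LinearMap.range (D.dS A) ⊔ LinearMap.range (D.T A - LinearMap.id) := by
  rintro _ ⟨m, rfl⟩
  have : D.dR A m = D.dS A ((D.T A m - m) + m) + (D.T A m - m) := by
    simp only [dR, dS, T, LinearMap.sub_apply, LinearMap.id_apply, LinearMap.comp_apply, map_add,
      map_sub, D.S_S]
    abel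
  rw [this]
  refine Submodule.add_mem_sup ⟨_, rfl⟩ ⟨m, ?_⟩
  simp only [LinearMap.sub_apply, LinearMap.id_apply]

/-- the coordinate sum on the coinvariants `M ⧸ (T-1)M`. -/
noncomputable def sumT : (P → A) ⧸ LinearMap.range (D.T A - LinearMap.id) →ₗ[A] A :=
  (LinearMap.range (D.T A - LinearMap.id)).liftQ (sumL A) <| by
    rintro _ ⟨y, rfl⟩
    rw [LinearMap.mem_ker, LinearMap.sub_apply, LinearMap.id_apply, map_sub, T,
      LinearMap.comp_apply, sumL_op, sumL_op, sub_self]

@[simp] lemma sumT_mk (m : P → A) : D.sumT A (Submodule.Quotient.mk m) = sumL A m := rfl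

/-- **`d` surjects onto the kernel of the coordinate sum.** -/
theorem range_d_eq_ker_sumT : LinearMap.range (D.d A) = LinearMap.ker (D.sumT A) := by
  apply le_antisymm
  · rintro _ ⟨q, rfl⟩
    obtain ⟨m, rfl⟩ := Submodule.Quotient.mk_surjective _ q
    rw [LinearMap.mem_ker, d_mk, sumT_mk, map_sub, S, sumL_op, sub_self]
  · intro q hq
    obtain ⟨y, rfl⟩ := Submodule.Quotient.mk_surjective _ q
    rw [LinearMap.mem_ker, sumT_mk] at hq
    have hy : y ∈ LinearMap.range (D.dS A) ⊔ LinearMap.range (D.T A - LinearMap.id) := by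
      have h1 := D.ker_sumL_le A (LinearMap.mem_ker.2 hq)
      exact (sup_le le_sup_left (D.range_dR_le A)) h1
    obtain ⟨_, ⟨a, rfl⟩, _, ⟨b, rfl⟩, rfl⟩ := Submodule.mem_sup.1 hy
    refine ⟨Submodule.Quotient.mk (-a), ?_⟩
    rw [d_mk, Submodule.Quotient.eq]
    refine ⟨-b, ?_⟩
    simp only [dS, LinearMap.sub_apply, LinearMap.id_apply, map_neg]
    abel

end Datum

end Fermat.Agent.S41.PD.Core
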