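import Mathlib

/-!
# S41 / PD : permutation modules, the range of `t - 1`

For a permutation `t` of a finite type `P` and a commutative ring `A`, `opOf A t` is the operator
`x ↦ x ∘ t` on `P → A`.  Main result: `range (opOf A t - 1)` is exactly the orthogonal complement
(for the standard dot product) of the `t`-invariant functions (`mem_range_opOf_sub_one_iff`).
Consequences: the coinvariants are torsion free (`smul_mem_range_opOf_sub_one`), and
`ker (1 + S) = range (S - 1)`, `ker (1 + R + R²) = range (R - 1)` for permutations of order `2`, `3`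
when `2`, `3` are non-zero-divisors.
-/

set_option autoImplicit false
set_option linter.unusedSectionVars false
set_option linter.unusedVariables false

namespace Fermat.Agent.S41.PD

variable {A : Type*} [CommRing A] {P : Type*}

/-- the operator `x ↦ x ∘ t` on `P → A`. -/
def opOf (A : Type*) [CommRing A] {P : Type*} (t : Equiv.Perm P) : (P → A) →ₗ[A] (P → A) :=
  LinearMap.funLeft A A t

@[simp] theorem opOf_apply (t : Equiv.Perm P) (x : P → A) (a : P) : opOf A t x a = x (t a) := rfl

theorem opOf_one : opOf A (1 : Equiv.Perm P) = LinearMap.id := by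
  ext x a; simp

theorem opOf_mul_apply (s t : Equiv.Perm P) (x : P → A) :
    opOf A (s * t) x = opOf A t (opOf A s x) := by
  ext a; simp

theorem opOf_inv_opOf (t : Equiv.Perm P) (x : P → A) : opOf A t⁻¹ (opOf A t x) = x := by
  ext a; simp

theorem opOf_opOf_inv (t : Equiv.Perm P) (x : P → A) : opOf A t (opOf A t⁻¹ x) = x := by
  ext a; simp

section Dot

variable [Fintype P]

theorem opOf_dot_opOf (t : Equiv.Perm P) (x y : P → A) :
    opOf A t x ⬝ᵥ opOf A t y = x ⬝ᵥ y :=
  comp_equiv_dotProduct_comp_equiv x y t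

theorem opOf_dot (t : Equiv.Perm P) (x y : P → A) :
    opOf A t x ⬝ᵥ y = x ⬝ᵥ opOf A t⁻¹ y := by
  rw [← opOf_dot_opOf t x (opOf A t⁻¹ y), opOf_opOf_inv]

theorem dot_opOf (t : Equiv.Perm P) (x y : P → A) :
    x ⬝ᵥ opOf A t y = opOf A t⁻¹ x ⬝ᵥ y := by
  rw [← opOf_dot_opOf t (opOf A t⁻¹ x) y, opOf_opOf_inv]

/-- nondegeneracy of the dot product. -/
theorem eq_zero_of_dot_eq_zero (x : P → A) (h : ∀ y : P → A, x ⬝ᵥ y = 0) : x = 0 := by
  classical
  ext a
  have := h (Pi.single a 1)
  simpa using this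

end Dot

section Range

variable [Fintype P] [DecidableEq P]

theorem opOf_single (t : Equiv.Perm P) (a : P) (c : A) :
    opOf A t (Pi.single (t a) c) = Pi.single a c := by
  ext b
  simp only [opOf_apply, Pi.single_apply]
  by_cases h : b = a
  · subst h; simp
  · rw [if_neg h, if_neg]
    intro h'
    exact h (t.injective h')

theorem single_sub_single_apply_mem (t : Equiv.Perm P) (a : P) :
    (Pi.single a 1 - Pi.single (t a) 1 : P → A) ∈ LinearMap.range (opOf A t - 1) :=
  ⟨Pi.single (t a) 1, by rw [LinearMap.sub_apply, opOf_single, Module.End.one_apply]⟩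

theorem single_sub_single_pow_mem (t : Equiv.Perm P) (a : P) (k : ℕ) :
    (Pi.single a 1 - Pi.single ((t ^ k) a) 1 : P → A) ∈ LinearMap.range (opOf A t - 1) := by
  induction k with
  | zero => simp
  | succ k ih =>
    have h := single_sub_single_apply_mem (A := A) t ((t ^ k) a)
    have := Submodule.add_mem _ ih h
    rw [pow_succ', Equiv.Perm.mul_apply]
    convert this using 1
    abel

theorem single_sub_single_mem_of_sameCycle (t : Equiv.Perm P) {a b : P}
    (h : Equiv.Perm.SameCycle t a b) :
    (Pi.single a 1 - Pi.single b 1 : P → A) ∈ LinearMap.range (opOf A t - 1) := by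
  obtain ⟨i, -, hi⟩ := h.exists_pow_eq'
  rw [← hi]
  exact single_sub_single_pow_mem t a i

/-- a representative of the cycle of `a`. -/
noncomputable def cycRep (t : Equiv.Perm P) (a : P) : P :=
  (Quotient.mk (Equiv.Perm.SameCycle.setoid t) a).out

theorem cycRep_sameCycle (t : Equiv.Perm P) (a : P) : Equiv.Perm.SameCycle t a (cycRep t a) := by
  have := Quotient.mk_out (s := Equiv.Perm.SameCycle.setoid t) a
  exact (Equiv.Perm.SameCycle.symm this)

theorem cycRep_apply (t : Equiv.Perm P) (a : P) : cycRep t (t a) = cycRep t a := by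
  unfold cycRep
  congr 1
  apply Quotient.sound
  show Equiv.Perm.SameCycle t (t a) a
  exact Equiv.Perm.sameCycle_apply_left.mpr (Equiv.Perm.SameCycle.refl t a)

/-- **The range of `t - 1`**: `y` is of the form `m ∘ t - m` as soon as it is orthogonal to all
`t`-invariant functions. -/
theorem mem_range_opOf_sub_one (t : Equiv.Perm P) (y : P → A)
    (h : ∀ f : P → A, opOf A t f = f → f ⬝ᵥ y = 0) :
    y ∈ LinearMap.range (opOf A t - 1) := by
  have hy : y = ∑ a, y a • (Pi.single a 1 : P → A) := by
    ext b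
    simp [Finset.sum_apply, Pi.single_apply]
  have h0 : ∑ a, y a • (Pi.single (cycRep t a) 1 : P → A) = 0 := by
    ext b
    have hb := h (fun a => if cycRep t a = b then 1 else 0) (by
      ext a
      simp [cycRep_apply])
    simp only [Finset.sum_apply, Pi.smul_apply, Pi.single_apply, smul_eq_mul, Pi.zero_apply]
    rw [dotProduct] at hb
    refine Eq.trans ?_ hb
    apply Finset.sum_congr rfl
    intro a _
    by_cases hab : cycRep t a = b
    · simp [hab]
    · have : ¬ b = cycRep t a := fun h' => hab h'.symm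
      simp [hab, this]
  have hdiff : y = ∑ a, y a • ((Pi.single a 1 : P → A) - Pi.single (cycRep t a) 1) := by
    simp only [smul_sub, Finset.sum_sub_distrib]
    rw [h0, sub_zero]
    exact hy
  rw [hdiff]
  apply Submodule.sum_mem
  intro a _
  apply Submodule.smul_mem
  exact single_sub_single_mem_of_sameCycle t (cycRep_sameCycle t a)

theorem dot_eq_zero_of_mem_range (t : Equiv.Perm P) {y : P → A}
    (hy : y ∈ LinearMap.range (opOf A t - 1)) (f : P → A) (hf : opOf A t f = f) :
    f ⬝ᵥ y = 0 := by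
  obtain ⟨m, rfl⟩ := hy
  rw [LinearMap.sub_apply, Module.End.one_apply, dotProduct_sub]
  nth_rewrite 1 [← hf]
  rw [opOf_dot_opOf, sub_self]

theorem mem_range_opOf_sub_one_iff (t : Equiv.Perm P) (y : P → A) :
    y ∈ LinearMap.range (opOf A t - 1) ↔ ∀ f : P → A, opOf A t f = f → f ⬝ᵥ y = 0 :=
  ⟨fun hy f hf => dot_eq_zero_of_mem_range t hy f hf, mem_range_opOf_sub_one t y⟩

/-- the coinvariants `M / (t - 1) M` have no `c`-torsion for a non-zero-divisor `c`. -/
theorem mem_range_of_smul_mem_range (t : Equiv.Perm P) {c : A} (hc : ∀ a : A, c * a = 0 → a = 0)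
    {y : P → A} (hy : c • y ∈ LinearMap.range (opOf A t - 1)) :
    y ∈ LinearMap.range (opOf A t - 1) := by
  rw [mem_range_opOf_sub_one_iff] at hy ⊢
  intro f hf
  apply hc
  rw [← smul_eq_mul, ← dotProduct_smul]
  exact hy f hf

/-- `ker (1 + S) = range (S - 1)` for an involution, `2` a non-zero-divisor. -/
theorem mem_range_of_invol (s : Equiv.Perm P) (hs : s * s = 1)
    (h2 : ∀ a : A, 2 * a = 0 → a = 0) {x : P → A} (hx : x + opOf A s x = 0) :
    x ∈ LinearMap.range (opOf A s - 1) := by
  apply mem_range_opOf_sub_one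
  intro f hf
  apply h2
  have hsinv : s⁻¹ = s := inv_eq_of_mul_eq_one_left hs
  have h1 : f ⬝ᵥ opOf A s x = f ⬝ᵥ x := by
    rw [dot_opOf, hsinv, hf]
  have h3 : f ⬝ᵥ (x + opOf A s x) = 0 := by rw [hx, dotProduct_zero]
  rw [dotProduct_add, h1] at h3
  rw [two_mul]; exact h3

/-- `ker (1 + R + R²) = range (R - 1)` for a permutation of order `3`, `3` a non-zero-divisor. -/
theorem mem_range_of_order_three (r : Equiv.Perm P) (hr : r * r * r = 1)
    (h3 : ∀ a : A, 3 * a = 0 → a = 0) {x : P → A}
    (hx : x + opOf A r x + opOf A r (opOf A r x) = 0) :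
    x ∈ LinearMap.range (opOf A r - 1) := by
  apply mem_range_opOf_sub_one
  intro f hf
  apply h3
  have hf' : opOf A r⁻¹ f = f := by
    nth_rewrite 1 [← hf]; exact opOf_inv_opOf r f
  have h1 : f ⬝ᵥ opOf A r x = f ⬝ᵥ x := by
    rw [dot_opOf, hf']
  have h2 : f ⬝ᵥ opOf A r (opOf A r x) = f ⬝ᵥ x := by
    rw [dot_opOf, hf', h1]
  have h4 : f ⬝ᵥ (x + opOf A r x + opOf A r (opOf A r x)) = 0 := by rw [hx, dotProduct_zero]
  rw [dotProduct_add, dotProduct_add, h1, h2] at h4
  have : (3 : A) * (f ⬝ᵥ x) = f ⬝ᵥ x + f ⬝ᵥ x + f ⬝ᵥ x := by ring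
  rw [this]; exact h4

end Range

end Fermat.Agent.S41.PD
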