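import Fermat.Agent.S41.PD.Augment
import Fermat.Agent.S41.PD.CycleSum

/-!
# S41 / L5 : base change of the model (abstract universal coefficients)

`f : A →+* A'` a surjective ring homomorphism whose kernel is contained in `(c)`, `c` a
non-zero-divisor of `A` with `f c = 0` (e.g. `ℤ_p → 𝔽_p`, `c = p`).  The map `m ↦ f ∘ m` induces
`f`-semilinear maps on `Q` and on the cusp module, compatible with `d`, and

* `exists_lift_ker_d` : every class of `ker d_{A'}` lifts to `ker d_A`;
* `mapQ_eq_zero_iff_of_mem_ker_d` : a class of `ker d_A` dies in `Q_{A'}` iff it is `c •` a class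
  of `ker d_A`.

So `(ker d_A) / c ≃ ker d_{A'}`.  No hypothesis that `A` is a domain, and `A'` is arbitrary
(`𝔽₃` allowed).
-/

set_option autoImplicit false
set_option linter.unusedSectionVars false
set_option linter.unusedVariables false

namespace Fermat.Agent.S41.PD.Core

universe u v w

section MapM

variable {P : Type u} [Fintype P] [DecidableEq P]
variable {A : Type v} [CommRing A] {A' : Type w} [CommRing A'] (f : A →+* A')

/-- `m ↦ f ∘ m`, an `f`-semilinear map. -/
def mapM : (P → A) →ₛₗ[f] (P → A') where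
  toFun m := fun p => f (m p)
  map_add' := by intro x y; ext p; simp
  map_smul' := by intro c x; ext p; simp

@[simp] lemma mapM_apply (m : P → A) (p : P) : mapM f m p = f (m p) := rfl

lemma mapM_op (σ : Equiv.Perm P) (m : P → A) : mapM f (op A σ m) = op A' σ (mapM f m) := rfl

lemma sumL_mapM (m : P → A) : sumL A' (mapM f m) = f (sumL A m) := by
  simp [sumL_apply, map_sum]

lemma mapM_surjective (hf : Function.Surjective f) :
    Function.Surjective (mapM (P := P) f) := by
  intro m'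
  refine ⟨fun p => Function.surjInv hf (m' p), ?_⟩
  ext p
  simp [Function.surjInv_eq hf]

/-- an element killed by `mapM f` is divisible by `c`. -/
lemma exists_smul_of_mapM_eq_zero {c : A} (hker : ∀ a : A, f a = 0 → ∃ b, a = c * b)
    (m : P → A) (hm : mapM f m = 0) : ∃ n : P → A, m = c • n := by
  have : ∀ p, ∃ b, m p = c * b := fun p => hker _ (by simpa using congrFun hm p)
  choose n hn using this
  exact ⟨n, by ext p; simp [hn p]⟩

/-- invariants lift: compose with a set-theoretic section. -/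
lemma exists_invariant_lift (hf : Function.Surjective f) (σ : Equiv.Perm P) (a' : P → A')
    (ha' : op A' σ a' = a') : ∃ a : P → A, op A σ a = a ∧ mapM f a = a' := by
  refine ⟨fun p => Function.surjInv hf (a' p), ?_, ?_⟩
  · ext p
    have := congrFun ha' p
    simp only [op_apply] at this ⊢
    rw [this]
  · ext p
    simp [Function.surjInv_eq hf]

end MapM

namespace Datum

variable {P : Type u} [Fintype P] [DecidableEq P] (D : Datum P)
variable {A : Type v} [CommRing A] {A' : Type w} [CommRing A'] (f : A →+* A')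

lemma mapM_S (m : P → A) : mapM f (D.S A m) = D.S A' (mapM f m) := rfl
lemma mapM_R (m : P → A) : mapM f (D.R A m) = D.R A' (mapM f m) := rfl
lemma mapM_T (m : P → A) : mapM f (D.T A m) = D.T A' (mapM f m) := rfl

lemma mapM_mem_Qsub {m : P → A} (hm : m ∈ D.Qsub A) : mapM f m ∈ D.Qsub A' := by
  obtain ⟨a, ha, b, hb, rfl⟩ := Submodule.mem_sup.mp hm
  rw [map_add]
  apply Submodule.add_mem_sup
  · rw [mem_ker_dS_iff] at ha ⊢
    rw [← mapM_S, ha]
  · rw [mem_ker_dR_iff] at hb ⊢
    rw [← mapM_R, hb]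

/-- the induced map on `Q`. -/
noncomputable def mapQ : D.Q A →ₛₗ[f] D.Q A' :=
  Submodule.mapQ (D.Qsub A) (D.Qsub A') (mapM f) (fun _ hm => D.mapM_mem_Qsub f hm)

@[simp] lemma mapQ_mk (m : P → A) :
    D.mapQ f (Submodule.Quotient.mk m) = Submodule.Quotient.mk (mapM f m) := rfl

lemma mapM_mem_range_T {m : P → A} (hm : m ∈ LinearMap.range (D.T A - LinearMap.id)) :
    mapM f m ∈ LinearMap.range (D.T A' - LinearMap.id) := by
  obtain ⟨y, rfl⟩ := hm
  refine ⟨mapM f y, ?_⟩
  rw [LinearMap.sub_apply, LinearMap.sub_apply, LinearMap.id_apply, LinearMap.id_apply, map_sub,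
    mapM_T]

/-- the induced map on the cusp module `M ⧸ (T - 1) M`. -/
noncomputable def mapMT : ((P → A) ⧸ LinearMap.range (D.T A - LinearMap.id)) →ₛₗ[f]
    ((P → A') ⧸ LinearMap.range (D.T A' - LinearMap.id)) :=
  Submodule.mapQ _ _ (mapM f) (fun _ hm => D.mapM_mem_range_T f hm)

@[simp] lemma mapMT_mk (m : P → A) :
    D.mapMT f (Submodule.Quotient.mk m) = Submodule.Quotient.mk (mapM f m) := rfl

/-- `d` commutes with base change. -/
theorem d_mapQ (q : D.Q A) : D.d A' (D.mapQ f q) = D.mapMT f (D.d A q) := by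
  obtain ⟨m, rfl⟩ := Submodule.Quotient.mk_surjective _ q
  rw [mapQ_mk, d_mk, d_mk, mapMT_mk, map_sub, mapM_S]

theorem sumT_mapMT (u : (P → A) ⧸ LinearMap.range (D.T A - LinearMap.id)) :
    D.sumT A' (D.mapMT f u) = f (D.sumT A u) := by
  obtain ⟨m, rfl⟩ := Submodule.Quotient.mk_surjective _ u
  rw [mapMT_mk, sumT_mk, sumT_mk, sumL_mapM]

theorem mapQ_surjective (hf : Function.Surjective f) : Function.Surjective (D.mapQ f) := by
  intro q'
  obtain ⟨m', rfl⟩ := Submodule.Quotient.mk_surjective _ q'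
  obtain ⟨m, rfl⟩ := mapM_surjective f hf m'
  exact ⟨Submodule.Quotient.mk m, rfl⟩

variable {c : A}

/-- the kernel of `mapMT` is `c • M_T`. -/
theorem exists_smul_of_mapMT_eq_zero (hf : Function.Surjective f)
    (hker : ∀ a : A, f a = 0 → ∃ b, a = c * b)
    (u : (P → A) ⧸ LinearMap.range (D.T A - LinearMap.id)) (hu : D.mapMT f u = 0) :
    ∃ u₁, u = c • u₁ := by
  obtain ⟨m, rfl⟩ := Submodule.Quotient.mk_surjective _ u
  rw [mapMT_mk, Submodule.Quotient.mk_eq_zero] at hu
  obtain ⟨y', hy'⟩ := hu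
  obtain ⟨y, rfl⟩ := mapM_surjective f hf y'
  have hy'' : D.T A' (mapM f y) - mapM f y = mapM f m := hy'
  have h0 : mapM f (m - (D.T A y - y)) = 0 := by
    rw [map_sub, map_sub, mapM_T, hy'', sub_self]
  obtain ⟨n, hn⟩ := exists_smul_of_mapM_eq_zero f hker _ h0
  refine ⟨Submodule.Quotient.mk n, ?_⟩
  rw [← Submodule.Quotient.mk_smul, ← hn, Submodule.Quotient.eq]
  refine ⟨y, ?_⟩
  rw [LinearMap.sub_apply, LinearMap.id_apply]
  abel

/-- the kernel of `mapQ` is `c • Q`. -/
theorem exists_smul_of_mapQ_eq_zero (hf : Function.Surjective f)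
    (hker : ∀ a : A, f a = 0 → ∃ b, a = c * b) (q : D.Q A) (hq : D.mapQ f q = 0) :
    ∃ q₁, q = c • q₁ := by
  obtain ⟨m, rfl⟩ := Submodule.Quotient.mk_surjective _ q
  rw [mapQ_mk, Submodule.Quotient.mk_eq_zero] at hq
  obtain ⟨a', ha', b', hb', hab⟩ := Submodule.mem_sup.mp hq
  obtain ⟨a, ha, rfl⟩ := exists_invariant_lift f hf D.s a' ((D.mem_ker_dS_iff A' a').mp ha')
  obtain ⟨b, hb, rfl⟩ := exists_invariant_lift f hf D.r b' ((D.mem_ker_dR_iff A' b').mp hb')
  have h0 : mapM f (m - (a + b)) = 0 := by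
    rw [map_sub, map_add, hab, sub_self]
  obtain ⟨n, hn⟩ := exists_smul_of_mapM_eq_zero f hker _ h0
  refine ⟨Submodule.Quotient.mk n, ?_⟩
  rw [← Submodule.Quotient.mk_smul, ← hn, Submodule.Quotient.eq]
  have : m - (m - (a + b)) = a + b := by abel
  rw [this]
  exact Submodule.add_mem_sup ((D.mem_ker_dS_iff A a).mpr ha) ((D.mem_ker_dR_iff A b).mpr hb)

lemma T_sub_id_eq_opOf : D.T A - LinearMap.id = opOf A (D.r * D.s) - 1 := by
  ext x p; simp [opOf_apply]

/-- the cusp module has no `c`-torsion for a non-zero-divisor `c` (any ring). -/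
theorem MT_eq_zero_of_smul_eq_zero (hc : ∀ a : A, c * a = 0 → a = 0)
    (u : (P → A) ⧸ LinearMap.range (D.T A - LinearMap.id)) (h : c • u = 0) : u = 0 := by
  obtain ⟨m, rfl⟩ := Submodule.Quotient.mk_surjective _ u
  rw [← Submodule.Quotient.mk_smul, Submodule.Quotient.mk_eq_zero] at h
  rw [Submodule.Quotient.mk_eq_zero]
  rw [T_sub_id_eq_opOf] at h ⊢
  exact mem_range_of_smul_mem_range _ hc h

/-- **UC, surjectivity**: every class of `ker d_{A'}` lifts to a class of `ker d_A`. -/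
theorem exists_lift_ker_d (hf : Function.Surjective f) (hc : ∀ a : A, c * a = 0 → a = 0)
    (hfc : f c = 0) (hker : ∀ a : A, f a = 0 → ∃ b, a = c * b)
    (h' : D.Q A') (hh' : D.d A' h' = 0) : ∃ h : D.Q A, D.d A h = 0 ∧ D.mapQ f h = h' := by
  obtain ⟨q₀, rfl⟩ := D.mapQ_surjective f hf h'
  rw [d_mapQ] at hh'
  obtain ⟨u, hu⟩ := D.exists_smul_of_mapMT_eq_zero f hf hker _ hh'
  have hsum : D.sumT A (D.d A q₀) = 0 := by
    have : D.d A q₀ ∈ LinearMap.range (D.d A) := ⟨q₀, rfl⟩
    rw [range_d_eq_ker_sumT] at this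
    exact LinearMap.mem_ker.mp this
  have hu0 : D.sumT A u = 0 := by
    apply hc
    rw [← smul_eq_mul, ← map_smul, ← hu, hsum]
  have : u ∈ LinearMap.range (D.d A) := by
    rw [range_d_eq_ker_sumT]; exact LinearMap.mem_ker.mpr hu0
  obtain ⟨q₁, rfl⟩ := this
  refine ⟨q₀ - c • q₁, ?_, ?_⟩
  · rw [map_sub, map_smul, hu, sub_self]
  · rw [map_sub, map_smulₛₗ, hfc, zero_smul, sub_zero]

/-- **UC, kernel**: a class of `ker d_A` dies in `Q_{A'}` iff it is `c •` a class of `ker d_A`. -/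
theorem mapQ_eq_zero_iff_of_mem_ker_d (hf : Function.Surjective f)
    (hc : ∀ a : A, c * a = 0 → a = 0) (hfc : f c = 0)
    (hker : ∀ a : A, f a = 0 → ∃ b, a = c * b) (h : D.Q A) (hh : D.d A h = 0) :
    D.mapQ f h = 0 ↔ ∃ h₁ : D.Q A, D.d A h₁ = 0 ∧ h = c • h₁ := by
  constructor
  · intro h0
    obtain ⟨q₁, rfl⟩ := D.exists_smul_of_mapQ_eq_zero f hf hker h h0
    refine ⟨q₁, ?_, rfl⟩
    rw [map_smul] at hh
    exact D.MT_eq_zero_of_smul_eq_zero hc _ hh
  · rintro ⟨h₁, -, rfl⟩
    rw [map_smulₛₗ, hfc, zero_smul]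

/-- the restriction of `mapQ` to `ker d` (an additive map; it is `f`-semilinear). -/
noncomputable def mapKerD : LinearMap.ker (D.d A) →ₛₗ[f] LinearMap.ker (D.d A') :=
  ((D.mapQ f).comp (LinearMap.ker (D.d A)).subtype).codRestrict (LinearMap.ker (D.d A'))
    (fun h => by
      rw [LinearMap.mem_ker, LinearMap.comp_apply, d_mapQ]
      have := LinearMap.mem_ker.mp h.2
      rw [Submodule.subtype_apply, this, map_zero])

@[simp] lemma coe_mapKerD (h : LinearMap.ker (D.d A)) :
    ((D.mapKerD f h : LinearMap.ker (D.d A')) : D.Q A') = D.mapQ f (h : D.Q A) := rfl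

theorem mapKerD_surjective (hf : Function.Surjective f) (hc : ∀ a : A, c * a = 0 → a = 0)
    (hfc : f c = 0) (hker : ∀ a : A, f a = 0 → ∃ b, a = c * b) :
    Function.Surjective (D.mapKerD f) := by
  intro h'
  obtain ⟨h, hh, hh'⟩ := D.exists_lift_ker_d f hf hc hfc hker h'.1 (LinearMap.mem_ker.mp h'.2)
  exact ⟨⟨h, LinearMap.mem_ker.mpr hh⟩, Subtype.ext hh'⟩

theorem mapKerD_eq_zero_iff (hf : Function.Surjective f) (hc : ∀ a : A, c * a = 0 → a = 0)
    (hfc : f c = 0) (hker : ∀ a : A, f a = 0 → ∃ b, a = c * b) (h : LinearMap.ker (D.d A)) :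
    D.mapKerD f h = 0 ↔ ∃ h₁ : LinearMap.ker (D.d A), h = c • h₁ := by
  have key := D.mapQ_eq_zero_iff_of_mem_ker_d f hf hc hfc hker h.1 (LinearMap.mem_ker.mp h.2)
  constructor
  · intro h0
    have h0' : D.mapQ f (h : D.Q A) = 0 := by
      have := congrArg (fun x : LinearMap.ker (D.d A') => (x : D.Q A')) h0
      simpa using this
    obtain ⟨h₁, hh₁, heq⟩ := key.mp h0'
    exact ⟨⟨h₁, LinearMap.mem_ker.mpr hh₁⟩, Subtype.ext heq⟩
  · rintro ⟨h₁, rfl⟩
    apply Subtype.ext
    rw [coe_mapKerD, Submodule.coe_zero]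
    exact key.mpr ⟨h₁.1, LinearMap.mem_ker.mp h₁.2, rfl⟩

end Datum

end Fermat.Agent.S41.PD.Core
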