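import Fermat.Agent.S41.PD.ShapiroFunct

/-!
# S41 / L5 : the corestriction `corChar` of `ShapiroFunct` is the transfer for ANY transversal

Setting of `ShapiroFunct` (`X' → X` equivariant map of transitive `SL(2,ℤ)`-sets, stabilisers
`Γ' ≤ Γ` of the base points, any section `σ'` of `X'`).  Given a finite right transversal
`r : P → SL(2,ℤ)` of `Γ' \ Γ` (`r y ∈ Γ`, every `h ∈ Γ` lies in exactly one coset `Γ' r y`) and, for a
fixed `γ ∈ Γ`, the associated data `r y * γ = step y * r (act y)` with `step y ∈ Γ'`: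

  `corChar ψ' γ = ∑ y, ψ' (step y)`     (`corChar_eq_sum`).
-/

set_option autoImplicit false
set_option linter.unusedSectionVars false

namespace Fermat.Agent.S41.PD.CorBridge

open scoped MatrixGroups
open ModularGroup Fermat.Agent.S41.PD.Core Fermat.Agent.S41.PD.Shapiro
  Fermat.Agent.S41.PD.ShapiroFunct

noncomputable section

universe u u' v w

variable {X : Type u} [Fintype X] [DecidableEq X] [MulAction SL(2, ℤ) X]
variable {X' : Type u'} [Fintype X'] [DecidableEq X'] [MulAction SL(2, ℤ) X']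
variable {x₀ : X} {Γ : Subgroup SL(2, ℤ)} (hΓ : ∀ g : SL(2, ℤ), g ∈ Γ ↔ g • x₀ = x₀)
variable {x₀' : X'} {Γ' : Subgroup SL(2, ℤ)} (hΓ' : ∀ g : SL(2, ℤ), g ∈ Γ' ↔ g • x₀' = x₀')
variable {σ' : X' → SL(2, ℤ)} (hσ' : ∀ x : X', σ' x • x₀' = x)
variable {f : X' → X} (hf : ∀ (g : SL(2, ℤ)) (x' : X'), f (g • x') = g • f x') (hf0 : f x₀' = x₀)
variable {P : Type w} [Fintype P] (r : P → SL(2, ℤ)) (hr : ∀ y, r y ∈ Γ)
  (huniq : ∀ h ∈ Γ, ∃! y, h * (r y)⁻¹ ∈ Γ')

/-- the point of the fibre over `x₀` attached to the representative `r y`. -/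
def fibPt (x₀' : X') (y : P) : X' := (r y)⁻¹ • x₀'

include hΓ hf hf0 hr in
theorem f_fibPt (y : P) : f (fibPt r x₀' y) = x₀ := by
  unfold fibPt
  rw [hf, hf0, inv_smul_eq_iff, (hΓ _).1 (hr y)]

include hΓ' hr huniq in
theorem fibPt_injective : Function.Injective (fibPt r x₀') := by
  intro y1 y2 h
  unfold fibPt at h
  have h1 : r y2 * (r y1)⁻¹ ∈ Γ' := by
    rw [hΓ', mul_smul, h, smul_inv_smul]
  have h2 : r y2 * (r y2)⁻¹ ∈ Γ' := by
    rw [mul_inv_cancel]; exact Γ'.one_mem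
  exact (huniq (r y2) (hr y2)).unique h1 h2

include hΓ hΓ' hσ' hf hf0 huniq in
theorem exists_fibPt_eq (x' : X') (hx' : f x' = x₀) : ∃ y, fibPt r x₀' y = x' := by
  have hmem : σ' x' ∈ Γ := by
    rw [hΓ, ← hf0, ← hf, hσ', hx', hf0]
  obtain ⟨y, hy, -⟩ := huniq (σ' x')⁻¹ (Γ.inv_mem hmem)
  refine ⟨y, ?_⟩
  unfold fibPt
  rw [hΓ', mul_smul, inv_smul_eq_iff] at hy
  rw [hy, hσ']

include hΓ' hσ' in
/-- `η y = r y * σ' ((r y)⁻¹ x₀') ∈ Γ'`. -/
theorem eta_mem (y : P) : r y * σ' (fibPt r x₀' y) ∈ Γ' := by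
  rw [hΓ', mul_smul, hσ']
  unfold fibPt
  rw [smul_inv_smul]

/-- `η y` as an element of `Γ'`. -/
def eta (y : P) : Γ' := ⟨r y * σ' (fibPt r x₀' y), eta_mem hΓ' hσ' r y⟩

section fixed
variable (γ : Γ) (act : P → P) (step : P → Γ')
  (hrel : ∀ y, r y * (γ : SL(2, ℤ)) = (step y : SL(2, ℤ)) * r (act y))

include hr huniq hrel in
theorem act_injective : Function.Injective act := by
  intro y1 y2 h
  have e1 := hrel y1
  have e2 := hrel y2
  rw [h] at e1
  have h1 : r y1 * (r y2)⁻¹ ∈ Γ' := by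
    have : r y1 * (r y2)⁻¹ = (step y1 : SL(2, ℤ)) * (step y2 : SL(2, ℤ))⁻¹ := by
      have a1 : r y1 = (step y1 : SL(2, ℤ)) * r (act y2) * (γ : SL(2, ℤ))⁻¹ := by
        rw [← e1]; group
      have a2 : r y2 = (step y2 : SL(2, ℤ)) * r (act y2) * (γ : SL(2, ℤ))⁻¹ := by
        rw [← e2]; group
      rw [a1, a2]; group
    rw [this]
    exact Γ'.mul_mem (step y1).2 (Γ'.inv_mem (step y2).2)
  have h2 : r y1 * (r y1)⁻¹ ∈ Γ' := by
    rw [mul_inv_cancel]; exact Γ'.one_mem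
  exact ((huniq (r y1) (hr y1)).unique h1 h2).symm

include hΓ' hrel in
theorem smul_fibPt (y : P) : (γ : SL(2, ℤ)) • fibPt r x₀' (act y) = fibPt r x₀' y := by
  unfold fibPt
  have e : (γ : SL(2, ℤ)) * (r (act y))⁻¹ = (r y)⁻¹ * (step y : SL(2, ℤ)) := by
    have := hrel y
    calc (γ : SL(2, ℤ)) * (r (act y))⁻¹
        = (r y)⁻¹ * (r y * (γ : SL(2, ℤ))) * (r (act y))⁻¹ := by group
      _ = (r y)⁻¹ * ((step y : SL(2, ℤ)) * r (act y)) * (r (act y))⁻¹ := by rw [this]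
      _ = (r y)⁻¹ * (step y : SL(2, ℤ)) := by group
  rw [← mul_smul, e, mul_smul, (hΓ' _).1 (step y).2]

include hrel in
theorem kap_fibPt (y : P) :
    kap hΓ' hσ' (γ : SL(2, ℤ)) (fibPt r x₀' (act y)) =
      (eta hΓ' hσ' r y)⁻¹ * step y * eta hΓ' hσ' r (act y) := by
  apply Subtype.ext
  rw [kap_coe, smul_fibPt hΓ' r γ act step hrel y]
  simp only [Subgroup.coe_mul, Subgroup.coe_inv, eta]
  have := hrel y
  calc (σ' (fibPt r x₀' y))⁻¹ * (γ : SL(2, ℤ)) * σ' (fibPt r x₀' (act y))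
      = (σ' (fibPt r x₀' y))⁻¹ * (r y)⁻¹ * (r y * (γ : SL(2, ℤ))) *
          σ' (fibPt r x₀' (act y)) := by group
    _ = (σ' (fibPt r x₀' y))⁻¹ * (r y)⁻¹ * ((step y : SL(2, ℤ)) * r (act y)) *
          σ' (fibPt r x₀' (act y)) := by rw [this]
    _ = (r y * σ' (fibPt r x₀' y))⁻¹ * (step y : SL(2, ℤ)) *
          (r (act y) * σ' (fibPt r x₀' (act y))) := by group

variable (A : Type v) [CommRing A]

include hΓ hr huniq hrel hf0 in
/-- **the transfer formula for an arbitrary right transversal.** -/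
theorem corChar_eq_sum (ψ' : Additive Γ' →+ A) :
    corChar hΓ hΓ' hσ' hf A ψ' (Additive.ofMul γ) = ∑ y, ψ' (Additive.ofMul (step y)) := by
  classical
  rw [corChar_apply]
  have hact : Function.Bijective act :=
    Finite.injective_iff_bijective.1 (act_injective r hr huniq γ act step hrel)
  -- the sum over the fibre is a sum over `P`
  have h1 : (∑ x' : X', if f x' = x₀ then
      ψ' (Additive.ofMul (kap hΓ' hσ' (γ : SL(2, ℤ)) x')) else 0) =
      ∑ y : P, ψ' (Additive.ofMul (kap hΓ' hσ' (γ : SL(2, ℤ)) (fibPt r x₀' y))) := by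
    rw [← Finset.sum_filter]
    symm
    refine Finset.sum_bij (fun y _ => fibPt r x₀' y) ?_ ?_ ?_ ?_
    · intro y _
      rw [Finset.mem_filter]
      exact ⟨Finset.mem_univ _, f_fibPt hΓ hf hf0 r hr y⟩
    · intro y1 _ y2 _ h
      exact fibPt_injective hΓ' r hr huniq h
    · intro x' hx'
      rw [Finset.mem_filter] at hx'
      obtain ⟨y, hy⟩ := exists_fibPt_eq hΓ hΓ' hσ' hf hf0 r huniq x' hx'.2
      exact ⟨y, Finset.mem_univ _, hy⟩
    · intro y _
      rfl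
  rw [h1]
  -- reindex along `act`
  rw [← Fintype.sum_equiv (Equiv.ofBijective act hact)
    (fun y => ψ' (Additive.ofMul (kap hΓ' hσ' (γ : SL(2, ℤ)) (fibPt r x₀' (act y)))))
    (fun y => ψ' (Additive.ofMul (kap hΓ' hσ' (γ : SL(2, ℤ)) (fibPt r x₀' y))))
    (fun y => rfl)]
  have h2 : ∀ y, ψ' (Additive.ofMul (kap hΓ' hσ' (γ : SL(2, ℤ)) (fibPt r x₀' (act y)))) =
      ψ' (Additive.ofMul (step y)) +
        (ψ' (Additive.ofMul (eta hΓ' hσ' r (act y))) - ψ' (Additive.ofMul (eta hΓ' hσ' r y))) := by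
    intro y
    rw [kap_fibPt hΓ' hσ' r γ act step hrel y, ofMul_mul, ofMul_mul, map_add, map_add, ofMul_inv,
      map_neg]
    abel
  rw [Finset.sum_congr rfl (fun y _ => h2 y), Finset.sum_add_distrib, Finset.sum_sub_distrib]
  have h3 : ∑ y, ψ' (Additive.ofMul (eta hΓ' hσ' r (act y))) =
      ∑ y, ψ' (Additive.ofMul (eta hΓ' hσ' r y)) :=
    Fintype.sum_equiv (Equiv.ofBijective act hact) _ _ (fun y => rfl)
  rw [h3, sub_self, add_zero]

end fixed

end

end Fermat.Agent.S41.PD.CorBridge
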