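import Mathlib

/-!
# S41 / L5 : the abstract linear-algebra core of Poincaré duality for `C₂ * C₃`-permutation modules

`P` a finite set with two permutations `s`, `r`, `s² = 1`, `r³ = 1`, generating a transitive group;
`A` a principal ideal domain in which `2 ≠ 0` and `3 ≠ 0`; `M = P → A` with the permutation
operators `S`, `R` and the standard form.  We construct

* `Z = ker(1+S) ⊓ ker(1+R+R²)` (compactly supported classes), `Q = M ⧸ (M^S + M^R)` (`H¹`),
* the perfect pairing `Z × Q → A`, the map `j : Z → Q` ("forget supports"),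
* the boundary map `d : Q → M ⧸ (T-1)M`, `T = S R`, with `range j = ker d`,
* the skew-symmetric unimodular form on `range j`.
-/

set_option autoImplicit false
set_option linter.unusedSectionVars false

namespace Fermat.Agent.S41.PD.Core

open Module

universe u v

section Basic

variable {P : Type u} [Fintype P] [DecidableEq P]
variable (A : Type v) [CommRing A]

/-- The permutation operator `x ↦ x ∘ σ` on `P → A`. -/
def op (σ : Equiv.Perm P) : (P → A) →ₗ[A] (P → A) := LinearMap.funLeft A A σ

@[simp] lemma op_apply (σ : Equiv.Perm P) (x : P → A) (p : P) : op A σ x p = x (σ p) := rfl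

lemma op_one : op A (1 : Equiv.Perm P) = LinearMap.id := by
  ext x p; simp

lemma op_mul (σ τ : Equiv.Perm P) : op A (σ * τ) = op A τ ∘ₗ op A σ := by
  ext x p; simp

/-- The standard symmetric bilinear form on `P → A`. -/
def form : (P → A) →ₗ[A] (P → A) →ₗ[A] A :=
  LinearMap.mk₂ A (fun x y => ∑ p, x p * y p)
    (fun x x' y => by simp [add_mul, Finset.sum_add_distrib])
    (fun c x y => by simp [Finset.mul_sum, mul_assoc])
    (fun x y y' => by simp [mul_add, Finset.sum_add_distrib])
    (fun c x y => by simp [Finset.mul_sum, mul_left_comm])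

lemma form_apply (x y : P → A) : form A x y = ∑ p, x p * y p := rfl

lemma form_comm (x y : P → A) : form A x y = form A y x := by
  simp [form_apply, mul_comm]

lemma form_op_op (σ : Equiv.Perm P) (x y : P → A) : form A (op A σ x) (op A σ y) = form A x y := by
  simp only [form_apply, op_apply]
  exact Equiv.sum_comp σ (fun p => x p * y p)

lemma form_op_left (σ : Equiv.Perm P) (x y : P → A) :
    form A (op A σ x) y = form A x (op A σ⁻¹ y) := by
  rw [← form_op_op A σ x (op A σ⁻¹ y)]
  congr 1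
  ext p; simp

lemma form_single_right (x : P → A) (p : P) : form A x (Pi.single p 1) = x p := by
  simp [form_apply, Pi.single_apply]

lemma form_single_left (x : P → A) (p : P) : form A (Pi.single p 1) x = x p := by
  rw [form_comm, form_single_right]

lemma eq_zero_of_form_eq_zero (x : P → A) (h : ∀ y, form A x y = 0) : x = 0 := by
  ext p; simpa [form_single_right] using h (Pi.single p 1)

end Basic


/-- The combinatorial datum: a finite set with an involution `s` and a permutation `r` of order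
dividing `3`, generating a transitive group (e.g. `P = Γ \ PSL₂(ℤ)`). -/
structure Datum (P : Type u) [Fintype P] [DecidableEq P] where
  /-- the involution -/
  s : Equiv.Perm P
  /-- the permutation of order three -/
  r : Equiv.Perm P
  hs : s * s = 1
  hr : r * r * r = 1
  trans : ∀ p p' : P, ∃ g ∈ Subgroup.closure ({s, r} : Set (Equiv.Perm P)), g p = p'

namespace Datum

variable {P : Type u} [Fintype P] [DecidableEq P] (D : Datum P)
variable (A : Type v) [CommRing A]

lemma s_s (p : P) : D.s (D.s p) = p := by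
  have := congrArg (fun σ : Equiv.Perm P => σ p) D.hs
  simpa using this

lemma r_r_r (p : P) : D.r (D.r (D.r p)) = p := by
  have := congrArg (fun σ : Equiv.Perm P => σ p) D.hr
  simpa using this

lemma s_inv : D.s⁻¹ = D.s := inv_eq_of_mul_eq_one_right D.hs

lemma r_inv : D.r⁻¹ = D.r * D.r := by
  apply inv_eq_of_mul_eq_one_right
  rw [← mul_assoc]; exact D.hr

/-- the operator `S`. -/
abbrev S : (P → A) →ₗ[A] (P → A) := op A D.s
/-- the operator `R`. -/
abbrev R : (P → A) →ₗ[A] (P → A) := op A D.r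
/-- the operator `T = S R` (first `R`, then `S`). -/
abbrev T : (P → A) →ₗ[A] (P → A) := D.S A ∘ₗ D.R A

lemma S_S (x : P → A) : D.S A (D.S A x) = x := by
  ext p; simp [D.s_s]

lemma R_R_R (x : P → A) : D.R A (D.R A (D.R A x)) = x := by
  ext p; simp [D.r_r_r]

lemma form_S_left (x y : P → A) : form A (D.S A x) y = form A x (D.S A y) := by
  rw [S, form_op_left, D.s_inv]

lemma form_R_left (x y : P → A) : form A (D.R A x) y = form A x (D.R A (D.R A y)) := by
  rw [R, form_op_left, D.r_inv, op_mul]; rfl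

lemma form_S_S (x y : P → A) : form A (D.S A x) (D.S A y) = form A x y := form_op_op A _ x y
lemma form_R_R (x y : P → A) : form A (D.R A x) (D.R A y) = form A x y := form_op_op A _ x y

/-- `1 + S`. -/
abbrev NS : (P → A) →ₗ[A] (P → A) := LinearMap.id + D.S A
/-- `1 + R + R²`. -/
abbrev NR : (P → A) →ₗ[A] (P → A) := LinearMap.id + D.R A + D.R A ∘ₗ D.R A
/-- `S - 1`. -/
abbrev dS : (P → A) →ₗ[A] (P → A) := D.S A - LinearMap.id
/-- `R - 1`. -/
abbrev dR : (P → A) →ₗ[A] (P → A) := D.R A - LinearMap.id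

lemma NS_dS (x : P → A) : D.NS A (D.dS A x) = 0 := by
  simp only [NS, dS, LinearMap.add_apply, LinearMap.id_apply, LinearMap.sub_apply, map_sub, D.S_S]
  abel

lemma NR_dR (x : P → A) : D.NR A (D.dR A x) = 0 := by
  simp only [NR, dR, LinearMap.add_apply, LinearMap.id_apply, LinearMap.sub_apply, map_sub,
    LinearMap.comp_apply, D.R_R_R]
  abel


section Domain

variable [IsDomain A]

/-- an injective "height" on `P`, used to pick orbit representatives. -/
noncomputable def ht (p : P) : ℕ := (Fintype.equivFin P p : ℕ)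

omit [DecidableEq P] in
lemma ht_injective : Function.Injective (ht (P := P)) :=
  fun _ _ h => (Fintype.equivFin P).injective (Fin.ext h)

lemma mem_ker_NS_iff (x : P → A) : x ∈ LinearMap.ker (D.NS A) ↔ ∀ p, x p + x (D.s p) = 0 := by
  rw [LinearMap.mem_ker]
  constructor
  · intro h p
    have := congrFun h p
    simpa [NS] using this
  · intro h; ext p
    simpa [NS] using h p

lemma mem_ker_NR_iff (x : P → A) :
    x ∈ LinearMap.ker (D.NR A) ↔ ∀ p, x p + x (D.r p) + x (D.r (D.r p)) = 0 := by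
  rw [LinearMap.mem_ker]
  constructor
  · intro h p
    have := congrFun h p
    simpa [NR] using this
  · intro h; ext p
    simpa [NR] using h p

/-- **PD0a**: `ker (1+S) = range (S-1)`. -/
theorem ker_NS_eq_range_dS (h2 : (2 : A) ≠ 0) :
    LinearMap.ker (D.NS A) = LinearMap.range (D.dS A) := by
  apply le_antisymm
  · intro x hx
    have hx' := (D.mem_ker_NS_iff A x).1 hx
    refine ⟨fun p => if ht p < ht (D.s p) then - x p else 0, ?_⟩
    ext p
    simp only [dS, LinearMap.sub_apply, LinearMap.id_apply, op_apply, Pi.sub_apply, D.s_s]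
    rcases lt_trichotomy (ht p) (ht (D.s p)) with h | h | h
    · rw [if_neg (not_lt.2 h.le), if_pos h]; ring
    · have hp : p = D.s p := ht_injective h
      have h2x : (2 : A) * x p = 0 := by
        have := hx' p; rw [← hp] at this; linear_combination this
      have hx0 : x p = 0 := (mul_eq_zero.1 h2x).resolve_left h2
      rw [← hp, if_neg (lt_irrefl _), hx0]; simp
    · rw [if_pos h, if_neg (not_lt.2 h.le)]
      linear_combination (-1 : A) * hx' p
  · rintro _ ⟨y, rfl⟩
    exact LinearMap.mem_ker.2 (D.NS_dS A y)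

/-- **PD0b**: `ker (1+R+R²) = range (R-1)`. -/
theorem ker_NR_eq_range_dR (h3 : (3 : A) ≠ 0) :
    LinearMap.ker (D.NR A) = LinearMap.range (D.dR A) := by
  apply le_antisymm
  · intro x hx
    have hx' := (D.mem_ker_NR_iff A x).1 hx
    refine ⟨fun p =>
      if ht p ≤ ht (D.r p) ∧ ht p ≤ ht (D.r (D.r p)) then 0
      else if ht (D.r (D.r p)) ≤ ht p ∧ ht (D.r (D.r p)) ≤ ht (D.r p) then x (D.r (D.r p))
      else x (D.r p) + x (D.r (D.r p)), ?_⟩
    ext p
    simp only [dR, LinearMap.sub_apply, LinearMap.id_apply, op_apply, Pi.sub_apply, D.r_r_r]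
    have hrel := hx' p
    by_cases hfix : D.r p = p
    · have h3x : (3 : A) * x p = 0 := by
        rw [hfix, hfix] at hrel; linear_combination hrel
      have hx0 : x p = 0 := (mul_eq_zero.1 h3x).resolve_left h3
      simp [hfix, hx0]
    · have hab : ht p ≠ ht (D.r p) := fun h => hfix (ht_injective h).symm
      have hbc : ht (D.r p) ≠ ht (D.r (D.r p)) := fun h =>
        hfix (D.r.injective (ht_injective h)).symm
      have hac : ht p ≠ ht (D.r (D.r p)) := fun h => by
        have h1 : p = D.r (D.r p) := ht_injective h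
        apply hfix
        have := congrArg D.r h1
        rw [D.r_r_r] at this
        exact this
      generalize ht p = a at *
      generalize ht (D.r p) = b at *
      generalize ht (D.r (D.r p)) = c at *
      split_ifs <;> first | (exfalso; omega) | linear_combination hrel |
        linear_combination (-1 : A) * hrel | linear_combination (0 : A) * hrel
  · rintro _ ⟨y, rfl⟩
    exact LinearMap.mem_ker.2 (D.NR_dR A y)

end Domain


/-! ### The modules `Z`, `Q`, the pairing, `j` and `d` -/

/-- `Z(M) = range (S-1) ⊓ range (R-1)` (equal to `ker (1+S) ⊓ ker (1+R+R²)` when `2, 3` are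
nonzero in the domain `A`, see `Zsub_eq`). -/
def Zsub : Submodule A (P → A) := LinearMap.range (D.dS A) ⊓ LinearMap.range (D.dR A)

/-- `M^S + M^R`. -/
def Qsub : Submodule A (P → A) := LinearMap.ker (D.dS A) ⊔ LinearMap.ker (D.dR A)

/-- `Q(M) = M ⧸ (M^S + M^R)`. -/
abbrev Q : Type (max u v) := (P → A) ⧸ D.Qsub A

lemma mem_ker_dS_iff (m : P → A) : m ∈ LinearMap.ker (D.dS A) ↔ D.S A m = m := by
  rw [LinearMap.mem_ker, dS, LinearMap.sub_apply, LinearMap.id_apply, sub_eq_zero]

lemma mem_ker_dR_iff (m : P → A) : m ∈ LinearMap.ker (D.dR A) ↔ D.R A m = m := by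
  rw [LinearMap.mem_ker, dR, LinearMap.sub_apply, LinearMap.id_apply, sub_eq_zero]

lemma form_dS_left (y m : P → A) : form A (D.dS A y) m = form A y (D.dS A m) := by
  simp only [dS, LinearMap.sub_apply, LinearMap.id_apply, map_sub, LinearMap.sub_apply,
    D.form_S_left]

lemma form_dR_left (y m : P → A) :
    form A (D.dR A y) m = form A y (D.R A (D.R A m) - m) := by
  simp only [dR, LinearMap.sub_apply, LinearMap.id_apply, map_sub, LinearMap.sub_apply,
    D.form_R_left]

lemma form_eq_zero_of_mem_Zsub_of_mem_Qsub {x m : P → A} (hx : x ∈ D.Zsub A)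
    (hm : m ∈ D.Qsub A) : form A x m = 0 := by
  obtain ⟨⟨y, rfl⟩, ⟨y', hy'⟩⟩ := hx
  obtain ⟨a, ha, b, hb, rfl⟩ := Submodule.mem_sup.1 hm
  rw [map_add]
  have h1 : form A (D.dS A y) a = 0 := by
    rw [D.form_dS_left, LinearMap.mem_ker.1 ha, map_zero]
  have h2 : form A (D.dS A y) b = 0 := by
    rw [← hy', D.form_dR_left]
    have hb' := (D.mem_ker_dR_iff A b).1 hb
    rw [hb', hb', sub_self, map_zero]
  rw [h1, h2, add_zero]

/-- the pairing `Z × Q → A`, `⟨x, [m]⟩ = (x, m)`. -/
noncomputable def pair : D.Zsub A →ₗ[A] D.Q A →ₗ[A] A :=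
  LinearMap.flip <| (D.Qsub A).liftQ ((form A ∘ₗ (D.Zsub A).subtype).flip) <| by
    intro m hm
    rw [LinearMap.mem_ker]
    ext x
    simpa using D.form_eq_zero_of_mem_Zsub_of_mem_Qsub A x.2 hm

@[simp] lemma pair_mk (x : D.Zsub A) (m : P → A) :
    D.pair A x (Submodule.Quotient.mk m) = form A (x : P → A) m := rfl

/-- `(m₁, m₂) ↦ ((S-1) m₁, (R-1) m₂)`. -/
abbrev theta : (P → A) × (P → A) →ₗ[A] (P → A) × (P → A) := (D.dS A).prodMap (D.dR A)

/-- `(m₁, m₂) ↦ [m₂ - m₁]`. -/
abbrev psi : (P → A) × (P → A) →ₗ[A] D.Q A :=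
  (D.Qsub A).mkQ ∘ₗ (LinearMap.snd A _ _ - LinearMap.fst A _ _)

lemma ker_theta_le_ker_psi : LinearMap.ker (D.theta A) ≤ LinearMap.ker (D.psi A) := by
  rintro ⟨m1, m2⟩ h
  rw [LinearMap.mem_ker, LinearMap.prodMap_apply, Prod.mk_eq_zero] at h
  rw [LinearMap.mem_ker, LinearMap.comp_apply, Submodule.mkQ_apply,
    Submodule.Quotient.mk_eq_zero]
  simp only [LinearMap.sub_apply, LinearMap.snd_apply, LinearMap.fst_apply]
  rw [sub_eq_add_neg, add_comm]
  exact Submodule.add_mem_sup (Submodule.neg_mem _ (LinearMap.mem_ker.2 h.1))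
    (LinearMap.mem_ker.2 h.2)

/-- the diagonal `Z → range θ`. -/
noncomputable def diag : D.Zsub A →ₗ[A] LinearMap.range (D.theta A) :=
  LinearMap.codRestrict _ ((LinearMap.id.prod LinearMap.id) ∘ₗ (D.Zsub A).subtype) <| by
    rintro ⟨x, ⟨m1, h1⟩, ⟨m2, h2⟩⟩
    exact ⟨(m1, m2), by simp [h1, h2]⟩

/-- **PD2**: the map `j : Z → Q`, `j x = [m₂ - m₁]` for `(S-1) m₁ = x = (R-1) m₂`
("forget supports"). -/
noncomputable def j : D.Zsub A →ₗ[A] D.Q A :=
  (LinearMap.ker (D.theta A)).liftQ (D.psi A) (D.ker_theta_le_ker_psi A) ∘ₗ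
    (D.theta A).quotKerEquivRange.symm.toLinearMap ∘ₗ D.diag A

theorem j_eq (x : D.Zsub A) (m1 m2 : P → A) (h1 : D.dS A m1 = x) (h2 : D.dR A m2 = x) :
    D.j A x = Submodule.Quotient.mk (m2 - m1) := by
  have hd : D.diag A x = (D.theta A).rangeRestrict (m1, m2) := by
    apply Subtype.ext
    simp [diag, h1, h2]
  simp only [j, LinearMap.comp_apply, LinearEquiv.coe_coe, hd]
  have hq : (D.theta A).quotKerEquivRange.symm ((D.theta A).rangeRestrict (m1, m2)) =
      Submodule.Quotient.mk (m1, m2) := by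
    rw [LinearEquiv.symm_apply_eq]
    rfl
  rw [hq]
  rfl

/-- the boundary map `d : Q → M ⧸ (T-1) M`, `d [m] = [(1-S) m]`. -/
noncomputable def d : D.Q A →ₗ[A] (P → A) ⧸ LinearMap.range (D.T A - LinearMap.id) :=
  (D.Qsub A).liftQ ((LinearMap.range (D.T A - LinearMap.id)).mkQ ∘ₗ (LinearMap.id - D.S A)) <| by
    intro m hm
    obtain ⟨a, ha, b, hb, rfl⟩ := Submodule.mem_sup.1 hm
    rw [LinearMap.mem_ker, map_add]
    have h1 : ((LinearMap.range (D.T A - LinearMap.id)).mkQ ∘ₗ (LinearMap.id - D.S A)) a = 0 := by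
      have := (D.mem_ker_dS_iff A a).1 ha
      simp [this]
    have h2 : ((LinearMap.range (D.T A - LinearMap.id)).mkQ ∘ₗ (LinearMap.id - D.S A)) b = 0 := by
      have hb' := (D.mem_ker_dR_iff A b).1 hb
      rw [LinearMap.comp_apply, Submodule.mkQ_apply, Submodule.Quotient.mk_eq_zero]
      refine ⟨-b, ?_⟩
      simp only [T, LinearMap.sub_apply, LinearMap.comp_apply, LinearMap.id_apply, map_neg, hb']
      abel
    rw [h1, h2, add_zero]

@[simp] lemma d_mk (m : P → A) :
    D.d A (Submodule.Quotient.mk m) = Submodule.Quotient.mk (m - D.S A m) := rfl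


/-- `Z = ker (1+S) ⊓ ker (1+R+R²)` when `2, 3 ≠ 0` in the domain `A`. -/
theorem Zsub_eq [IsDomain A] (h2 : (2 : A) ≠ 0) (h3 : (3 : A) ≠ 0) :
    D.Zsub A = LinearMap.ker (D.NS A) ⊓ LinearMap.ker (D.NR A) := by
  rw [Zsub, D.ker_NS_eq_range_dS A h2, D.ker_NR_eq_range_dR A h3]

lemma NS_eq_zero_of_mem_Zsub {x : P → A} (hx : x ∈ D.Zsub A) : x + D.S A x = 0 := by
  obtain ⟨⟨y, rfl⟩, -⟩ := hx
  simpa [NS] using D.NS_dS A y

end Datum

end Fermat.Agent.S41.PD.Core
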