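import Fermat.Agent.S41.PD.Dual

/-!
# S41 / L5 (PD6, part 1): the cup-product formula, abstract algebra

`D : Datum P`, `G` a monoid acting on `P` through `π`, with two elements `gS`, `gU` inducing
`D.s`, `D.r`.  Given two cocycles `zφ`, `zψ : G → (P → A)` (convention
`z (g h) = op (π h) (z g) + z h`) which vanish at `gU * gS` (the parabolic element), at `gS * gS`
and at `gU * gU * gU`, and a "cup primitive" `C : G → A`,
`C (g h) = C g + C h + (op (π h) (zφ g), zψ h)`, vanishing at `gS * gS`, `gU * gU * gU`, the value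
of `C` at the parabolic element `gU * gS` is minus the Poincaré pairing:
`6 * C (gU * gS) = - 6 * (zφ gS, m₂' - m₁')`, where `(S - 1) m₁' = zψ gS = (R - 1) m₂'`.
-/

set_option autoImplicit false

namespace Fermat.Agent.S41.PD.CupAlg

open Fermat.Agent.S41.PD.Core

universe u v w

variable {P : Type u} [Fintype P] [DecidableEq P] (D : Datum P)
variable (A : Type v) [CommRing A]

section

variable {G : Type w} [Monoid G] (π : G →* Equiv.Perm P) (gS gU : G)
variable (zφ zψ : G → P → A) (C : G → A)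

/-- a cocycle vanishing at `gU * gS` and `gS * gS` takes the same value at `gS` and `gU`, and
this value is killed by `1 + S`. -/
theorem cocycle_values (hS : π gS = D.s)
    (hφ : ∀ g h, zφ (g * h) = op A (π h) (zφ g) + zφ h)
    (hφT : zφ (gU * gS) = 0) (hφS : zφ (gS * gS) = 0) :
    D.S A (zφ gS) = - zφ gS ∧ zφ gU = zφ gS := by
  have h1 : D.S A (zφ gS) + zφ gS = 0 := by
    have := hφ gS gS
    rw [hφS, hS] at this
    exact this.symm
  have h2 : D.S A (zφ gU) + zφ gS = 0 := by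
    have := hφ gU gS
    rw [hφT, hS] at this
    exact this.symm
  have h1' : D.S A (zφ gS) = - zφ gS := eq_neg_of_add_eq_zero_left h1
  refine ⟨h1', ?_⟩
  have h3 : D.S A (zφ gU) = - zφ gS := eq_neg_of_add_eq_zero_left h2
  have h4 := congrArg (D.S A) h3
  rw [D.S_S, map_neg, h1', neg_neg] at h4
  exact h4

/-- the norm relation at `gU`. -/
theorem cocycle_norm_U (hU : π gU = D.r)
    (hφ : ∀ g h, zφ (g * h) = op A (π h) (zφ g) + zφ h)
    (hφU : zφ (gU * gU * gU) = 0) :
    zφ (gU * gU) = D.R A (zφ gU) + zφ gU ∧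
      D.R A (D.R A (zφ gU)) + D.R A (zφ gU) + zφ gU = 0 := by
  have h1 : zφ (gU * gU) = D.R A (zφ gU) + zφ gU := by
    have := hφ gU gU
    rw [hU] at this
    exact this
  refine ⟨h1, ?_⟩
  have h2 := hφ (gU * gU) gU
  rw [hφU, hU, h1, map_add] at h2
  exact h2.symm

/-- **The cup-product formula.** -/
theorem cup_formula (hS : π gS = D.s) (hU : π gU = D.r)
    (hφ : ∀ g h, zφ (g * h) = op A (π h) (zφ g) + zφ h)
    (hψ : ∀ g h, zψ (g * h) = op A (π h) (zψ g) + zψ h)
    (hC : ∀ g h, C (g * h) = C g + C h + form A (op A (π h) (zφ g)) (zψ h))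
    (hφT : zφ (gU * gS) = 0) (hψT : zψ (gU * gS) = 0)
    (hφS : zφ (gS * gS) = 0) (hψS : zψ (gS * gS) = 0)
    (hφU : zφ (gU * gU * gU) = 0) (hψU : zψ (gU * gU * gU) = 0)
    (hCS : C (gS * gS) = 0) (hCU : C (gU * gU * gU) = 0)
    (m1' m2' : P → A) (h1 : D.dS A m1' = zψ gS) (h2 : D.dR A m2' = zψ gS) :
    6 * C (gU * gS) = - (6 * form A (zφ gS) (m2' - m1')) := by
  obtain ⟨hSx, hxU⟩ := cocycle_values D A π gS gU zφ hS hφ hφT hφS
  obtain ⟨hSx', hxU'⟩ := cocycle_values D A π gS gU zψ hS hψ hψT hψS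
  obtain ⟨hUU, hNx⟩ := cocycle_norm_U D A π gU zφ hU hφ hφU
  obtain ⟨-, hNx'⟩ := cocycle_norm_U D A π gU zψ hU hψ hψU
  rw [hxU] at hUU hNx
  rw [hxU'] at hNx'
  set x := zφ gS with hx
  set x' := zψ gS with hx'
  -- the values of `C`
  have e1 : 2 * C gS = form A x x' := by
    have := hC gS gS
    rw [hCS, hS, ← hx, ← hx'] at this
    change 0 = C gS + C gS + form A (D.S A x) x' at this
    rw [hSx, map_neg, LinearMap.neg_apply] at this
    linear_combination (-1 : A) * this
  have e2 : C (gU * gU) = 2 * C gU + form A (D.R A x) x' := by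
    have := hC gU gU
    rw [hU, hxU, hxU'] at this
    change _ = C gU + C gU + form A (D.R A x) x' at this
    rw [this]; ring
  have e3 : 3 * C gU + form A (D.R A x) x' + form A (D.R A (D.R A x + x)) x' = 0 := by
    have := hC (gU * gU) gU
    rw [hCU, hU, hUU, hxU', e2] at this
    change 0 = _ + C gU + form A (D.R A (D.R A x + x)) x' at this
    linear_combination -this
  have e4 : C (gU * gS) = C gU + C gS - form A x x' := by
    have := hC gU gS
    rw [hS, hxU, ← hx'] at this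
    change _ = C gU + C gS + form A (D.S A x) x' at this
    rw [hSx, map_neg, LinearMap.neg_apply] at this
    rw [this]; ring
  -- in terms of `m1'`, `m2'`
  have f1 : form A x x' = - 2 * form A x m1' := by
    rw [← h1]
    simp only [Datum.dS, LinearMap.sub_apply, LinearMap.id_apply, map_sub]
    rw [← D.form_S_left, hSx, map_neg, LinearMap.neg_apply]
    ring
  have hRRx : D.R A (D.R A x) = - D.R A x - x := by
    rw [eq_sub_iff_add_eq, eq_neg_iff_add_eq_zero]
    rw [← hNx]; abel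
  -- `(R x, x') + (R (R x + x), x') = (R x - x, x') = 3 (x, m2')`
  have hR2 : D.R A (D.R A x + x) = - x := by
    rw [map_add, hRRx]; abel
  have f2 : form A (D.R A x) x' + form A (D.R A (D.R A x + x)) x' = 3 * form A x m2' := by
    rw [hR2, ← h2]
    simp only [Datum.dR, LinearMap.sub_apply, LinearMap.id_apply, map_sub, map_neg,
      LinearMap.neg_apply]
    have g1 : form A (D.R A x) (D.R A m2') = form A x m2' := D.form_R_R A x m2'
    have g2 : form A x (D.R A m2') = form A (D.R A (D.R A x)) m2' := by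
      conv_lhs => rw [← D.R_R_R A x]
      exact D.form_R_R A _ m2'
    rw [g1, g2, hRRx]
    simp only [map_sub, map_neg, LinearMap.sub_apply, LinearMap.neg_apply]
    ring
  rw [e4, map_sub]
  linear_combination 2 * e3 - 2 * f2 + 3 * e1 - 3 * f1 + 0 * e2

/-- the cup-product formula in terms of `pair` and `j`. -/
theorem cup_formula_pair (h6 : ∀ a : A, 6 * a = 0 → a = 0)
    (hS : π gS = D.s) (hU : π gU = D.r)
    (hφ : ∀ g h, zφ (g * h) = op A (π h) (zφ g) + zφ h)
    (hψ : ∀ g h, zψ (g * h) = op A (π h) (zψ g) + zψ h)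
    (hC : ∀ g h, C (g * h) = C g + C h + form A (op A (π h) (zφ g)) (zψ h))
    (hφT : zφ (gU * gS) = 0) (hψT : zψ (gU * gS) = 0)
    (hφS : zφ (gS * gS) = 0) (hψS : zψ (gS * gS) = 0)
    (hφU : zφ (gU * gU * gU) = 0) (hψU : zψ (gU * gU * gU) = 0)
    (hCS : C (gS * gS) = 0) (hCU : C (gU * gU * gU) = 0)
    (hx : zφ gS ∈ D.Zsub A) (hx' : zψ gS ∈ D.Zsub A) :
    C (gU * gS) = - D.pair A ⟨zφ gS, hx⟩ (D.j A ⟨zψ gS, hx'⟩) := by
  obtain ⟨⟨m1', h1⟩, ⟨m2', h2⟩⟩ := hx'
  have key := cup_formula D A π gS gU zφ zψ C hS hU hφ hψ hC hφT hψT hφS hψS hφU hψU hCS hCU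
    m1' m2' h1 h2
  rw [D.j_eq A ⟨zψ gS, _⟩ m1' m2' h1 h2, Datum.pair_mk]
  have : 6 * (C (gU * gS) + form A (zφ gS) (m2' - m1')) = 0 := by
    rw [mul_add, key]; ring
  have := h6 _ this
  exact eq_neg_of_add_eq_zero_left this

end

end Fermat.Agent.S41.PD.CupAlg
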