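import Mathlib

/-!
# S41 / L5 / PD1a : the presentation `PSL(2,ℤ) = C₂ * C₃`, in hom-lifting form

* `exists_hom_of_rel` : for every group `H` and `s u : H` with `s * s = 1`, `u * u * u = 1` there is
  a homomorphism `f : SL(2,ℤ) →* H` with `f S = s`, `f (S * T) = u`.
  (ping-pong lemma on the upper half plane + `SL2Z_generators`).
* `exists_cocycle_of_rel` : cocycle extension on `SL(2,ℤ)`-sets.
-/

set_option autoImplicit false

namespace Fermat.Agent.S41.PD.Present

open scoped MatrixGroups Pointwise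
open ModularGroup UpperHalfPlane

noncomputable section

/-! ## The cyclic factors -/

/-- the orders of the two cyclic factors. -/
def facOrd (b : Bool) : ℕ := cond b 2 3

/-- the two cyclic factors. -/
abbrev Fac (b : Bool) : Type := Multiplicative (ZMod (facOrd b))

/-- the free product `C₂ * C₃`. -/
abbrev FreeProd : Type := Monoid.CoprodI Fac

/-- the homomorphism from a cyclic group of order `n` sending the generator to `k`. -/
def zmodCyc (n : ℕ) {K : Type*} [Group K] (k : K) (hk : k ^ n = 1) : Multiplicative (ZMod n) →* K :=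
  AddMonoidHom.toMultiplicativeLeft
    (ZMod.lift n ⟨zmultiplesHom (Additive K) (Additive.ofMul k), by
      rw [zmultiplesHom_apply, natCast_zsmul, ← ofMul_pow, hk, ofMul_one]⟩)

theorem zmodCyc_gen (n : ℕ) {K : Type*} [Group K] (k : K) (hk : k ^ n = 1) :
    zmodCyc n k hk (Multiplicative.ofAdd 1) = k := by
  have h1 : ((1 : ℤ) : ZMod n) = 1 := Int.cast_one
  simp only [zmodCyc, AddMonoidHom.toMultiplicativeLeft_apply_apply, toAdd_ofAdd]
  rw [← h1, ZMod.lift_coe]
  simp

/-- the generator of a factor. -/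
def gen (b : Bool) : Fac b := Multiplicative.ofAdd 1

/-- the family of homomorphisms attached to `s`, `u`. -/
def facHom {K : Type*} [Group K] (s u : K) (hs : s ^ 2 = 1) (hu : u ^ 3 = 1) :
    ∀ b : Bool, Fac b →* K
  | true => zmodCyc 2 s hs
  | false => zmodCyc 3 u hu

theorem facHom_true {K : Type*} [Group K] (s u : K) (hs : s ^ 2 = 1) (hu : u ^ 3 = 1) :
    facHom s u hs hu true (gen true) = s := zmodCyc_gen 2 s hs

theorem facHom_false {K : Type*} [Group K] (s u : K) (hs : s ^ 2 = 1) (hu : u ^ 3 = 1) :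
    facHom s u hs hu false (gen false) = u := zmodCyc_gen 3 u hu

theorem mulZMod_two_cases (h : Multiplicative (ZMod 2)) : h = 1 ∨ h = Multiplicative.ofAdd 1 := by
  revert h
  decide

theorem mulZMod_three_cases (h : Multiplicative (ZMod 3)) :
    h = 1 ∨ h = Multiplicative.ofAdd 1 ∨ h = (Multiplicative.ofAdd 1)⁻¹ := by
  revert h
  decide

theorem fac_true_cases (h : Fac true) : h = 1 ∨ h = gen true := mulZMod_two_cases h

theorem fac_false_cases (h : Fac false) : h = 1 ∨ h = gen false ∨ h = (gen false)⁻¹ :=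
  mulZMod_three_cases h

/-! ## The ping-pong on the upper half plane -/

theorem S_mul_S_SL : (S * S : SL(2, ℤ)) = -1 := by
  apply Subtype.ext
  rw [Matrix.SpecialLinearGroup.coe_mul, S_mul_S_eq]
  simp

theorem U_cube_SL : ((S * T) * (S * T) * (S * T) : SL(2, ℤ)) = -1 := by
  apply Subtype.ext
  simp only [Matrix.SpecialLinearGroup.coe_mul, coe_S, coe_T, Matrix.SpecialLinearGroup.coe_neg,
    Matrix.SpecialLinearGroup.coe_one]
  ext i j
  fin_cases i <;> fin_cases j <;> simp [Matrix.mul_apply, Fin.sum_univ_two]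

/-- the action homomorphism on the upper half plane. -/
def rhoH : SL(2, ℤ) →* Equiv.Perm ℍ := MulAction.toPermHom SL(2, ℤ) ℍ

theorem rhoH_apply (g : SL(2, ℤ)) (z : ℍ) : rhoH g z = g • z := rfl

theorem rhoH_neg_one : rhoH (-1) = 1 := by
  ext1 z
  rw [rhoH_apply, SL_neg_smul, one_smul]
  rfl

theorem rhoH_S_sq : rhoH S ^ 2 = 1 := by
  rw [← map_pow, pow_two, S_mul_S_SL, rhoH_neg_one]

theorem rhoH_U_cube : rhoH (S * T) ^ 3 = 1 := by
  rw [← map_pow, pow_succ, pow_two, U_cube_SL, rhoH_neg_one]

theorem re_S_smul (z : ℍ) : (S • z).re = -z.re / Complex.normSq z := by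
  rw [modular_S_smul]
  change ((-(z : ℂ))⁻¹).re = _
  rw [Complex.inv_re, Complex.neg_re, Complex.normSq_neg]
  rfl

theorem normSq_pos' (z : ℍ) : 0 < Complex.normSq (z : ℂ) := Complex.normSq_pos.mpr z.ne_zero

theorem re_S_smul_pos {z : ℍ} (hz : z.re < 0) : 0 < (S • z).re := by
  rw [re_S_smul]
  exact div_pos (by linarith) (normSq_pos' z)

theorem re_S_smul_neg {z : ℍ} (hz : 0 < z.re) : (S • z).re < 0 := by
  rw [re_S_smul]
  exact div_neg_of_neg_of_pos (by linarith) (normSq_pos' z)

theorem re_U_smul_neg {z : ℍ} (hz : 0 < z.re) : ((S * T) • z).re < 0 := by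
  rw [mul_smul]
  apply re_S_smul_neg
  rw [re_T_smul]
  linarith

theorem S_inv_smul (z : ℍ) : (S : SL(2, ℤ))⁻¹ • z = S • z := by
  rw [inv_smul_eq_iff, ← mul_smul, S_mul_S_SL, SL_neg_smul, one_smul]

theorem re_U_inv_smul_neg {z : ℍ} (hz : 0 < z.re) : ((S * T : SL(2, ℤ))⁻¹ • z).re < 0 := by
  rw [mul_inv_rev, mul_smul, S_inv_smul, re_T_inv_smul]
  have := re_S_smul_neg hz
  linarith

/-- the ping-pong sets. -/
def ppSet : Bool → Set ℍ
  | true => {z | 0 < z.re}
  | false => {z | z.re < 0}

/-- the family of homomorphisms into `Perm ℍ`. -/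
def facH : ∀ b : Bool, Fac b →* Equiv.Perm ℍ :=
  facHom (rhoH S) (rhoH (S * T)) rhoH_S_sq rhoH_U_cube

theorem ppSet_nonempty (b : Bool) : (ppSet b).Nonempty := by
  cases b
  · refine ⟨UpperHalfPlane.mk ⟨-1, 1⟩ (by simp), ?_⟩
    change (UpperHalfPlane.mk ⟨-1, 1⟩ _).re < 0
    simp [UpperHalfPlane.re]
  · refine ⟨UpperHalfPlane.mk ⟨1, 1⟩ (by simp), ?_⟩
    change 0 < (UpperHalfPlane.mk ⟨1, 1⟩ _).re
    simp [UpperHalfPlane.re]

theorem ppSet_disjoint : Pairwise (Function.onFun Disjoint ppSet) := by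
  intro i j hij
  rw [Function.onFun, Set.disjoint_left]
  cases i <;> cases j
  · exact absurd rfl hij
  · intro z (h1 : z.re < 0) (h2 : 0 < z.re)
    linarith
  · intro z (h1 : 0 < z.re) (h2 : z.re < 0)
    linarith
  · exact absurd rfl hij

theorem ppSet_pingpong :
    Pairwise fun i j => ∀ h : Fac i, h ≠ 1 → facH i h • ppSet j ⊆ ppSet i := by
  intro i j hij h hne
  rw [Set.smul_set_subset_iff]
  cases i <;> cases j
  · exact absurd rfl hij
  · intro z (hz : 0 < z.re)
    rcases fac_false_cases h with rfl | rfl | rfl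
    · exact absurd rfl hne
    · change (facH false (gen false) z).re < 0
      rw [facH, facHom_false, rhoH_apply]
      exact re_U_smul_neg hz
    · change (facH false (gen false)⁻¹ z).re < 0
      rw [map_inv, facH, facHom_false, ← map_inv, rhoH_apply]
      exact re_U_inv_smul_neg hz
  · intro z (hz : z.re < 0)
    rcases fac_true_cases h with rfl | rfl
    · exact absurd rfl hne
    · change 0 < (facH true (gen true) z).re
      rw [facH, facHom_true, rhoH_apply]
      exact re_S_smul_pos hz
  · exact absurd rfl hij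

theorem lift_facH_injective : Function.Injective (Monoid.CoprodI.lift facH) := by
  refine Monoid.CoprodI.lift_injective_of_ping_pong facH (Or.inr ⟨false, ?_⟩) ppSet ppSet_nonempty
    ppSet_disjoint ppSet_pingpong
  change (3 : Cardinal) ≤ Cardinal.mk (Multiplicative (ZMod 3))
  rw [Cardinal.mk_fintype]
  norm_cast

/-! ## The presentation -/

theorem lift_facH_of_true :
    Monoid.CoprodI.lift facH (Monoid.CoprodI.of (gen true)) = rhoH S := by
  rw [Monoid.CoprodI.lift_of, facH, facHom_true]

theorem lift_facH_of_false :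
    Monoid.CoprodI.lift facH (Monoid.CoprodI.of (gen false)) = rhoH (S * T) := by
  rw [Monoid.CoprodI.lift_of, facH, facHom_false]

theorem rhoH_mem_range (g : SL(2, ℤ)) : rhoH g ∈ (Monoid.CoprodI.lift facH).range := by
  have hg : g ∈ Subgroup.closure ({S, T} : Set SL(2, ℤ)) := by
    rw [SpecialLinearGroup.SL2Z_generators]
    trivial
  have hS : rhoH S ∈ (Monoid.CoprodI.lift facH).range := ⟨_, lift_facH_of_true⟩
  have hU : rhoH (S * T) ∈ (Monoid.CoprodI.lift facH).range := ⟨_, lift_facH_of_false⟩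
  induction hg using Subgroup.closure_induction with
  | mem x hx =>
    rcases hx with rfl | rfl
    · exact hS
    · have hT : (T : SL(2, ℤ)) = S⁻¹ * (S * T) := by group
      rw [hT, map_mul, map_inv]
      exact mul_mem (inv_mem hS) hU
  | one => rw [map_one]; exact one_mem _
  | mul x y _ _ hx hy => rw [map_mul]; exact mul_mem hx hy
  | inv x _ hx => rw [map_inv]; exact inv_mem hx

/-- `C₂ * C₃` is isomorphic to the image of `SL(2,ℤ)` in `Perm ℍ`. -/
def freeProdEquiv : FreeProd ≃* (Monoid.CoprodI.lift facH).range :=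
  MonoidHom.ofInjective lift_facH_injective

/-- the projection `SL(2,ℤ) → C₂ * C₃`. -/
def toFreeProd : SL(2, ℤ) →* FreeProd :=
  freeProdEquiv.symm.toMonoidHom.comp (rhoH.codRestrict _ rhoH_mem_range)

theorem toFreeProd_S : toFreeProd S = Monoid.CoprodI.of (gen true) := by
  change freeProdEquiv.symm _ = _
  rw [MulEquiv.symm_apply_eq]
  apply Subtype.ext
  rw [freeProdEquiv, MonoidHom.ofInjective_apply]
  exact lift_facH_of_true.symm

theorem toFreeProd_U : toFreeProd (S * T) = Monoid.CoprodI.of (gen false) := by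
  change freeProdEquiv.symm _ = _
  rw [MulEquiv.symm_apply_eq]
  apply Subtype.ext
  rw [freeProdEquiv, MonoidHom.ofInjective_apply]
  exact lift_facH_of_false.symm

/-- **The presentation of `PSL(2,ℤ)`**, in hom-lifting form. -/
theorem exists_hom_of_rel {H : Type*} [Group H] (s u : H) (hs : s * s = 1) (hu : u * u * u = 1) :
    ∃ f : SL(2, ℤ) →* H, f S = s ∧ f (S * T) = u := by
  have hs' : s ^ 2 = 1 := by rw [pow_two, hs]
  have hu' : u ^ 3 = 1 := by rw [pow_succ, pow_two, hu]
  refine ⟨(Monoid.CoprodI.lift (facHom s u hs' hu')).comp toFreeProd, ?_, ?_⟩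
  · rw [MonoidHom.comp_apply, toFreeProd_S, Monoid.CoprodI.lift_of, facHom_true]
  · rw [MonoidHom.comp_apply, toFreeProd_U, Monoid.CoprodI.lift_of, facHom_false]

/-! ## Cocycle extension -/

section cocycle

variable {X : Type*} [MulAction SL(2, ℤ) X] {A : Type*} [AddCommGroup A]

/-- the affine permutation `m ↦ m ∘ g + c` of `X → A`. -/
def affPerm (g : SL(2, ℤ)) (c : X → A) : Equiv.Perm (X → A) where
  toFun m := fun x => m (g • x) + c x
  invFun m := fun x => m (g⁻¹ • x) - c (g⁻¹ • x)
  left_inv m := by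
    funext x
    simp
  right_inv m := by
    funext x
    simp

theorem affPerm_apply (g : SL(2, ℤ)) (c : X → A) (m : X → A) (x : X) :
    affPerm g c m x = m (g • x) + c x := rfl

theorem closure_S_U : Subgroup.closure ({S, S * T} : Set SL(2, ℤ)) = ⊤ := by
  rw [eq_top_iff, ← SpecialLinearGroup.SL2Z_generators, Subgroup.closure_le]
  intro x hx
  have hS : (S : SL(2, ℤ)) ∈ Subgroup.closure ({S, S * T} : Set SL(2, ℤ)) :=
    Subgroup.subset_closure (by simp)
  have hU : (S * T : SL(2, ℤ)) ∈ Subgroup.closure ({S, S * T} : Set SL(2, ℤ)) :=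
    Subgroup.subset_closure (by simp)
  rcases hx with rfl | rfl
  · exact hS
  · have hT : (T : SL(2, ℤ)) = S⁻¹ * (S * T) := by group
    have h1 := mul_mem (inv_mem hS) hU
    rw [← hT] at h1
    exact h1

/-- **Cocycle extension**: on an `SL(2,ℤ)`-set on which `S² = U³` acts trivially, a pair
`(a, b)` with `(1 + S) a = 0`, `(1 + U + U²) b = 0` is the pair of values at `S`, `U = S T` of a
cocycle (convention `c (g h) x = c g (h • x) + c h x`). -/
theorem exists_cocycle_of_rel
    (hS : ∀ x : X, (S : SL(2, ℤ)) • (S : SL(2, ℤ)) • x = x)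
    (hU : ∀ x : X, (S * T : SL(2, ℤ)) • (S * T : SL(2, ℤ)) • (S * T : SL(2, ℤ)) • x = x)
    (a b : X → A) (ha : ∀ x, a x + a ((S : SL(2, ℤ)) • x) = 0)
    (hb : ∀ x, b x + b ((S * T : SL(2, ℤ)) • x) +
      b ((S * T : SL(2, ℤ)) • (S * T : SL(2, ℤ)) • x) = 0) :
    ∃ c : SL(2, ℤ) → X → A, (∀ g h x, c (g * h) x = c g (h • x) + c h x) ∧
      c S = a ∧ c (S * T) = b := by
  have hs : (MulOpposite.op (affPerm S a) : (Equiv.Perm (X → A))ᵐᵒᵖ) *
      MulOpposite.op (affPerm S a) = 1 := by
    rw [← MulOpposite.op_mul, ← MulOpposite.op_one, MulOpposite.op_inj]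
    ext m x
    rw [Equiv.Perm.mul_apply, affPerm_apply, affPerm_apply, hS, Equiv.Perm.one_apply, add_assoc,
      add_comm (a _), ha, add_zero]
  have hu : (MulOpposite.op (affPerm (S * T) b) : (Equiv.Perm (X → A))ᵐᵒᵖ) *
      MulOpposite.op (affPerm (S * T) b) * MulOpposite.op (affPerm (S * T) b) = 1 := by
    rw [← MulOpposite.op_mul, ← MulOpposite.op_mul, ← MulOpposite.op_one, MulOpposite.op_inj]
    ext m x
    rw [Equiv.Perm.mul_apply, Equiv.Perm.mul_apply, affPerm_apply, affPerm_apply, affPerm_apply,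
      hU, Equiv.Perm.one_apply]
    have := hb x
    rw [add_assoc, add_assoc]
    rw [show b ((S * T : SL(2, ℤ)) • (S * T : SL(2, ℤ)) • x) + (b ((S * T : SL(2, ℤ)) • x) + b x)
      = b x + b ((S * T : SL(2, ℤ)) • x) + b ((S * T : SL(2, ℤ)) • (S * T : SL(2, ℤ)) • x) by abel,
      this, add_zero]
  obtain ⟨f, hfS, hfU⟩ := exists_hom_of_rel _ _ hs hu
  -- the affine property
  have key : ∀ g : SL(2, ℤ), ∀ (m : X → A) (x : X),
      (f g).unop m x = m (g • x) + (f g).unop 0 x := by
    intro g
    have hg : g ∈ Subgroup.closure ({S, S * T} : Set SL(2, ℤ)) := by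
      rw [closure_S_U]
      trivial
    induction hg using Subgroup.closure_induction with
    | mem y hy =>
      rcases hy with rfl | rfl
      · intro m x
        rw [hfS, MulOpposite.unop_op, affPerm_apply, affPerm_apply, Pi.zero_apply, zero_add]
      · intro m x
        rw [hfU, MulOpposite.unop_op, affPerm_apply, affPerm_apply, Pi.zero_apply, zero_add]
    | one =>
      intro m x
      rw [map_one, MulOpposite.unop_one, Equiv.Perm.one_apply, Equiv.Perm.one_apply, one_smul,
        Pi.zero_apply, add_zero]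
    | mul y z _ _ hy hz =>
      intro m x
      rw [map_mul, MulOpposite.unop_mul, Equiv.Perm.mul_apply, Equiv.Perm.mul_apply, hz, hy,
        hz 0, mul_smul]
      rw [hz ((f y).unop 0)]
      simp only [Pi.zero_apply, zero_add, add_assoc]
    | inv y _ hy =>
      intro m x
      rw [map_inv, MulOpposite.unop_inv]
      have hinv : ∀ m' : X → A, ((f y).unop)⁻¹ m' =
          fun x => m' (y⁻¹ • x) - (f y).unop 0 (y⁻¹ • x) := by
        intro m'
        rw [Equiv.Perm.inv_def, Equiv.symm_apply_eq]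
        funext x
        rw [hy]
        simp
      rw [hinv, hinv]
      simp only [Pi.zero_apply, sub_eq_add_neg, zero_add]
  refine ⟨fun g => (f g).unop 0, ?_, ?_, ?_⟩
  · intro g h x
    change (f (g * h)).unop 0 x = _
    rw [map_mul, MulOpposite.unop_mul, Equiv.Perm.mul_apply, key h]
  · funext x
    change (f S).unop 0 x = _
    rw [hfS, MulOpposite.unop_op, affPerm_apply, Pi.zero_apply, zero_add]
  · funext x
    change (f (S * T)).unop 0 x = _
    rw [hfU, MulOpposite.unop_op, affPerm_apply, Pi.zero_apply, zero_add]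

/-- a cocycle vanishes at `1`. -/
theorem cocycle_one {c : SL(2, ℤ) → X → A} (hc : ∀ g h x, c (g * h) x = c g (h • x) + c h x)
    (x : X) : c 1 x = 0 := by
  have h := hc 1 1 x
  rw [mul_one, one_smul] at h
  exact left_eq_add.mp h

/-- the value of a cocycle at an inverse. -/
theorem cocycle_inv {c : SL(2, ℤ) → X → A} (hc : ∀ g h x, c (g * h) x = c g (h • x) + c h x)
    (g : SL(2, ℤ)) (x : X) : c g⁻¹ x = -c g (g⁻¹ • x) := by
  have h := hc g g⁻¹ x
  rw [mul_inv_cancel, cocycle_one hc] at h
  exact eq_neg_of_add_eq_zero_right h.symm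

/-- **Uniqueness**: a cocycle is determined by its values at `S` and `U = S T`. -/
theorem cocycle_ext {c c' : SL(2, ℤ) → X → A}
    (hc : ∀ g h x, c (g * h) x = c g (h • x) + c h x)
    (hc' : ∀ g h x, c' (g * h) x = c' g (h • x) + c' h x)
    (hS : c S = c' S) (hU : c (S * T) = c' (S * T)) : c = c' := by
  funext g
  have hg : g ∈ Subgroup.closure ({S, S * T} : Set SL(2, ℤ)) := by
    rw [closure_S_U]
    trivial
  induction hg using Subgroup.closure_induction with
  | mem y hy =>
    rcases hy with rfl | rfl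
    · exact hS
    · exact hU
  | one =>
    funext x
    rw [cocycle_one hc, cocycle_one hc']
  | mul y z _ _ hy hz =>
    funext x
    rw [hc, hc', hy, hz]
  | inv y _ hy =>
    funext x
    rw [cocycle_inv hc, cocycle_inv hc', hy]

end cocycle

end

end Fermat.Agent.S41.PD.Present
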