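import Fermat.Agent.S41.PD.ShapiroSec
import Fermat.Agent.S41.PD.Present

/-!
# S41 / L5 (PD6, item I5): existence of the cup primitive

`Γ ≤ SL(2,ℤ)` of finite index containing `-1`, `A` a commutative ring in which `2`, `3` are
non-zero-divisors, `φ ψ : Γ → A` additive and killing `-1`.  Then there is `c : Γ → A` with
`c (a b) = c a + c b + φ a * ψ b` (`exists_cupPrim`).

Proof: the Shapiro cocycles `z`, `z'` of `φ`, `ψ`; on `Ω = (X → A) × (X → A)` the twisted affine
maps `F[g,e] (u,v) = (u∘g + z g, v∘g + e + (u∘g) ⊙ z' g)` compose as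
`F[h,e'] ∘ F[g,e] = F[g h, e∘h + e' + (z g∘h) ⊙ z' h]`; suitable `e_S`, `e_U` make `F[S,e_S]` of order
`2` and `F[U,e_U]` of order `3`, and the universal property of `PSL(2,ℤ) = C₂ * C₃`
(`Present.exists_hom_of_rel`) yields `C : SL(2,ℤ) → X → A` with
`C (g h) = C g ∘ h + C h + (z g ∘ h) ⊙ z' h`; `c γ = C γ x₀`.
-/

set_option autoImplicit false
set_option linter.unusedSectionVars false
set_option linter.unusedVariables false

namespace Fermat.Agent.S41.PD.CupPrim

open Fermat.Agent.S41.PD.Core Fermat.Agent.S41.PD.ShapiroSec Fermat.Agent.S41.PD.Present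
open ModularGroup
open scoped MatrixGroups

/-! ### Twisted affine maps -/

section Twisted

variable {G : Type*} [Group G] {X : Type*} [MulAction G X] {A : Type*} [CommRing A]
variable (z z' : G → X → A)

/-- the twisted affine map `F[g,e]`. -/
def Fmap (g : G) (e : X → A) (p : (X → A) × (X → A)) : (X → A) × (X → A) :=
  (fun y => p.1 (g • y) + z g y, fun y => p.2 (g • y) + e y + p.1 (g • y) * z' g y)

/-- the twist of a composition. -/
def ecomp (g h : G) (e e' : X → A) : X → A :=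
  fun y => e (h • y) + e' y + z g (h • y) * z' h y

/-- the twist of the inverse. -/
def einv (g : G) (e : X → A) : X → A :=
  fun y => - e (g⁻¹ • y) - z g (g⁻¹ • y) * z' g⁻¹ y

variable {z z'}

theorem Fmap_snd_zero (g : G) (e : X → A) : (Fmap z z' g e (0, 0)).2 = e := by
  funext y
  simp [Fmap]

variable (hz : ∀ g h y, z (g * h) y = z g (h • y) + z h y)
  (hz' : ∀ g h y, z' (g * h) y = z' g (h • y) + z' h y)

include hz in
theorem coc_one (y : X) : z 1 y = 0 := by
  have h := hz 1 1 y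
  rw [mul_one, one_smul] at h
  exact left_eq_add.mp h

include hz in
theorem coc_inv_smul (g : G) (y : X) : z g⁻¹ (g • y) = - z g y := by
  have h := hz g⁻¹ g y
  rw [inv_mul_cancel, coc_one hz] at h
  exact eq_neg_of_add_eq_zero_left h.symm

include hz in
theorem coc_inv (g : G) (y : X) : z g⁻¹ y = - z g (g⁻¹ • y) := by
  have h := hz g g⁻¹ y
  rw [mul_inv_cancel, coc_one hz] at h
  exact eq_neg_of_add_eq_zero_right h.symm

include hz hz' in
theorem Fmap_comp (g h : G) (e e' : X → A) (p : (X → A) × (X → A)) :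
    Fmap z z' h e' (Fmap z z' g e p) = Fmap z z' (g * h) (ecomp z z' g h e e') p := by
  apply Prod.ext
  · funext y
    simp only [Fmap, mul_smul, hz]
    ring
  · funext y
    simp only [Fmap, ecomp, mul_smul, hz']
    ring

include hz hz' in
theorem Fmap_one (p : (X → A) × (X → A)) : Fmap z z' 1 0 p = p := by
  apply Prod.ext
  · funext y
    simp [Fmap, coc_one hz]
  · funext y
    simp [Fmap, coc_one hz']

include hz hz' in
theorem Fmap_einv_left (g : G) (e : X → A) (p : (X → A) × (X → A)) :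
    Fmap z z' g⁻¹ (einv z z' g e) (Fmap z z' g e p) = p := by
  rw [Fmap_comp hz hz']
  have h0 : ecomp z z' g g⁻¹ e (einv z z' g e) = 0 := by
    funext y
    simp only [ecomp, einv, Pi.zero_apply]
    ring
  rw [h0, mul_inv_cancel, Fmap_one hz hz']

include hz hz' in
theorem Fmap_einv_right (g : G) (e : X → A) (p : (X → A) × (X → A)) :
    Fmap z z' g e (Fmap z z' g⁻¹ (einv z z' g e) p) = p := by
  rw [Fmap_comp hz hz']
  have h0 : ecomp z z' g⁻¹ g (einv z z' g e) e = 0 := by
    funext y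
    simp only [ecomp, einv, Pi.zero_apply, inv_smul_smul, coc_inv_smul hz, coc_inv_smul hz']
    ring
  rw [h0, inv_mul_cancel, Fmap_one hz hz']

include hz hz' in
/-- the relation of order two. -/
theorem Fmap_rel_two (s : G) (m1 : X → A) (hss : ∀ y : X, s • s • y = y)
    (hzss : z (s * s) = 0) (hz'ss : z' (s * s) = 0)
    (hm1 : ∀ y, m1 (s • y) - m1 y = z s y) (p : (X → A) × (X → A)) :
    Fmap z z' s (fun y => m1 (s • y) * z' s y)
      (Fmap z z' s (fun y => m1 (s • y) * z' s y) p) = p := by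
  have ha' : ∀ y, z' s (s • y) + z' s y = 0 := by
    intro y
    have := hz' s s y
    rw [hz'ss] at this
    exact this.symm
  rw [Fmap_comp hz hz']
  apply Prod.ext
  · funext y
    simp only [Fmap, mul_smul, hss, hzss, Pi.zero_apply, add_zero]
  · funext y
    simp only [Fmap, ecomp, mul_smul, hss, hz'ss, Pi.zero_apply, mul_zero, add_zero]
    have e2 := ha' y
    have e4 := hm1 (s • y)
    rw [hss] at e4
    linear_combination (m1 y) * e2 - z' s y * e4

include hz hz' in
/-- the relation of order three. -/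
theorem Fmap_rel_three (u : G) (m2 : X → A) (huuu : ∀ y : X, u • u • u • y = y)
    (hzu : z (u * (u * u)) = 0) (hz'u : z' (u * (u * u)) = 0)
    (hm2 : ∀ y, m2 (u • y) - m2 y = z u y) (p : (X → A) × (X → A)) :
    Fmap z z' u (fun y => m2 (u • y) * z' u y)
      (Fmap z z' u (fun y => m2 (u • y) * z' u y)
        (Fmap z z' u (fun y => m2 (u • y) * z' u y) p)) = p := by
  have hb' : ∀ y, z' u (u • u • y) + z' u (u • y) + z' u y = 0 := by
    intro y
    have e1 := hz' u (u * u) y
    have e2 := hz' u u y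
    rw [hz'u, e2, mul_smul, Pi.zero_apply] at e1
    linear_combination (-1 : A) * e1
  rw [Fmap_comp hz hz', Fmap_comp hz hz']
  apply Prod.ext
  · funext y
    simp only [Fmap, mul_smul, huuu, hzu, Pi.zero_apply, add_zero]
  · funext y
    have e5 := hz' u u y
    simp only [Fmap, ecomp, mul_smul, huuu, hz'u, Pi.zero_apply, mul_zero, add_zero, e5]
    have e2 := hm2 (u • y)
    have e3 := hm2 (u • u • y)
    rw [huuu] at e3
    have e4 := hb' y
    linear_combination (m2 y) * e4 - z' u (u • y) * e3 - z' u y * (e2 + e3)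

/-- `F[g,e]` as a permutation. -/
def Fperm (g : G) (e : X → A) : Equiv.Perm ((X → A) × (X → A)) where
  toFun := Fmap z z' g e
  invFun := Fmap z z' g⁻¹ (einv z z' g e)
  left_inv := Fmap_einv_left hz hz' g e
  right_inv := Fmap_einv_right hz hz' g e

theorem Fperm_apply (g : G) (e : X → A) (p : (X → A) × (X → A)) :
    Fperm hz hz' g e p = Fmap z z' g e p := rfl

end Twisted

/-! ### The universal property -/

section UP

variable {X : Type*} [MulAction SL(2, ℤ) X] {A : Type*} [CommRing A]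
variable {z z' : SL(2, ℤ) → X → A}

/-- **Existence of the twisted primitive** from the two relations. -/
theorem exists_twisted (hz : ∀ g h y, z (g * h) y = z g (h • y) + z h y)
    (hz' : ∀ g h y, z' (g * h) y = z' g (h • y) + z' h y) (eS eU : X → A)
    (hS : ∀ p, Fmap z z' S eS (Fmap z z' S eS p) = p)
    (hU : ∀ p, Fmap z z' (S * T) eU (Fmap z z' (S * T) eU (Fmap z z' (S * T) eU p)) = p) :
    ∃ C : SL(2, ℤ) → X → A,
      ∀ g h y, C (g * h) y = C g (h • y) + C h y + z g (h • y) * z' h y := by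
  have hs : (MulOpposite.op (Fperm hz hz' S eS) : (Equiv.Perm ((X → A) × (X → A)))ᵐᵒᵖ) *
      MulOpposite.op (Fperm hz hz' S eS) = 1 := by
    rw [← MulOpposite.op_mul, ← MulOpposite.op_one, MulOpposite.op_inj]
    ext1 p
    rw [Equiv.Perm.mul_apply, Fperm_apply, Fperm_apply, hS, Equiv.Perm.one_apply]
  have hu : (MulOpposite.op (Fperm hz hz' (S * T) eU) :
      (Equiv.Perm ((X → A) × (X → A)))ᵐᵒᵖ) *
      MulOpposite.op (Fperm hz hz' (S * T) eU) * MulOpposite.op (Fperm hz hz' (S * T) eU) = 1 := by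
    rw [← MulOpposite.op_mul, ← MulOpposite.op_mul, ← MulOpposite.op_one, MulOpposite.op_inj]
    ext1 p
    rw [Equiv.Perm.mul_apply, Equiv.Perm.mul_apply, Fperm_apply, Fperm_apply, Fperm_apply, hU,
      Equiv.Perm.one_apply]
  obtain ⟨f, hfS, hfU⟩ := exists_hom_of_rel _ _ hs hu
  have key : ∀ g : SL(2, ℤ), ∃ e : X → A, ∀ p, (f g).unop p = Fmap z z' g e p := by
    intro g
    have hg : g ∈ Subgroup.closure ({S, S * T} : Set SL(2, ℤ)) := by
      rw [closure_S_U]
      trivial
    induction hg using Subgroup.closure_induction with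
    | mem y hy =>
      rcases hy with rfl | rfl
      · exact ⟨eS, fun p => by rw [hfS, MulOpposite.unop_op, Fperm_apply]⟩
      · exact ⟨eU, fun p => by rw [hfU, MulOpposite.unop_op, Fperm_apply]⟩
    | one =>
      refine ⟨0, fun p => ?_⟩
      rw [map_one, MulOpposite.unop_one, Equiv.Perm.one_apply, Fmap_one hz hz']
    | mul a b _ _ ha hb =>
      obtain ⟨ea, hea⟩ := ha
      obtain ⟨eb, heb⟩ := hb
      refine ⟨ecomp z z' a b ea eb, fun p => ?_⟩
      rw [map_mul, MulOpposite.unop_mul, Equiv.Perm.mul_apply, hea, heb, Fmap_comp hz hz']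
    | inv a _ ha =>
      obtain ⟨ea, hea⟩ := ha
      refine ⟨einv z z' a ea, fun p => ?_⟩
      rw [map_inv, MulOpposite.unop_inv, Equiv.Perm.inv_def, Equiv.symm_apply_eq, hea,
        Fmap_einv_right hz hz']
  choose C hC using key
  refine ⟨C, fun g h y => ?_⟩
  have h1 : ∀ p, Fmap z z' (g * h) (C (g * h)) p = Fmap z z' (g * h) (ecomp z z' g h (C g) (C h)) p := by
    intro p
    rw [← hC (g * h), map_mul, MulOpposite.unop_mul, Equiv.Perm.mul_apply, hC g, hC h,
      Fmap_comp hz hz']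
  have h2 := congrArg Prod.snd (h1 (0, 0))
  rw [Fmap_snd_zero, Fmap_snd_zero] at h2
  have h3 := congrFun h2 y
  simpa [ecomp] using h3

end UP

/-! ### The cup primitive on `Γ` -/

section Main

variable (Γ : Subgroup SL(2, ℤ)) [Fintype (SL(2, ℤ) ⧸ Γ)] [DecidableEq (SL(2, ℤ) ⧸ Γ)]
variable {A : Type*} [CommRing A]

/-- a section of `SL(2,ℤ) → SL(2,ℤ) ⧸ Γ`. -/
noncomputable def outSec : Sec Γ where
  σ y := y.out
  mk_σ y := QuotientGroup.out_eq' y

theorem neg_one_central (g : SL(2, ℤ)) : g * (-1) = (-1) * g := by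
  rw [mul_neg_one, neg_one_mul]

variable {Γ}

/-- the value of a Shapiro cocycle at the base point. -/
theorem shap_base (s : Sec Γ) {φ : Γ → A} (hφ : ∀ a b, φ (a * b) = φ a + φ b) (γ : Γ) :
    shap s φ (γ : SL(2, ℤ)) (QuotientGroup.mk 1 : SL(2, ℤ) ⧸ Γ) = φ γ := by
  have h1 : φ 1 = 0 := by
    have := hφ 1 1
    rw [mul_one] at this
    exact (add_eq_left.mp this.symm)
  have hinv : ∀ a, φ a⁻¹ = - φ a := fun a => by
    have := hφ a⁻¹ a
    rw [inv_mul_cancel, h1] at this
    exact eq_neg_of_add_eq_zero_left this.symm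
  have hδ : s.σ (QuotientGroup.mk 1 : SL(2, ℤ) ⧸ Γ) ∈ Γ := by
    have := s.mk_σ (QuotientGroup.mk 1 : SL(2, ℤ) ⧸ Γ)
    rw [QuotientGroup.eq, mul_one] at this
    exact inv_mem_iff.mp this
  have hfix : (γ : SL(2, ℤ)) • (QuotientGroup.mk 1 : SL(2, ℤ) ⧸ Γ) = QuotientGroup.mk 1 := by
    rw [MulAction.Quotient.smul_mk, smul_eq_mul, mul_one, QuotientGroup.eq, mul_one]
    exact inv_mem γ.2
  rw [shap_apply]
  have hk : s.kap (γ : SL(2, ℤ)) (QuotientGroup.mk 1) =
      (⟨_, hδ⟩ : Γ)⁻¹ * γ * ⟨_, hδ⟩ := by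
    apply Subtype.ext
    rw [Sec.kap_coe, hfix]
    simp only [Subgroup.coe_mul, Subgroup.coe_inv, mul_assoc]
  rw [hk, hφ, hφ, hinv]
  ring

/-- the twisted primitive for two cocycles killing `-1`, on an `SL(2,ℤ)`-set on which `-1` acts
trivially. -/
theorem exists_twisted_of_cocycles {X : Type*} [MulAction SL(2, ℤ) X] [Fintype X] [DecidableEq X]
    (h2 : ∀ a : A, 2 * a = 0 → a = 0) (h3 : ∀ a : A, 3 * a = 0 → a = 0)
    (hact : ∀ y : X, (-1 : SL(2, ℤ)) • y = y) {z z' : SL(2, ℤ) → X → A}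
    (hz : ∀ g h y, z (g * h) y = z g (h • y) + z h y)
    (hz' : ∀ g h y, z' (g * h) y = z' g (h • y) + z' h y)
    (hzneg : z (-1) = 0) (hz'neg : z' (-1) = 0) :
    ∃ C : SL(2, ℤ) → X → A,
      ∀ g h y, C (g * h) y = C g (h • y) + C h y + z g (h • y) * z' h y := by
  obtain ⟨U, hUdef⟩ : ∃ U : SL(2, ℤ), U = S * T := ⟨_, rfl⟩
  have hU3 : U * (U * U) = -1 := by
    rw [hUdef, ← mul_assoc]; exact U_cube_SL
  have hSS : ∀ y : X, (S : SL(2, ℤ)) • (S : SL(2, ℤ)) • y = y := by
    intro y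
    rw [← mul_smul, S_mul_S_SL, hact]
  have hUUU : ∀ y : X, U • U • U • y = y := by
    intro y
    rw [← mul_smul, ← mul_smul, mul_assoc, hU3, hact]
  have haS : ∀ y, z S y + z S (S • y) = 0 := by
    intro y
    have := hz S S y
    rw [S_mul_S_SL, hzneg] at this
    rw [add_comm]
    exact this.symm
  have hbU : ∀ y, z U y + z U (U • y) + z U (U • U • y) = 0 := by
    intro y
    have e1 := hz U (U * U) y
    have e2 := hz U U y
    rw [hU3, hzneg, e2, mul_smul, Pi.zero_apply] at e1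
    linear_combination (-1 : A) * e1
  have hpS : (MulAction.toPerm (S : SL(2, ℤ)) : Equiv.Perm X) * MulAction.toPerm S = 1 := by
    ext1 y
    exact hSS y
  have hpU : (MulAction.toPerm U : Equiv.Perm X) * MulAction.toPerm U * MulAction.toPerm U = 1 := by
    ext1 y
    exact hUUU y
  obtain ⟨m1, hm1⟩ := mem_range_of_invol (A := A) (MulAction.toPerm (S : SL(2, ℤ)) :
    Equiv.Perm X) hpS h2 (x := z S) (by
    funext y
    exact haS y)
  obtain ⟨m2, hm2⟩ := mem_range_of_order_three (A := A) (MulAction.toPerm U : Equiv.Perm X) hpU h3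
    (x := z U) (by
    funext y
    exact hbU y)
  have hm1' : ∀ y, m1 ((S : SL(2, ℤ)) • y) - m1 y = z S y := by
    intro y
    exact congrFun hm1 y
  have hm2' : ∀ y, m2 (U • y) - m2 y = z U y := by
    intro y
    exact congrFun hm2 y
  have r2 := Fmap_rel_two hz hz' (S : SL(2, ℤ)) m1 hSS (by rw [S_mul_S_SL, hzneg])
    (by rw [S_mul_S_SL, hz'neg]) hm1'
  have r3 := Fmap_rel_three hz hz' U m2 hUUU (by rw [hU3, hzneg]) (by rw [hU3, hz'neg]) hm2'
  subst hUdef
  exact exists_twisted hz hz' _ _ r2 r3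

/-- **Existence of the cup primitive.** -/
theorem exists_cupPrim (hneg : (-1 : SL(2, ℤ)) ∈ Γ)
    (h2 : ∀ a : A, 2 * a = 0 → a = 0) (h3 : ∀ a : A, 3 * a = 0 → a = 0)
    (φ ψ : Γ → A) (hφ : ∀ a b, φ (a * b) = φ a + φ b) (hψ : ∀ a b, ψ (a * b) = ψ a + ψ b)
    (hφ1 : φ ⟨-1, hneg⟩ = 0) (hψ1 : ψ ⟨-1, hneg⟩ = 0) :
    ∃ c : Γ → A, ∀ a b, c (a * b) = c a + c b + φ a * ψ b := by
  have hz : ∀ g h y, shap (outSec Γ) φ (g * h) y =
      shap (outSec Γ) φ g (h • y) + shap (outSec Γ) φ h y := by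
    intro g h y
    exact congrFun (shap_mul (outSec Γ) hφ g h) y
  have hz' : ∀ g h y, shap (outSec Γ) ψ (g * h) y =
      shap (outSec Γ) ψ g (h • y) + shap (outSec Γ) ψ h y := by
    intro g h y
    exact congrFun (shap_mul (outSec Γ) hψ g h) y
  obtain ⟨C, hC⟩ := exists_twisted_of_cocycles h2 h3
    (fun y => Sec.central_smul neg_one_central hneg y) hz hz'
    (shap_central (outSec Γ) φ neg_one_central hneg hφ1)
    (shap_central (outSec Γ) ψ neg_one_central hneg hψ1)
  refine ⟨fun γ => C (γ : SL(2, ℤ)) (QuotientGroup.mk 1), fun a b => ?_⟩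
  have hfix : ((b : Γ) : SL(2, ℤ)) • (QuotientGroup.mk 1 : SL(2, ℤ) ⧸ Γ) = QuotientGroup.mk 1 := by
    rw [MulAction.Quotient.smul_mk, smul_eq_mul, mul_one, QuotientGroup.eq, mul_one]
    exact inv_mem b.2
  show C ((a * b : Γ) : SL(2, ℤ)) _ = _
  rw [Subgroup.coe_mul, hC, hfix, shap_base (outSec Γ) hφ a, shap_base (outSec Γ) hψ b]

end Main

end Fermat.Agent.S41.PD.CupPrim
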