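import Fermat.Agent.S41.PD.ShapiroSec

/-!
# S41 / L5 (PD6, part 3): the Poincaré pairing as a cusp sum

`Γ ≤ G` of finite index, `P = G ⧸ Γ`, `gS`, `gU ∈ G` with `gS² = gU³ = ζ` central of order `≤ 2`
in `Γ`, inducing the datum `D` on `P`.  For additive `φ ψ : Γ → A` killing `ζ` and the
`G`-conjugates of powers of `gT = gU gS` lying in `Γ`, and a cup primitive `c` of `(φ, ψ)`:
`pair x_φ (j x_ψ) = - ∑_y c (κ(gT, y))`, `κ` the cocycle of a `gT`-adapted section, and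
`j x_ψ = [m₂ - m₁]` for the Shapiro cocycle of ANY section.
-/

set_option autoImplicit false
set_option linter.unusedSectionVars false

namespace Fermat.Agent.S41.PD.CuspFormula

open Fermat.Agent.S41.PD.Core Fermat.Agent.S41.PD.ShapiroSec Fermat.Agent.S41.PD.CupAlg

variable {G : Type*} [Group G] (Γ : Subgroup G) [Fintype (G ⧸ Γ)] [DecidableEq (G ⧸ Γ)]

/-- the group-theoretic setup. -/
structure Setup where
  /-- the datum on `G ⧸ Γ` -/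
  D : Datum (G ⧸ Γ)
  /-- the element of order two (mod `ζ`) -/
  gS : G
  /-- the element of order three (mod `ζ`) -/
  gU : G
  /-- the central element -/
  ζ : G
  hS : perm (Γ := Γ) gS = D.s
  hU : perm (Γ := Γ) gU = D.r
  hζc : ∀ g, g * ζ = ζ * g
  hζΓ : ζ ∈ Γ
  hζ2 : ζ * ζ = 1
  hS2 : gS * gS = ζ
  hU3 : gU * gU * gU = ζ

variable {Γ}

namespace Setup

variable (X : Setup Γ) {A : Type*} [CommRing A]

/-- the parabolic element. -/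
def gT : G := X.gU * X.gS

/-- admissible additive functions: kill `ζ` and the conjugates of powers of `gT` in `Γ`. -/
structure IsAdm (φ : Γ → A) : Prop where
  add : ∀ a b, φ (a * b) = φ a + φ b
  zeta : φ ⟨X.ζ, X.hζΓ⟩ = 0
  par : ∀ (h : G) (n : ℕ) (hm : h⁻¹ * X.gT ^ n * h ∈ Γ), φ ⟨_, hm⟩ = 0

theorem IsAdm.one {φ : Γ → A} (hφ : X.IsAdm φ) : φ 1 = 0 := by
  have := hφ.add 1 1
  rw [mul_one] at this
  exact (add_eq_left.mp this.symm)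

variable (s₀ : Sec Γ)

/-- the adapted Shapiro cocycle vanishes at `gT`. -/
theorem shap_gT {φ : Γ → A} (hφ : X.IsAdm φ) : shap (adSec s₀ X.gT) φ X.gT = 0 := by
  funext y
  rw [shap_apply, Pi.zero_apply]
  by_cases h : X.gT • y = cycRep (perm (Γ := Γ) X.gT) y
  · have hm : (s₀.σ (cycRep (perm X.gT) y))⁻¹ * X.gT ^ (kk X.gT y + 1) *
        s₀.σ (cycRep (perm X.gT) y) ∈ Γ := by
      rw [← adSec_kap_of_eq s₀ X.gT y h]
      exact ((adSec s₀ X.gT).kap X.gT y).2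
    have he : (adSec s₀ X.gT).kap X.gT y = ⟨_, hm⟩ := Subtype.ext (adSec_kap_of_eq s₀ X.gT y h)
    rw [he]
    exact hφ.par _ _ hm
  · rw [adSec_kap_of_ne s₀ X.gT y h, hφ.one]

/-- the common value `x_φ` of the adapted cocycle at `gS` and `gU`. -/
noncomputable def xOf (φ : Γ → A) : G ⧸ Γ → A := shap (adSec s₀ X.gT) φ X.gS

section

variable {φ : Γ → A} (hφ : X.IsAdm φ)

include hφ

theorem shap_gS_gS (s : Sec Γ) : shap s φ (X.gS * X.gS) = 0 := by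
  rw [X.hS2]
  exact shap_central s φ X.hζc X.hζΓ hφ.zeta

theorem shap_gU_cube (s : Sec Γ) : shap s φ (X.gU * X.gU * X.gU) = 0 := by
  rw [X.hU3]
  exact shap_central s φ X.hζc X.hζΓ hφ.zeta

theorem xOf_S : X.D.S A (X.xOf s₀ φ) = - X.xOf s₀ φ ∧
    shap (adSec s₀ X.gT) φ X.gU = X.xOf s₀ φ :=
  cocycle_values X.D A perm X.gS X.gU (shap (adSec s₀ X.gT) φ) X.hS
    (shap_mul _ hφ.add) (X.shap_gT s₀ hφ) (X.shap_gS_gS hφ _)

theorem xOf_NR : X.D.R A (X.D.R A (X.xOf s₀ φ)) + X.D.R A (X.xOf s₀ φ) + X.xOf s₀ φ = 0 := by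
  have h := (cocycle_norm_U X.D A perm X.gU (shap (adSec s₀ X.gT) φ) X.hU
    (shap_mul _ hφ.add) (X.shap_gU_cube hφ _)).2
  rw [(X.xOf_S s₀ hφ).2] at h
  exact h

theorem xOf_mem [IsDomain A] (h2 : (2 : A) ≠ 0) (h3 : (3 : A) ≠ 0) :
    X.xOf s₀ φ ∈ X.D.Zsub A := by
  rw [X.D.Zsub_eq A h2 h3]
  refine Submodule.mem_inf.mpr ⟨?_, ?_⟩
  · rw [LinearMap.mem_ker]
    simp only [Datum.NS, LinearMap.add_apply, LinearMap.id_apply, (X.xOf_S s₀ hφ).1]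
    abel
  · rw [LinearMap.mem_ker]
    have := X.xOf_NR s₀ hφ
    simp only [Datum.NR, LinearMap.add_apply, LinearMap.id_apply, LinearMap.comp_apply]
    rw [← this]; abel

end

/-- a cup primitive kills `ζ` (if `2` is regular). -/
theorem cup_zeta {φ ψ c : Γ → A} (hφ : X.IsAdm φ)
    (hc : ∀ a b, c (a * b) = c a + c b + φ a * ψ b) (h2 : ∀ a : A, 2 * a = 0 → a = 0) :
    c ⟨X.ζ, X.hζΓ⟩ = 0 := by
  have h1 : c 1 = 0 := by
    have := hc 1 1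
    rw [mul_one, hφ.one, zero_mul, add_zero] at this
    exact (add_eq_left.mp this.symm)
  have hz : (⟨X.ζ, X.hζΓ⟩ : Γ) * ⟨X.ζ, X.hζΓ⟩ = 1 := Subtype.ext X.hζ2
  have := hc ⟨X.ζ, X.hζΓ⟩ ⟨X.ζ, X.hζΓ⟩
  rw [hz, h1, hφ.zeta, zero_mul, add_zero] at this
  apply h2
  rw [two_mul]; exact this.symm

/-- **The Poincaré pairing is minus the cusp sum of a cup primitive.** -/
theorem pair_eq_neg_csum [IsDomain A] (h2 : (2 : A) ≠ 0) (h3 : (3 : A) ≠ 0)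
    {φ ψ c : Γ → A} (hφ : X.IsAdm φ) (hψ : X.IsAdm ψ)
    (hc : ∀ a b, c (a * b) = c a + c b + φ a * ψ b) :
    X.D.pair A ⟨X.xOf s₀ φ, X.xOf_mem s₀ hφ h2 h3⟩ (X.D.j A ⟨X.xOf s₀ ψ, X.xOf_mem s₀ hψ h2 h3⟩) =
      - csum (adSec s₀ X.gT) c X.gT := by
  have h2' : ∀ a : A, 2 * a = 0 → a = 0 := fun a ha =>
    (mul_eq_zero.mp ha).resolve_left h2
  have h6 : ∀ a : A, 6 * a = 0 → a = 0 := fun a ha => by
    have h6ne : (6 : A) ≠ 0 := by
      have : (6 : A) = 2 * 3 := by norm_num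
      rw [this]; exact mul_ne_zero h2 h3
    exact (mul_eq_zero.mp ha).resolve_left h6ne
  have hcζ := X.cup_zeta hφ hc h2'
  have key := cup_formula_pair X.D A perm X.gS X.gU (shap (adSec s₀ X.gT) φ)
    (shap (adSec s₀ X.gT) ψ) (csum (adSec s₀ X.gT) c) h6 X.hS X.hU
    (shap_mul _ hφ.add) (shap_mul _ hψ.add) (csum_mul _ hc)
    (X.shap_gT s₀ hφ) (X.shap_gT s₀ hψ) (X.shap_gS_gS hφ _) (X.shap_gS_gS hψ _)
    (X.shap_gU_cube hφ _) (X.shap_gU_cube hψ _)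
    (by rw [X.hS2]; exact csum_central _ c X.hζc X.hζΓ hcζ)
    (by rw [X.hU3]; exact csum_central _ c X.hζc X.hζΓ hcζ)
    (X.xOf_mem s₀ hφ h2 h3) (X.xOf_mem s₀ hψ h2 h3)
  rw [show X.gU * X.gS = X.gT from rfl] at key
  rw [key, neg_neg]
  rfl

/-- **Section independence**: `j x_ψ = [m₂ - m₁]` for the Shapiro cocycle of any section. -/
theorem j_xOf_eq [IsDomain A] (h2 : (2 : A) ≠ 0) (h3 : (3 : A) ≠ 0)
    {ψ : Γ → A} (hψ : X.IsAdm ψ) (s : Sec Γ) (m1 m2 : G ⧸ Γ → A)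
    (h1 : X.D.dS A m1 = shap s ψ X.gS) (h2' : X.D.dR A m2 = shap s ψ X.gU) :
    X.D.j A ⟨X.xOf s₀ ψ, X.xOf_mem s₀ hψ h2 h3⟩ = Submodule.Quotient.mk (m2 - m1) := by
  obtain ⟨β, hβ⟩ := shap_change s (adSec s₀ X.gT) hψ.add
  have e1 : X.D.dS A (m1 - β) = X.xOf s₀ ψ := by
    rw [map_sub, h1, xOf, hβ X.gS, X.hS]
    rfl
  have e2 : X.D.dR A (m2 - β) = X.xOf s₀ ψ := by
    rw [map_sub, h2', ← (X.xOf_S s₀ hψ).2, hβ X.gU, X.hU]
    rfl
  rw [X.D.j_eq A ⟨X.xOf s₀ ψ, _⟩ (m1 - β) (m2 - β) e1 e2]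
  congr 1
  abel

end Setup

end Fermat.Agent.S41.PD.CuspFormula
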