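import Fermat.Agent.S41.PD.Core

/-!
# S41 / L5 : the image of the boundary map `d : Q → M ⧸ (T - 1) M` is the kernel of the
coordinate sum

`(S - 1) M + (T - 1) M = ker (coordinate sum)` by transitivity, hence `range d = ker csumT` where
`csumT : M ⧸ (T - 1) M → A` is induced by the coordinate sum.  Valid for every commutative ring.
-/

set_option autoImplicit false
set_option linter.unusedSectionVars false
set_option linter.unusedVariables false

namespace Fermat.Agent.S41.PD.Core

universe u v

section Basic

variable {P : Type u} [Fintype P] [DecidableEq P]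
variable (A : Type v) [CommRing A]

/-- the coordinate sum `m ↦ ∑ p, m p`. -/
def csum : (P → A) →ₗ[A] A where
  toFun m := ∑ p, m p
  map_add' := by intro x y; simp [Finset.sum_add_distrib]
  map_smul' := by intro c x; simp [Finset.mul_sum]

lemma csum_apply (m : P → A) : csum A m = ∑ p, m p := rfl

lemma csum_op (σ : Equiv.Perm P) (m : P → A) : csum A (op A σ m) = csum A m := by
  simp only [csum_apply, op_apply]
  exact Equiv.sum_comp σ m

lemma csum_single (p : P) (c : A) : csum A (Pi.single p c) = c := by
  simp [csum_apply]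

lemma op_single_c (σ : Equiv.Perm P) (p : P) (c : A) :
    op A σ (Pi.single (σ p) c) = Pi.single p c := by
  ext b
  simp only [op_apply, Pi.single_apply]
  by_cases h : b = p
  · subst h; simp
  · rw [if_neg h, if_neg]
    intro h'
    exact h (σ.injective h')

end Basic

namespace Datum

variable {P : Type u} [Fintype P] [DecidableEq P] (D : Datum P)
variable (A : Type v) [CommRing A]

/-- `W = (S - 1) M + (T - 1) M`. -/
def Wsub : Submodule A (P → A) :=
  LinearMap.range (D.dS A) ⊔ LinearMap.range (D.T A - LinearMap.id)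

lemma T_eq_op' : D.T A = op A (D.r * D.s) := by
  rw [op_mul]

lemma single_sub_s_mem (p : P) :
    (Pi.single p 1 - Pi.single (D.s p) 1 : P → A) ∈ D.Wsub A := by
  apply Submodule.mem_sup_left
  refine ⟨Pi.single (D.s p) 1, ?_⟩
  show D.S A (Pi.single (D.s p) 1) - Pi.single (D.s p) 1 = _
  rw [S, op_single_c]

lemma single_sub_rs_mem (p : P) :
    (Pi.single p 1 - Pi.single (D.r (D.s p)) 1 : P → A) ∈ D.Wsub A := by
  apply Submodule.mem_sup_right
  refine ⟨Pi.single (D.r (D.s p)) 1, ?_⟩
  rw [LinearMap.sub_apply, LinearMap.id_apply, T_eq_op']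
  have : D.r (D.s p) = (D.r * D.s) p := rfl
  rw [this, op_single_c]

lemma single_sub_r_mem (p : P) :
    (Pi.single p 1 - Pi.single (D.r p) 1 : P → A) ∈ D.Wsub A := by
  have h1 := D.single_sub_s_mem A p
  have h2 := D.single_sub_rs_mem A (D.s p)
  rw [D.s_s] at h2
  have := Submodule.add_mem _ h1 h2
  convert this using 1
  abel

/-- all basis vectors are congruent modulo `W`. -/
lemma single_sub_single_mem (p p' : P) :
    (Pi.single p 1 - Pi.single p' 1 : P → A) ∈ D.Wsub A := by
  obtain ⟨g, hg, rfl⟩ := D.trans p p'
  have key : ∀ q : P, (Pi.single q 1 - Pi.single (g q) 1 : P → A) ∈ D.Wsub A := by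
    induction hg using Subgroup.closure_induction with
    | mem x hx =>
      rcases hx with rfl | rfl
      · exact D.single_sub_s_mem A
      · exact D.single_sub_r_mem A
    | one => intro q; simp
    | mul x y _ _ hx hy =>
      intro q
      rw [Equiv.Perm.mul_apply]
      have := Submodule.add_mem _ (hy q) (hx (y q))
      convert this using 1
      abel
    | inv x _ hx =>
      intro q
      have := Submodule.neg_mem _ (hx (x⁻¹ q))
      convert this using 1
      simp
  exact key p

/-- **`(S - 1) M + (T - 1) M = ker (coordinate sum)`**. -/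
theorem Wsub_eq_ker_csum : D.Wsub A = LinearMap.ker (csum A) := by
  apply le_antisymm
  · rw [Wsub, sup_le_iff]
    constructor
    · rintro _ ⟨m, rfl⟩
      rw [LinearMap.mem_ker, dS, LinearMap.sub_apply, LinearMap.id_apply, map_sub, S, csum_op,
        sub_self]
    · rintro _ ⟨m, rfl⟩
      rw [LinearMap.mem_ker, LinearMap.sub_apply, LinearMap.id_apply, map_sub, T_eq_op', csum_op,
        sub_self]
  · intro m hm
    rw [LinearMap.mem_ker, csum_apply] at hm
    rcases isEmpty_or_nonempty P with hP | ⟨⟨p0⟩⟩
    · have : m = 0 := by ext p; exact (hP.false p).elim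
      rw [this]; exact Submodule.zero_mem _
    have hy : m = ∑ p, m p • (Pi.single p 1 : P → A) := by
      ext b
      simp [Finset.sum_apply, Pi.single_apply]
    have h0 : ∑ p, m p • (Pi.single p0 1 : P → A) = 0 := by
      rw [← Finset.sum_smul, hm, zero_smul]
    have hdiff : m = ∑ p, m p • ((Pi.single p 1 : P → A) - Pi.single p0 1) := by
      simp only [smul_sub, Finset.sum_sub_distrib]
      rw [h0, sub_zero]
      exact hy
    rw [hdiff]
    apply Submodule.sum_mem
    intro p _
    apply Submodule.smul_mem
    exact D.single_sub_single_mem A p p0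

/-- the coordinate sum on the cusp module `M ⧸ (T - 1) M`. -/
noncomputable def csumT : (P → A) ⧸ LinearMap.range (D.T A - LinearMap.id) →ₗ[A] A :=
  (LinearMap.range (D.T A - LinearMap.id)).liftQ (csum A) (by
    rintro _ ⟨m, rfl⟩
    rw [LinearMap.mem_ker, LinearMap.sub_apply, LinearMap.id_apply, map_sub, T_eq_op', csum_op,
      sub_self])

@[simp] lemma csumT_mk (m : P → A) : D.csumT A (Submodule.Quotient.mk m) = csum A m := rfl

theorem csumT_surjective [Nonempty P] : Function.Surjective (D.csumT A) := by
  intro c
  obtain ⟨p0⟩ := ‹Nonempty P›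
  exact ⟨Submodule.Quotient.mk (Pi.single p0 c), by rw [csumT_mk, csum_single]⟩

/-- **`range d = ker csumT`**: the image of the boundary map is the kernel of the coordinate sum. -/
theorem range_d_eq_ker_csumT : LinearMap.range (D.d A) = LinearMap.ker (D.csumT A) := by
  apply le_antisymm
  · rintro _ ⟨q, rfl⟩
    obtain ⟨m, rfl⟩ := Submodule.Quotient.mk_surjective _ q
    rw [LinearMap.mem_ker, d_mk, csumT_mk, map_sub, S, csum_op, sub_self]
  · intro u hu
    obtain ⟨m, rfl⟩ := Submodule.Quotient.mk_surjective _ u
    rw [LinearMap.mem_ker, csumT_mk] at hu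
    have hm : m ∈ D.Wsub A := by rw [Wsub_eq_ker_csum]; exact LinearMap.mem_ker.mpr hu
    obtain ⟨y, ⟨a, rfl⟩, z, hz, rfl⟩ := Submodule.mem_sup.mp hm
    refine ⟨Submodule.Quotient.mk (-a), ?_⟩
    rw [d_mk, Submodule.Quotient.eq]
    have : -a - D.S A (-a) - (D.dS A a + z) = -z := by
      simp only [dS, LinearMap.sub_apply, LinearMap.id_apply, map_neg]
      abel
    rw [this]
    exact Submodule.neg_mem _ hz

end Datum

end Fermat.Agent.S41.PD.Core
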