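import Fermat.Agent.S41.PD.Core

/-!
# S41 / L5 : duality `Z ≃ Hom(Q, A)`, torsion-freeness of `Q`, skew-adjointness of `j` (PD0, PD4)
-/

set_option autoImplicit false
set_option linter.unusedSectionVars false

namespace Fermat.Agent.S41.PD.Core

open Module

universe u v

namespace Datum

variable {P : Type u} [Fintype P] [DecidableEq P] (D : Datum P)
variable (A : Type v) [CommRing A]

/-! ### Orthogonality -/

lemma single_add_S_mem (p : P) :
    (Pi.single p 1 + D.S A (Pi.single p 1) : P → A) ∈ LinearMap.ker (D.dS A) := by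
  rw [D.mem_ker_dS_iff, map_add, D.S_S, add_comm]

lemma single_add_R_mem (p : P) :
    (Pi.single p 1 + D.R A (Pi.single p 1) + D.R A (D.R A (Pi.single p 1)) : P → A) ∈
      LinearMap.ker (D.dR A) := by
  rw [D.mem_ker_dR_iff, map_add, map_add, D.R_R_R]
  abel

lemma form_S_single (x : P → A) (p : P) : form A x (D.S A (Pi.single p 1)) = x (D.s p) := by
  rw [← D.form_S_left, form_single_right]; rfl

lemma form_RR_single (x : P → A) (p : P) :
    form A x (D.R A (D.R A (Pi.single p 1))) = x (D.r p) := by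
  rw [← D.form_R_left, form_single_right]; rfl

lemma form_R_single (x : P → A) (p : P) :
    form A x (D.R A (Pi.single p 1)) = x (D.r (D.r p)) := by
  have h : D.R A (Pi.single p 1) = D.R A (D.R A (D.R A (D.R A (Pi.single p (1 : A))))) := by
    rw [D.R_R_R]
  rw [h, ← D.form_R_left, D.form_RR_single]; rfl

variable [IsDomain A]

/-- `Z` is the orthogonal complement of `M^S + M^R`. -/
theorem mem_Zsub_iff_orthogonal (h2 : (2 : A) ≠ 0) (h3 : (3 : A) ≠ 0) (x : P → A) :
    x ∈ D.Zsub A ↔ ∀ m ∈ D.Qsub A, form A x m = 0 := by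
  constructor
  · intro hx m hm
    exact D.form_eq_zero_of_mem_Zsub_of_mem_Qsub A hx hm
  · intro h
    rw [D.Zsub_eq A h2 h3]
    refine ⟨(D.mem_ker_NS_iff A x).2 fun p => ?_, (D.mem_ker_NR_iff A x).2 fun p => ?_⟩
    · have := h _ (Submodule.mem_sup_left (D.single_add_S_mem A p))
      rwa [map_add, form_single_right, D.form_S_single] at this
    · have := h _ (Submodule.mem_sup_right (D.single_add_R_mem A p))
      rw [map_add, map_add, form_single_right, D.form_R_single, D.form_RR_single] at this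
      linear_combination this

/-! ### `Z ≃ Hom(Q, A)` -/

theorem pair_injective : Function.Injective (D.pair A) := by
  rw [← LinearMap.ker_eq_bot, LinearMap.ker_eq_bot']
  intro x hx
  apply Subtype.ext
  apply eq_zero_of_form_eq_zero A
  intro y
  have := LinearMap.congr_fun hx (Submodule.Quotient.mk y)
  simpa using this

theorem pair_surjective (h2 : (2 : A) ≠ 0) (h3 : (3 : A) ≠ 0) :
    Function.Surjective (D.pair A) := by
  intro l
  have key : ∀ m : P → A,
      form A (fun p => l (Submodule.Quotient.mk (Pi.single p 1))) m =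
        l (Submodule.Quotient.mk m) := by
    intro m
    have hm : m = ∑ p, m p • (Pi.single p (1 : A) : P → A) := by
      ext q
      simp [Finset.sum_apply, Pi.single_apply]
    conv_rhs => rw [hm]
    rw [form_apply]
    have : (Submodule.Quotient.mk (∑ p, m p • (Pi.single p (1 : A) : P → A)) : D.Q A) =
        ∑ p, m p • (Submodule.Quotient.mk (Pi.single p (1 : A)) : D.Q A) := by
      rw [← Submodule.mkQ_apply, map_sum]
      simp
    rw [this, map_sum]
    refine Finset.sum_congr rfl fun p _ => ?_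
    rw [map_smul, smul_eq_mul, mul_comm]
  have hx : (fun p => l (Submodule.Quotient.mk (Pi.single p 1)) : P → A) ∈ D.Zsub A := by
    rw [D.mem_Zsub_iff_orthogonal A h2 h3]
    intro m hm
    rw [key, (Submodule.Quotient.mk_eq_zero _).2 hm, map_zero]
  refine ⟨⟨_, hx⟩, ?_⟩
  apply LinearMap.ext
  intro q
  obtain ⟨m, rfl⟩ := Submodule.Quotient.mk_surjective _ q
  rw [pair_mk]
  exact key m

/-- **PD0**: `Z ≃ Hom_A(Q, A)`. -/
noncomputable def dualEquiv (h2 : (2 : A) ≠ 0) (h3 : (3 : A) ≠ 0) :
    D.Zsub A ≃ₗ[A] Module.Dual A (D.Q A) :=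
  LinearEquiv.ofBijective (D.pair A) ⟨D.pair_injective A, D.pair_surjective A h2 h3⟩

@[simp] lemma dualEquiv_apply (h2 : (2 : A) ≠ 0) (h3 : (3 : A) ≠ 0) (x : D.Zsub A) :
    D.dualEquiv A h2 h3 x = D.pair A x := rfl


/-! ### Transitivity and torsion-freeness of `Q` -/

omit [IsDomain A] in
/-- a function on `P` invariant under `s` and `r` is constant. -/
lemma const_of_invariant {X : Type*} (f : P → X) (hs : ∀ p, f (D.s p) = f p)
    (hr : ∀ p, f (D.r p) = f p) (p p' : P) : f p = f p' := by
  obtain ⟨g, hg, rfl⟩ := D.trans p p'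
  have : ∀ q, f (g q) = f q := by
    induction hg using Subgroup.closure_induction with
    | mem x hx =>
      rcases hx with rfl | rfl
      · exact hs
      · exact hr
    | one => intro q; rfl
    | mul x y _ _ hx hy => intro q; rw [Equiv.Perm.mul_apply, hx, hy]
    | inv x _ hx => intro q; rw [← hx (x⁻¹ q)]; simp
  exact (this p).symm

/-- **PD0**: `Q` is torsion-free: `a • q = 0 → a = 0 ∨ q = 0`. -/
theorem Q_smul_eq_zero (a : A) (q : D.Q A) (h : a • q = 0) : a = 0 ∨ q = 0 := by
  by_cases ha : a = 0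
  · exact Or.inl ha
  right
  obtain ⟨m, rfl⟩ := Submodule.Quotient.mk_surjective _ q
  rw [← Submodule.Quotient.mk_smul, Submodule.Quotient.mk_eq_zero] at h
  rw [Submodule.Quotient.mk_eq_zero]
  obtain ⟨σ, hσ, ρ, hρ, hsum⟩ := Submodule.mem_sup.1 h
  have hσ' : ∀ p, σ (D.s p) = σ p := fun p => congrFun ((D.mem_ker_dS_iff A σ).1 hσ) p
  have hρ' : ∀ p, ρ (D.r p) = ρ p := fun p => congrFun ((D.mem_ker_dR_iff A ρ).1 hρ) p
  have hsum' : ∀ p, σ p + ρ p = a * m p := fun p => by
    have := congrFun hsum p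
    simpa using this
  rcases isEmpty_or_nonempty P with hP | ⟨⟨p0⟩⟩
  · have : m = 0 := by ext p; exact (hP.false p).elim
    rw [this]; exact Submodule.zero_mem _
  -- `σ` is constant modulo `a`
  have hconst : ∀ p, (Ideal.Quotient.mk (Ideal.span {a}) (σ p)) =
      Ideal.Quotient.mk (Ideal.span {a}) (σ p0) := by
    intro p
    refine D.const_of_invariant (fun p => Ideal.Quotient.mk (Ideal.span {a}) (σ p))
      (fun p => by simp only [hσ']) (fun p => ?_) p p0
    have h1 : σ (D.r p) = a * m (D.r p) - ρ (D.r p) := by rw [← hsum']; ring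
    have h2 : σ p = a * m p - ρ p := by rw [← hsum']; ring
    rw [h1, h2, hρ', map_sub, map_sub, map_mul, map_mul]
    have : Ideal.Quotient.mk (Ideal.span {a}) a = 0 :=
      Ideal.Quotient.eq_zero_iff_mem.2 (Ideal.mem_span_singleton_self a)
    rw [this, zero_mul, zero_mul]
  have hdiv : ∀ p, ∃ t, σ p - σ p0 = a * t := fun p => by
    have := hconst p
    rw [← sub_eq_zero, ← map_sub, Ideal.Quotient.eq_zero_iff_mem, Ideal.mem_span_singleton'] at this
    obtain ⟨t, ht⟩ := this
    exact ⟨t, by rw [← ht, mul_comm]⟩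
  choose σ' hσ'' using hdiv
  have hσS : σ' ∈ LinearMap.ker (D.dS A) := by
    rw [D.mem_ker_dS_iff]
    ext p
    apply mul_left_cancel₀ ha
    show a * σ' (D.s p) = a * σ' p
    rw [← hσ'', ← hσ'', hσ']
  have hρR : (m - σ') ∈ LinearMap.ker (D.dR A) := by
    rw [D.mem_ker_dR_iff]
    ext p
    apply mul_left_cancel₀ ha
    show a * (m (D.r p) - σ' (D.r p)) = a * (m p - σ' p)
    rw [mul_sub, mul_sub, ← hσ'', ← hσ'', ← hsum', ← hsum', hρ']
    ring
  have : m = σ' + (m - σ') := by abel
  rw [this]
  exact Submodule.add_mem_sup hσS hρR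

instance instIsTorsionFreeQ : Module.IsTorsionFree A (D.Q A) :=
  Module.IsTorsionFree.of_smul_eq_zero (D.Q_smul_eq_zero A)

/-- `Q` is a free module when `A` is a principal ideal domain. -/
theorem Q_free [IsPrincipalIdealRing A] : Module.Free A (D.Q A) :=
  Module.free_of_finite_type_torsion_free'

/-! ### PD4 : `j` is skew-adjoint -/

omit [IsDomain A] in
/-- **PD4**: `⟨x, j x'⟩ + ⟨x', j x⟩ = 0`. -/
theorem pair_j_skew (x x' : D.Zsub A) :
    D.pair A x (D.j A x') + D.pair A x' (D.j A x) = 0 := by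
  obtain ⟨⟨m1, h1⟩, ⟨m2, h2⟩⟩ := x.2
  obtain ⟨⟨m1', h1'⟩, ⟨m2', h2'⟩⟩ := x'.2
  rw [D.j_eq A x m1 m2 h1 h2, D.j_eq A x' m1' m2' h1' h2', pair_mk, pair_mk, map_sub, map_sub]
  -- notation
  set X : P → A := (x : P → A) with hX
  set X' : P → A := (x' : P → A) with hX'
  -- `X + S X = 0`, `X + R X + R R X = 0`
  have hSX : D.S A X = - X := by
    have := D.NS_dS A m1
    rw [h1] at this
    simp only [NS, LinearMap.add_apply, LinearMap.id_apply] at this
    exact eq_neg_of_add_eq_zero_right this
  have hRX : X + D.R A X + D.R A (D.R A X) = 0 := by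
    have := D.NR_dR A m2
    rw [h2] at this
    simpa [NR] using this
  -- the four pieces
  have e1 : form A X' m1 = form A X m1' := by
    rw [← h1', D.form_dS_left, h1, form_comm]
  have e2 : form A X X' = form A (D.R A m2') X - form A X m2' := by
    rw [← h2']
    simp only [dR, LinearMap.sub_apply, LinearMap.id_apply, map_sub]
    rw [form_comm A X (D.R A m2')]
  have e3 : form A X X' = - 2 * form A X m1' := by
    rw [← h1']
    simp only [dS, LinearMap.sub_apply, LinearMap.id_apply, map_sub]
    rw [← D.form_S_left, hSX, map_neg, LinearMap.neg_apply]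
    ring
  have e4 : form A X' m2 = - form A (D.R A m2') X := by
    rw [← h2', D.form_dR_left]
    have hm2 : D.R A (D.R A m2) - m2 = D.R A X + X := by
      rw [← h2]
      simp only [dR, LinearMap.sub_apply, LinearMap.id_apply, map_sub]
      abel
    rw [hm2, map_add]
    have h5 : form A (D.R A m2') X = form A m2' (D.R A (D.R A X)) := D.form_R_left A m2' X
    have h6 : D.R A (D.R A X) = - X - D.R A X := by
      rw [eq_sub_iff_add_eq, eq_neg_iff_add_eq_zero]
      rw [← hRX]; abel
    rw [h5, h6, map_sub, map_neg]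
    ring
  rw [e4, e1]
  linear_combination e2 - e3

end Datum

end Fermat.Agent.S41.PD.Core
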