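import Fermat.Agent.S41.PD.Unimod

/-!
# S41 / L5 : naturality of `Z`, `Q`, `j`, `pair`, `B_H` for equivariant maps `f : P' → P`

`f^*` (pull-back of functions, "restriction") and `f_*` (fibre sums, "corestriction") are adjoint
for the standard forms, commute with `S`, `R`, hence act on `Z`, `Q`, `range j`, commute with `j`,
and are adjoint for the pairings and for `B_H`:  `B_H' (f^* h) h' = B_H h (f_* h')`.
-/

set_option autoImplicit false
set_option linter.unusedSectionVars false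

namespace Fermat.Agent.S41.PD.Core

universe u u' v

section Basic

variable {P : Type u} [Fintype P] [DecidableEq P] {P' : Type u'} [Fintype P'] [DecidableEq P']
variable (A : Type v) [CommRing A]

/-- pull-back of functions along `f : P' → P`. -/
def pull (f : P' → P) : (P → A) →ₗ[A] (P' → A) := LinearMap.funLeft A A f

@[simp] lemma pull_apply (f : P' → P) (x : P → A) (p' : P') : pull A f x p' = x (f p') := rfl

/-- push-forward (sum over the fibres) along `f : P' → P`. -/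
def push (f : P' → P) : (P' → A) →ₗ[A] (P → A) where
  toFun y p := ∑ p', if f p' = p then y p' else 0
  map_add' y y' := by
    ext p
    simp only [Pi.add_apply, ← Finset.sum_add_distrib]
    refine Finset.sum_congr rfl fun p' _ => ?_
    split_ifs <;> simp
  map_smul' c y := by
    ext p
    simp only [Pi.smul_apply, smul_eq_mul, RingHom.id_apply, Finset.mul_sum]
    refine Finset.sum_congr rfl fun p' _ => ?_
    split_ifs <;> simp

lemma push_apply (f : P' → P) (y : P' → A) (p : P) :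
    push A f y p = ∑ p', if f p' = p then y p' else 0 := rfl

/-- `f_*` is adjoint to `f^*`. -/
theorem form_push (f : P' → P) (y : P' → A) (x : P → A) :
    form A (push A f y) x = form A y (pull A f x) := by
  simp only [form_apply, push_apply, pull_apply, Finset.sum_mul]
  rw [Finset.sum_comm]
  refine Finset.sum_congr rfl fun p' _ => ?_
  simp only [ite_mul, zero_mul]
  rw [Finset.sum_ite_eq]
  simp

theorem form_pull (f : P' → P) (x : P → A) (y : P' → A) :
    form A (pull A f x) y = form A x (push A f y) := by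
  rw [form_comm, ← form_push, form_comm]

lemma pull_op (f : P' → P) (σ' : Equiv.Perm P') (σ : Equiv.Perm P)
    (h : ∀ p', f (σ' p') = σ (f p')) (x : P → A) :
    op A σ' (pull A f x) = pull A f (op A σ x) := by
  ext p'; simp [h]

lemma push_op (f : P' → P) (σ' : Equiv.Perm P') (σ : Equiv.Perm P)
    (h : ∀ p', f (σ' p') = σ (f p')) (y : P' → A) :
    op A σ (push A f y) = push A f (op A σ' y) := by
  have hinv : ∀ p', f (σ'⁻¹ p') = σ⁻¹ (f p') := fun p' => by
    rw [Equiv.Perm.eq_inv_iff_eq, ← h]; simp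
  apply eq_of_sub_eq_zero
  apply eq_zero_of_form_eq_zero A
  intro x
  rw [LinearMap.map_sub₂, sub_eq_zero, form_op_left, form_push, form_push, form_op_left,
    pull_op A f σ'⁻¹ σ⁻¹ hinv]

end Basic

/-- an equivariant map of data. -/
structure Datum.Hom {P : Type u} [Fintype P] [DecidableEq P] {P' : Type u'} [Fintype P']
    [DecidableEq P'] (D' : Datum P') (D : Datum P) where
  /-- the underlying map -/
  f : P' → P
  map_s : ∀ p', f (D'.s p') = D.s (f p')
  map_r : ∀ p', f (D'.r p') = D.r (f p')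

namespace Datum.Hom

variable {P : Type u} [Fintype P] [DecidableEq P] {P' : Type u'} [Fintype P'] [DecidableEq P']
variable {D' : Datum P'} {D : Datum P} (F : Datum.Hom D' D)
variable (A : Type v) [CommRing A]

lemma pull_S (x : P → A) : D'.S A (pull A F.f x) = pull A F.f (D.S A x) :=
  pull_op A F.f _ _ F.map_s x
lemma pull_R (x : P → A) : D'.R A (pull A F.f x) = pull A F.f (D.R A x) :=
  pull_op A F.f _ _ F.map_r x
lemma push_S (y : P' → A) : D.S A (push A F.f y) = push A F.f (D'.S A y) :=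
  push_op A F.f _ _ F.map_s y
lemma push_R (y : P' → A) : D.R A (push A F.f y) = push A F.f (D'.R A y) :=
  push_op A F.f _ _ F.map_r y

lemma pull_dS (m : P → A) : pull A F.f (D.dS A m) = D'.dS A (pull A F.f m) := by
  simp only [Datum.dS, LinearMap.sub_apply, LinearMap.id_apply, map_sub, F.pull_S]
lemma pull_dR (m : P → A) : pull A F.f (D.dR A m) = D'.dR A (pull A F.f m) := by
  simp only [Datum.dR, LinearMap.sub_apply, LinearMap.id_apply, map_sub, F.pull_R]
lemma push_dS (m : P' → A) : push A F.f (D'.dS A m) = D.dS A (push A F.f m) := by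
  simp only [Datum.dS, LinearMap.sub_apply, LinearMap.id_apply, map_sub, F.push_S]
lemma push_dR (m : P' → A) : push A F.f (D'.dR A m) = D.dR A (push A F.f m) := by
  simp only [Datum.dR, LinearMap.sub_apply, LinearMap.id_apply, map_sub, F.push_R]

lemma pull_mem_Zsub {x : P → A} (hx : x ∈ D.Zsub A) : pull A F.f x ∈ D'.Zsub A := by
  obtain ⟨⟨m1, rfl⟩, ⟨m2, h2⟩⟩ := hx
  exact ⟨⟨_, (F.pull_dS A m1).symm⟩, ⟨pull A F.f m2, by rw [← F.pull_dR, h2]⟩⟩

lemma push_mem_Zsub {y : P' → A} (hy : y ∈ D'.Zsub A) : push A F.f y ∈ D.Zsub A := by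
  obtain ⟨⟨m1, rfl⟩, ⟨m2, h2⟩⟩ := hy
  exact ⟨⟨_, (F.push_dS A m1).symm⟩, ⟨push A F.f m2, by rw [← F.push_dR, h2]⟩⟩

lemma pull_mem_Qsub {m : P → A} (hm : m ∈ D.Qsub A) : pull A F.f m ∈ D'.Qsub A := by
  obtain ⟨a, ha, b, hb, rfl⟩ := Submodule.mem_sup.1 hm
  rw [map_add]
  refine Submodule.add_mem_sup ?_ ?_
  · rw [LinearMap.mem_ker, ← F.pull_dS, LinearMap.mem_ker.1 ha, map_zero]
  · rw [LinearMap.mem_ker, ← F.pull_dR, LinearMap.mem_ker.1 hb, map_zero]

lemma push_mem_Qsub {m : P' → A} (hm : m ∈ D'.Qsub A) : push A F.f m ∈ D.Qsub A := by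
  obtain ⟨a, ha, b, hb, rfl⟩ := Submodule.mem_sup.1 hm
  rw [map_add]
  refine Submodule.add_mem_sup ?_ ?_
  · rw [LinearMap.mem_ker, ← F.push_dS, LinearMap.mem_ker.1 ha, map_zero]
  · rw [LinearMap.mem_ker, ← F.push_dR, LinearMap.mem_ker.1 hb, map_zero]

/-- `f^* : Z → Z'`. -/
def pullZ : D.Zsub A →ₗ[A] D'.Zsub A :=
  (pull A F.f).restrict fun _ hx => F.pull_mem_Zsub A hx
/-- `f_* : Z' → Z`. -/
def pushZ : D'.Zsub A →ₗ[A] D.Zsub A :=
  (push A F.f).restrict fun _ hy => F.push_mem_Zsub A hy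
/-- `f^* : Q → Q'`. -/
def pullQ : D.Q A →ₗ[A] D'.Q A :=
  Submodule.mapQ _ _ (pull A F.f) fun _ hm => F.pull_mem_Qsub A hm
/-- `f_* : Q' → Q`. -/
def pushQ : D'.Q A →ₗ[A] D.Q A :=
  Submodule.mapQ _ _ (push A F.f) fun _ hm => F.push_mem_Qsub A hm

@[simp] lemma coe_pullZ (x : D.Zsub A) : (F.pullZ A x : P' → A) = pull A F.f x := rfl
@[simp] lemma coe_pushZ (y : D'.Zsub A) : (F.pushZ A y : P → A) = push A F.f y := rfl
@[simp] lemma pullQ_mk (m : P → A) :
    F.pullQ A (Submodule.Quotient.mk m) = Submodule.Quotient.mk (pull A F.f m) := rfl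
@[simp] lemma pushQ_mk (m : P' → A) :
    F.pushQ A (Submodule.Quotient.mk m) = Submodule.Quotient.mk (push A F.f m) := rfl

/-- `j` commutes with `f^*`. -/
theorem j_pullZ (x : D.Zsub A) : D'.j A (F.pullZ A x) = F.pullQ A (D.j A x) := by
  obtain ⟨⟨m1, h1⟩, ⟨m2, h2⟩⟩ := x.2
  rw [D.j_eq A x m1 m2 h1 h2, pullQ_mk, map_sub]
  exact D'.j_eq A _ _ _ (by rw [← F.pull_dS, h1]; rfl) (by rw [← F.pull_dR, h2]; rfl)

/-- `j` commutes with `f_*`. -/
theorem j_pushZ (y : D'.Zsub A) : D.j A (F.pushZ A y) = F.pushQ A (D'.j A y) := by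
  obtain ⟨⟨m1, h1⟩, ⟨m2, h2⟩⟩ := y.2
  rw [D'.j_eq A y m1 m2 h1 h2, pushQ_mk, map_sub]
  exact D.j_eq A _ _ _ (by rw [← F.push_dS, h1]; rfl) (by rw [← F.push_dR, h2]; rfl)

/-- adjointness for the pairing `Z × Q → A` (I). -/
theorem pair_pullZ (x : D.Zsub A) (q' : D'.Q A) :
    D'.pair A (F.pullZ A x) q' = D.pair A x (F.pushQ A q') := by
  obtain ⟨m', rfl⟩ := Submodule.Quotient.mk_surjective _ q'
  rw [pushQ_mk, Datum.pair_mk, Datum.pair_mk, coe_pullZ, form_pull]

/-- adjointness for the pairing `Z × Q → A` (II). -/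
theorem pair_pushZ (y : D'.Zsub A) (q : D.Q A) :
    D.pair A (F.pushZ A y) q = D'.pair A y (F.pullQ A q) := by
  obtain ⟨m, rfl⟩ := Submodule.Quotient.mk_surjective _ q
  rw [pullQ_mk, Datum.pair_mk, Datum.pair_mk, coe_pushZ, form_push]

/-- `f^* : H → H'` on `H = range j`. -/
noncomputable def pullH : LinearMap.range (D.j A) →ₗ[A] LinearMap.range (D'.j A) :=
  (F.pullQ A).restrict <| by
    rintro _ ⟨x, rfl⟩
    exact ⟨F.pullZ A x, F.j_pullZ A x⟩

/-- `f_* : H' → H` on `H = range j`. -/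
noncomputable def pushH : LinearMap.range (D'.j A) →ₗ[A] LinearMap.range (D.j A) :=
  (F.pushQ A).restrict <| by
    rintro _ ⟨y, rfl⟩
    exact ⟨F.pushZ A y, F.j_pushZ A y⟩

@[simp] lemma coe_pullH (h : LinearMap.range (D.j A)) :
    (F.pullH A h : D'.Q A) = F.pullQ A (h : D.Q A) := rfl
@[simp] lemma coe_pushH (h' : LinearMap.range (D'.j A)) :
    (F.pushH A h' : D.Q A) = F.pushQ A (h' : D'.Q A) := rfl

/-- **adjointness for `B_H`**: `B_H' (f^* h) h' = B_H h (f_* h')`. -/
theorem BH_pullH (h : LinearMap.range (D.j A)) (h' : LinearMap.range (D'.j A)) :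
    D'.BH A (F.pullH A h) h' = D.BH A h (F.pushH A h') := by
  obtain ⟨_, x, rfl⟩ := h
  obtain ⟨_, x', rfl⟩ := h'
  have e1 : F.pullH A ⟨D.j A x, x, rfl⟩ = (D'.j A).rangeRestrict (F.pullZ A x) := by
    apply Subtype.ext
    simp [F.j_pullZ A x]
  have e2 : F.pushH A ⟨D'.j A x', x', rfl⟩ = (D.j A).rangeRestrict (F.pushZ A x') := by
    apply Subtype.ext
    simp [F.j_pushZ A x']
  rw [e1, e2, show (⟨D'.j A x', x', rfl⟩ : LinearMap.range (D'.j A)) =
      (D'.j A).rangeRestrict x' from rfl,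
    show (⟨D.j A x, x, rfl⟩ : LinearMap.range (D.j A)) = (D.j A).rangeRestrict x from rfl,
    D'.BH_j, D.BH_j, F.pair_pullZ, F.j_pushZ]

/-- the other adjointness: `B_H (f_* h') h = B_H' h' (f^* h)`. -/
theorem BH_pushH (h' : LinearMap.range (D'.j A)) (h : LinearMap.range (D.j A)) :
    D.BH A (F.pushH A h') h = D'.BH A h' (F.pullH A h) := by
  have e1 := D.BH_skew A (F.pushH A h') h
  have e2 := D'.BH_skew A h' (F.pullH A h)
  have e3 := F.BH_pullH A h h'
  rw [e3] at e2
  have : D.BH A (F.pushH A h') h = - D.BH A h (F.pushH A h') := eq_neg_of_add_eq_zero_left e1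
  rw [this, ← e3]
  have : D'.BH A h' (F.pullH A h) = - D'.BH A (F.pullH A h) h' := by
    rw [e3]; exact eq_neg_of_add_eq_zero_left e2
  rw [this]


/-! ### naturality of the boundary map `d` -/

lemma pull_T (x : P → A) : D'.T A (pull A F.f x) = pull A F.f (D.T A x) := by
  simp only [Datum.T, LinearMap.comp_apply, F.pull_R, F.pull_S]

lemma push_T (y : P' → A) : D.T A (push A F.f y) = push A F.f (D'.T A y) := by
  simp only [Datum.T, LinearMap.comp_apply, F.push_R, F.push_S]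

/-- `f^*` on the coinvariants `M ⧸ (T-1)M`. -/
def pullT : (P → A) ⧸ LinearMap.range (D.T A - LinearMap.id) →ₗ[A]
    (P' → A) ⧸ LinearMap.range (D'.T A - LinearMap.id) :=
  Submodule.mapQ _ _ (pull A F.f) <| by
    rintro _ ⟨y, rfl⟩
    refine ⟨pull A F.f y, ?_⟩
    simp only [LinearMap.sub_apply, LinearMap.id_apply, map_sub, F.pull_T]

/-- `f_*` on the coinvariants `M ⧸ (T-1)M`. -/
def pushT : (P' → A) ⧸ LinearMap.range (D'.T A - LinearMap.id) →ₗ[A]
    (P → A) ⧸ LinearMap.range (D.T A - LinearMap.id) :=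
  Submodule.mapQ _ _ (push A F.f) <| by
    rintro _ ⟨y, rfl⟩
    refine ⟨push A F.f y, ?_⟩
    simp only [LinearMap.sub_apply, LinearMap.id_apply, map_sub, F.push_T]

@[simp] lemma pullT_mk (m : P → A) :
    F.pullT A (Submodule.Quotient.mk m) = Submodule.Quotient.mk (pull A F.f m) := rfl
@[simp] lemma pushT_mk (m : P' → A) :
    F.pushT A (Submodule.Quotient.mk m) = Submodule.Quotient.mk (push A F.f m) := rfl

/-- `d` commutes with `f^*`. -/
theorem d_pullQ (q : D.Q A) : D'.d A (F.pullQ A q) = F.pullT A (D.d A q) := by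
  obtain ⟨m, rfl⟩ := Submodule.Quotient.mk_surjective _ q
  rw [pullQ_mk, Datum.d_mk, Datum.d_mk, pullT_mk, map_sub, F.pull_S]

/-- `d` commutes with `f_*`. -/
theorem d_pushQ (q' : D'.Q A) : D.d A (F.pushQ A q') = F.pushT A (D'.d A q') := by
  obtain ⟨m, rfl⟩ := Submodule.Quotient.mk_surjective _ q'
  rw [pushQ_mk, Datum.d_mk, Datum.d_mk, pushT_mk, map_sub, F.push_S]

end Datum.Hom

end Fermat.Agent.S41.PD.Core
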