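import Fermat.Agent.S41.PD.Core

/-!
# S41 / L5 : "Hilbert 90" for the permutation operators `S`, `R` over an arbitrary commutative ring

`range (S-1) = {x ∈ ker (1+S) : x = 0 at the fixed points of s}`, and the same for `R`.
(For a domain with `2, 3 ≠ 0` the vanishing at fixed points is automatic, `Core.lean`.)
-/

set_option autoImplicit false
set_option linter.unusedSectionVars false

namespace Fermat.Agent.S41.PD.Core

universe u v

namespace Datum

variable {P : Type u} [Fintype P] [DecidableEq P] (D : Datum P)
variable (A : Type v) [CommRing A]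

/-- **Hilbert 90 for `S`**, any commutative ring. -/
theorem mem_range_dS_iff (x : P → A) :
    x ∈ LinearMap.range (D.dS A) ↔
      (∀ p, x p + x (D.s p) = 0) ∧ ∀ p, D.s p = p → x p = 0 := by
  constructor
  · rintro ⟨m, rfl⟩
    refine ⟨fun p => ?_, fun p hp => ?_⟩
    · simp only [dS, LinearMap.sub_apply, LinearMap.id_apply, op_apply, Pi.sub_apply, D.s_s]
      ring
    · simp only [dS, LinearMap.sub_apply, LinearMap.id_apply, op_apply, Pi.sub_apply, hp, sub_self]
  · rintro ⟨hx', hfix⟩
    refine ⟨fun p => if ht p < ht (D.s p) then - x p else 0, ?_⟩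
    ext p
    simp only [dS, LinearMap.sub_apply, LinearMap.id_apply, op_apply, Pi.sub_apply, D.s_s]
    rcases lt_trichotomy (ht p) (ht (D.s p)) with h | h | h
    · rw [if_neg (not_lt.2 h.le), if_pos h]; ring
    · have hp : p = D.s p := ht_injective h
      have hx0 : x p = 0 := hfix p hp.symm
      rw [← hp, if_neg (lt_irrefl _), hx0]; simp
    · rw [if_pos h, if_neg (not_lt.2 h.le)]
      linear_combination (-1 : A) * hx' p

/-- **Hilbert 90 for `R`**, any commutative ring. -/
theorem mem_range_dR_iff (x : P → A) :
    x ∈ LinearMap.range (D.dR A) ↔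
      (∀ p, x p + x (D.r p) + x (D.r (D.r p)) = 0) ∧ ∀ p, D.r p = p → x p = 0 := by
  constructor
  · rintro ⟨m, rfl⟩
    refine ⟨fun p => ?_, fun p hp => ?_⟩
    · simp only [dR, LinearMap.sub_apply, LinearMap.id_apply, op_apply, Pi.sub_apply, D.r_r_r]
      ring
    · simp only [dR, LinearMap.sub_apply, LinearMap.id_apply, op_apply, Pi.sub_apply, hp, sub_self]
  · rintro ⟨hx', hfixx⟩
    refine ⟨fun p =>
      if ht p ≤ ht (D.r p) ∧ ht p ≤ ht (D.r (D.r p)) then 0
      else if ht (D.r (D.r p)) ≤ ht p ∧ ht (D.r (D.r p)) ≤ ht (D.r p) then x (D.r (D.r p))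
      else x (D.r p) + x (D.r (D.r p)), ?_⟩
    ext p
    simp only [dR, LinearMap.sub_apply, LinearMap.id_apply, op_apply, Pi.sub_apply, D.r_r_r]
    have hrel := hx' p
    by_cases hfix : D.r p = p
    · have hx0 : x p = 0 := hfixx p hfix
      simp [hfix, hx0]
    · have hab : ht p ≠ ht (D.r p) := fun h => hfix (ht_injective h).symm
      have hbc : ht (D.r p) ≠ ht (D.r (D.r p)) := fun h =>
        hfix (D.r.injective (ht_injective h)).symm
      have hac : ht p ≠ ht (D.r (D.r p)) := fun h => by
        have h1 : p = D.r (D.r p) := ht_injective h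
        apply hfix
        have := congrArg D.r h1
        rw [D.r_r_r] at this
        exact this
      generalize ht p = a at *
      generalize ht (D.r p) = b at *
      generalize ht (D.r (D.r p)) = c at *
      split_ifs <;> first | (exfalso; omega) | linear_combination hrel |
        linear_combination (-1 : A) * hrel | linear_combination (0 : A) * hrel

/-- description of `Z` over an arbitrary commutative ring. -/
theorem mem_Zsub_iff (x : P → A) :
    x ∈ D.Zsub A ↔
      ((∀ p, x p + x (D.s p) = 0) ∧ ∀ p, D.s p = p → x p = 0) ∧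
        ((∀ p, x p + x (D.r p) + x (D.r (D.r p)) = 0) ∧ ∀ p, D.r p = p → x p = 0) := by
  rw [Zsub, Submodule.mem_inf, D.mem_range_dS_iff, D.mem_range_dR_iff]

end Datum

end Fermat.Agent.S41.PD.Core
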