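import Fermat.Agent.S41.PD.CycleSum

/-!
# S41 / PD : the unimodular pairing on the parabolic part of a `C₂ * C₃` permutation module

`D : PermDatum A P` = two permutations `σ` (order `2`), `τ` (order `3`) of a finite type `P` and a
coefficient ring `A` in which `2`, `3` are non-zero-divisors.  `M = P → A`, `S x = x ∘ σ`,
`R x = x ∘ τ`, `T = S ∘ R`.

* `D.Z` = `ker (1 + S) ⊓ ker (1 + R + R²)` (cocycles supported on the cusps, `H¹_c`);
* `D.Q` = `M ⧸ (M^S + M^R)` (`= H¹(Γ, A)` by Shapiro + Mayer–Vietoris);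
* `D.pairZQ : Z → Q → A`, `⟨x, [m]⟩ = x ⬝ᵥ m`, identifies `Z` with the dual of `Q`
  (`exists_Z_of_dual`, `pairZQ_left_injective`);
* `D.j : Z → Q`, `j x = [m₂ - m₁]` with `(S - 1) m₁ = x = (R - 1) m₂` (`j_eq`);
* `D.d : Q → M ⧸ (T - 1) M` (restriction to the cusps), `range j = ker d` (`range_j`);
* `D.β x x' = ⟨x, j x'⟩` is skew (`β_skew`).
-/

set_option autoImplicit false
set_option linter.unusedSectionVars false
set_option linter.unusedVariables false

namespace Fermat.Agent.S41.PD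

/-- two permutations of order `2` and `3`, and the torsion hypotheses on the coefficients. -/
structure PermDatum (A : Type*) [CommRing A] (P : Type*) where
  /-- the action of `S`. -/
  σ : Equiv.Perm P
  /-- the action of `R`. -/
  τ : Equiv.Perm P
  hσ : σ * σ = 1
  hτ : τ * τ * τ = 1
  h2 : ∀ a : A, 2 * a = 0 → a = 0
  h3 : ∀ a : A, 3 * a = 0 → a = 0

namespace PermDatum

variable {A : Type*} [CommRing A] {P : Type*} (D : PermDatum A P)

/-- `S x = x ∘ σ`. -/
def S : (P → A) →ₗ[A] (P → A) := opOf A D.σ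
/-- `R x = x ∘ τ`. -/
def R : (P → A) →ₗ[A] (P → A) := opOf A D.τ
/-- `T = S ∘ R`. -/
def T : (P → A) →ₗ[A] (P → A) := opOf A (D.τ * D.σ)

@[simp] theorem S_apply (x : P → A) (a : P) : D.S x a = x (D.σ a) := rfl
@[simp] theorem R_apply (x : P → A) (a : P) : D.R x a = x (D.τ a) := rfl
@[simp] theorem T_apply (x : P → A) (a : P) : D.T x a = x (D.τ (D.σ a)) := rfl

theorem T_eq (x : P → A) : D.T x = D.S (D.R x) := rfl

theorem σ_σ (a : P) : D.σ (D.σ a) = a := by
  have := congrArg (fun f : Equiv.Perm P => f a) D.hσ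
  simpa using this

theorem τ_τ_τ (a : P) : D.τ (D.τ (D.τ a)) = a := by
  have := congrArg (fun f : Equiv.Perm P => f a) D.hτ
  simpa using this

@[simp] theorem S_S (x : P → A) : D.S (D.S x) = x := by
  ext a; simp [D.σ_σ]

@[simp] theorem R_R_R (x : P → A) : D.R (D.R (D.R x)) = x := by
  ext a; simp [D.τ_τ_τ]

theorem σ_inv : D.σ⁻¹ = D.σ := inv_eq_of_mul_eq_one_left D.hσ

theorem τ_inv : D.τ⁻¹ = D.τ * D.τ := inv_eq_of_mul_eq_one_left D.hτ

section Dot

variable [Fintype P]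

theorem S_dot (x y : P → A) : D.S x ⬝ᵥ y = x ⬝ᵥ D.S y := by
  unfold S; rw [opOf_dot, D.σ_inv]

theorem S_dot_S (x y : P → A) : D.S x ⬝ᵥ D.S y = x ⬝ᵥ y := opOf_dot_opOf _ _ _

theorem R_dot_R (x y : P → A) : D.R x ⬝ᵥ D.R y = x ⬝ᵥ y := opOf_dot_opOf _ _ _

end Dot

/-- the `S`-invariants. -/
def MS : Submodule A (P → A) := LinearMap.ker (D.S - 1)
/-- the `R`-invariants. -/
def MR : Submodule A (P → A) := LinearMap.ker (D.R - 1)

theorem mem_MS {x : P → A} : x ∈ D.MS ↔ D.S x = x := by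
  simp [MS, LinearMap.mem_ker, sub_eq_zero]

theorem mem_MR {x : P → A} : x ∈ D.MR ↔ D.R x = x := by
  simp [MR, LinearMap.mem_ker, sub_eq_zero]

/-- `M^S + M^R`. -/
def B : Submodule A (P → A) := D.MS ⊔ D.MR

/-- `Q = M ⧸ (M^S + M^R)`. -/
abbrev Q : Type _ := (P → A) ⧸ D.B

/-- `Z = ker (1 + S) ⊓ ker (1 + R + R²)`. -/
def Z : Submodule A (P → A) :=
  LinearMap.ker (1 + D.S) ⊓ LinearMap.ker (1 + D.R + D.R ∘ₗ D.R)

theorem mem_Z {x : P → A} :
    x ∈ D.Z ↔ x + D.S x = 0 ∧ x + D.R x + D.R (D.R x) = 0 := by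
  simp [Z, Submodule.mem_inf, LinearMap.mem_ker]

theorem S_of_mem_Z {x : P → A} (hx : x ∈ D.Z) : D.S x = -x := by
  have := (D.mem_Z.mp hx).1
  exact (neg_eq_of_add_eq_zero_right this).symm

theorem S_sub_mem_Z_of_eq {m₁ m₂ : P → A} (h : D.S m₁ - m₁ = D.R m₂ - m₂) :
    D.S m₁ - m₁ ∈ D.Z := by
  rw [mem_Z]
  constructor
  · rw [map_sub, S_S]; abel
  · rw [h]; simp only [map_sub, R_R_R]; abel

section Fin

variable [Fintype P] [DecidableEq P]

theorem exists_S_sub {x : P → A} (hx : x ∈ D.Z) : ∃ m, D.S m - m = x := by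
  obtain ⟨m, hm⟩ := mem_range_of_invol D.σ D.hσ D.h2 (D.mem_Z.mp hx).1
  exact ⟨m, hm⟩

theorem exists_R_sub {x : P → A} (hx : x ∈ D.Z) : ∃ m, D.R m - m = x := by
  obtain ⟨m, hm⟩ := mem_range_of_order_three D.τ D.hτ D.h3 (D.mem_Z.mp hx).2
  exact ⟨m, hm⟩

/-- `Z ⊥ M^S`. -/
theorem dot_eq_zero_of_mem_MS {x s : P → A} (hx : x ∈ D.Z) (hs : s ∈ D.MS) : x ⬝ᵥ s = 0 := by
  apply D.h2
  have h1 : x ⬝ᵥ s = -(x ⬝ᵥ s) := by
    conv_lhs => rw [← D.mem_MS.mp hs, ← D.S_dot, D.S_of_mem_Z hx, neg_dotProduct]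
  rw [two_mul]
  nth_rewrite 1 [h1]
  exact neg_add_cancel _

/-- `Z ⊥ M^R`. -/
theorem dot_eq_zero_of_mem_MR {x r : P → A} (hx : x ∈ D.Z) (hr : r ∈ D.MR) : x ⬝ᵥ r = 0 := by
  apply D.h3
  have hr' := D.mem_MR.mp hr
  have h1 : D.R x ⬝ᵥ r = x ⬝ᵥ r := by
    conv_lhs => rw [← hr', D.R_dot_R]
  have h2 : D.R (D.R x) ⬝ᵥ r = x ⬝ᵥ r := by
    conv_lhs => rw [← hr', D.R_dot_R, h1]
  have h3 : (x + D.R x + D.R (D.R x)) ⬝ᵥ r = 0 := by
    rw [(D.mem_Z.mp hx).2, zero_dotProduct]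
  rw [add_dotProduct, add_dotProduct, h1, h2] at h3
  have : (3 : A) * (x ⬝ᵥ r) = x ⬝ᵥ r + x ⬝ᵥ r + x ⬝ᵥ r := by ring
  rw [this]; exact h3

/-- `Z ⊥ M^S + M^R`. -/
theorem dot_eq_zero_of_mem_B {x b : P → A} (hx : x ∈ D.Z) (hb : b ∈ D.B) : x ⬝ᵥ b = 0 := by
  obtain ⟨s, hs, r, hr, rfl⟩ := Submodule.mem_sup.mp hb
  rw [dotProduct_add, D.dot_eq_zero_of_mem_MS hx hs, D.dot_eq_zero_of_mem_MR hx hr, add_zero]

/-- `(M^S + M^R)^⊥ ⊆ Z`. -/
theorem mem_Z_of_dot_eq_zero {x : P → A} (h : ∀ b ∈ D.B, x ⬝ᵥ b = 0) : x ∈ D.Z := by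
  rw [mem_Z]
  constructor
  · apply eq_zero_of_dot_eq_zero
    intro y
    rw [add_dotProduct, D.S_dot, ← dotProduct_add]
    apply h
    apply Submodule.mem_sup_left
    rw [mem_MS, map_add, S_S, add_comm]
  · apply eq_zero_of_dot_eq_zero
    intro y
    have e1 : D.R x ⬝ᵥ y = x ⬝ᵥ D.R (D.R y) := by
      conv_lhs => rw [← D.R_R_R y, D.R_dot_R]
    have e2 : D.R (D.R x) ⬝ᵥ y = x ⬝ᵥ D.R y := by
      conv_lhs => rw [← D.R_R_R y, D.R_dot_R, D.R_dot_R]
    rw [add_dotProduct, add_dotProduct, e1, e2, ← dotProduct_add, ← dotProduct_add]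
    apply h
    apply Submodule.mem_sup_right
    rw [mem_MR, map_add, map_add, R_R_R]; abel

end Fin

section Pairing

variable [Fintype P] [DecidableEq P]

/-- the pairing `Z × Q → A`, `⟨x, [m]⟩ = x ⬝ᵥ m`. -/
noncomputable def pairZQ : D.Z →ₗ[A] D.Q →ₗ[A] A :=
  (D.B.liftQ ((dotProductBilin A A).domRestrict D.Z).flip (by
    intro b hb
    rw [LinearMap.mem_ker]
    ext x
    simpa using D.dot_eq_zero_of_mem_B x.2 hb)).flip

@[simp] theorem pairZQ_mk (x : D.Z) (m : P → A) :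
    D.pairZQ x (Submodule.Quotient.mk m) = (x : P → A) ⬝ᵥ m := rfl

theorem pairZQ_left_injective (x : D.Z) (h : ∀ q : D.Q, D.pairZQ x q = 0) : x = 0 := by
  apply Subtype.ext
  apply eq_zero_of_dot_eq_zero
  intro y
  exact h (Submodule.Quotient.mk y)

/-- `Z = Hom_A(Q, A)`: every functional on `Q` is `⟨x, ·⟩`. -/
theorem exists_Z_of_dual (φ : D.Q →ₗ[A] A) : ∃ x : D.Z, ∀ q : D.Q, D.pairZQ x q = φ q := by
  let ψ : (P → A) →ₗ[A] A := φ ∘ₗ D.B.mkQ
  let x : P → A := (dotProductEquiv A P).symm ψ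
  have hx : ∀ m : P → A, x ⬝ᵥ m = ψ m := by
    intro m
    have := (dotProductEquiv A P).apply_symm_apply ψ
    exact congrArg (fun f : Module.Dual A (P → A) => f m) this
  have hxZ : x ∈ D.Z := by
    apply D.mem_Z_of_dot_eq_zero
    intro b hb
    rw [hx]
    show φ (D.B.mkQ b) = 0
    rw [Submodule.mkQ_apply, (Submodule.Quotient.mk_eq_zero _).mpr hb, map_zero]
  refine ⟨⟨x, hxZ⟩, ?_⟩
  intro q
  induction q using Submodule.Quotient.induction_on with
  | _ m => rw [pairZQ_mk]; exact hx m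

/-- the choice-independent description of `j`. -/
theorem mk_sub_eq_of_eq {m₁ m₂ n₁ n₂ : P → A} (h1 : D.S m₁ - m₁ = D.S n₁ - n₁)
    (h2 : D.R m₂ - m₂ = D.R n₂ - n₂) :
    (Submodule.Quotient.mk (m₂ - m₁) : D.Q) = Submodule.Quotient.mk (n₂ - n₁) := by
  rw [Submodule.Quotient.eq]
  have e : m₂ - m₁ - (n₂ - n₁) = (n₁ - m₁) + (m₂ - n₂) := by abel
  rw [e]
  apply Submodule.add_mem
  · apply Submodule.mem_sup_left
    rw [mem_MS, map_sub]
    have : D.S n₁ - D.S m₁ - (n₁ - m₁) = 0 := by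
      have := sub_eq_zero.mpr h1
      rw [← neg_eq_zero, ← this]; abel
    exact sub_eq_zero.mp this
  · apply Submodule.mem_sup_right
    rw [mem_MR, map_sub]
    have : D.R m₂ - D.R n₂ - (m₂ - n₂) = 0 := by
      have := sub_eq_zero.mpr h2
      rw [← this]; abel
    exact sub_eq_zero.mp this

/-- the underlying function of `j`. -/
noncomputable def jFun (x : D.Z) : D.Q :=
  Submodule.Quotient.mk ((D.exists_R_sub x.2).choose - (D.exists_S_sub x.2).choose)

theorem jFun_eq (x : D.Z) {m₁ m₂ : P → A} (h1 : D.S m₁ - m₁ = x) (h2 : D.R m₂ - m₂ = x) :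
    D.jFun x = Submodule.Quotient.mk (m₂ - m₁) := by
  unfold jFun
  apply D.mk_sub_eq_of_eq
  · rw [(D.exists_S_sub x.2).choose_spec, h1]
  · rw [(D.exists_R_sub x.2).choose_spec, h2]

/-- `j : Z → Q` ("forget supports"), `j x = [m₂ - m₁]` with `(S - 1) m₁ = x = (R - 1) m₂`. -/
noncomputable def j : D.Z →ₗ[A] D.Q where
  toFun := D.jFun
  map_add' x y := by
    obtain ⟨a₁, ha₁⟩ := D.exists_S_sub x.2
    obtain ⟨a₂, ha₂⟩ := D.exists_R_sub x.2
    obtain ⟨b₁, hb₁⟩ := D.exists_S_sub y.2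
    obtain ⟨b₂, hb₂⟩ := D.exists_R_sub y.2
    rw [D.jFun_eq x ha₁ ha₂, D.jFun_eq y hb₁ hb₂,
      D.jFun_eq (x + y) (m₁ := a₁ + b₁) (m₂ := a₂ + b₂)
        (by rw [map_add, Submodule.coe_add, ← ha₁, ← hb₁]; abel)
        (by rw [map_add, Submodule.coe_add, ← ha₂, ← hb₂]; abel),
      ← Submodule.Quotient.mk_add]
    congr 1; abel
  map_smul' c x := by
    obtain ⟨a₁, ha₁⟩ := D.exists_S_sub x.2
    obtain ⟨a₂, ha₂⟩ := D.exists_R_sub x.2
    rw [D.jFun_eq x ha₁ ha₂,
      D.jFun_eq (c • x) (m₁ := c • a₁) (m₂ := c • a₂)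
        (by rw [map_smul, Submodule.coe_smul, ← ha₁, smul_sub])
        (by rw [map_smul, Submodule.coe_smul, ← ha₂, smul_sub]),
      RingHom.id_apply, ← Submodule.Quotient.mk_smul, smul_sub]

theorem j_eq (x : D.Z) {m₁ m₂ : P → A} (h1 : D.S m₁ - m₁ = x) (h2 : D.R m₂ - m₂ = x) :
    D.j x = Submodule.Quotient.mk (m₂ - m₁) := D.jFun_eq x h1 h2

/-- `β x x' = ⟨x, j x'⟩`. -/
noncomputable def β : D.Z →ₗ[A] D.Z →ₗ[A] A := D.pairZQ.compl₂ D.j

theorem β_apply (x x' : D.Z) : D.β x x' = D.pairZQ x (D.j x') := rfl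

/-- **(PD4)** `j` is skew-self-adjoint. -/
theorem β_skew (x x' : D.Z) : D.β x x' + D.β x' x = 0 := by
  obtain ⟨a₁, ha₁⟩ := D.exists_S_sub x.2
  obtain ⟨a₂, ha₂⟩ := D.exists_R_sub x.2
  obtain ⟨b₁, hb₁⟩ := D.exists_S_sub x'.2
  obtain ⟨b₂, hb₂⟩ := D.exists_R_sub x'.2
  rw [β_apply, β_apply, D.j_eq x ha₁ ha₂, D.j_eq x' hb₁ hb₂, pairZQ_mk, pairZQ_mk]
  -- `⟨x', jx⟩ = (x', a₂) - (x', a₁)`
  have e1 : (x' : P → A) ⬝ᵥ a₂ = -(D.R b₂ ⬝ᵥ (x : P → A)) := by
    rw [← hb₂, ← ha₂, sub_dotProduct, dotProduct_sub, D.R_dot_R]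
    abel
  have e2 : (x' : P → A) ⬝ᵥ a₁ = b₁ ⬝ᵥ (x : P → A) := by
    rw [← hb₁, ← ha₁, sub_dotProduct, dotProduct_sub, D.S_dot]
  have e3 : (x : P → A) ⬝ᵥ b₂ = b₂ ⬝ᵥ (x : P → A) := dotProduct_comm _ _
  have e4 : (x : P → A) ⬝ᵥ b₁ = b₁ ⬝ᵥ (x : P → A) := dotProduct_comm _ _
  -- `(S + 1) x = 0`
  have e5 : (D.S b₁ + b₁) ⬝ᵥ (x : P → A) = 0 := by
    rw [add_dotProduct, D.S_dot, ← dotProduct_add, D.S_of_mem_Z x.2, neg_add_cancel,
      dotProduct_zero]
  have e6 : (D.R b₂ - b₂) ⬝ᵥ (x : P → A) = (D.S b₁ - b₁) ⬝ᵥ (x : P → A) := by rw [hb₁, hb₂]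
  rw [dotProduct_sub, dotProduct_sub, e1, e2, e3, e4]
  rw [add_dotProduct] at e5
  rw [sub_dotProduct, sub_dotProduct] at e6
  linear_combination (-1 : A) * e6 - e5

end Pairing

section Cusps

variable [Fintype P] [DecidableEq P]

/-- the coinvariants of `T` (functions on the cusps). -/
abbrev MT : Type _ := (P → A) ⧸ LinearMap.range (D.T - 1)

/-- restriction to the cusps, `d [m] = (1 - S) m mod (T - 1) M`. -/
noncomputable def d : D.Q →ₗ[A] D.MT :=
  D.B.liftQ ((LinearMap.range (D.T - 1)).mkQ ∘ₗ (1 - D.S)) (by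
    rw [B, sup_le_iff]
    constructor
    · intro s hs
      rw [LinearMap.mem_ker, LinearMap.comp_apply, LinearMap.sub_apply, Module.End.one_apply,
        D.mem_MS.mp hs, sub_self, map_zero]
    · intro r hr
      rw [LinearMap.mem_ker, LinearMap.comp_apply, LinearMap.sub_apply, Module.End.one_apply,
        Submodule.mkQ_apply, Submodule.Quotient.mk_eq_zero]
      refine ⟨-r, ?_⟩
      rw [map_neg, LinearMap.sub_apply, Module.End.one_apply, T_eq, D.mem_MR.mp hr]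
      abel)

theorem d_mk (m : P → A) :
    D.d (Submodule.Quotient.mk m) = Submodule.Quotient.mk (m - D.S m) := rfl

theorem d_mk_eq_zero_iff (m : P → A) :
    D.d (Submodule.Quotient.mk m) = 0 ↔ ∃ a, D.T a - a = m - D.S m := by
  rw [d_mk, Submodule.Quotient.mk_eq_zero, LinearMap.mem_range]
  rfl

/-- **(PD3, ⊆)** -/
theorem d_j (x : D.Z) : D.d (D.j x) = 0 := by
  obtain ⟨a₁, ha₁⟩ := D.exists_S_sub x.2
  obtain ⟨a₂, ha₂⟩ := D.exists_R_sub x.2
  rw [D.j_eq x ha₁ ha₂, d_mk_eq_zero_iff]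
  refine ⟨-a₂, ?_⟩
  have hS : D.S (x : P → A) = -x := D.S_of_mem_Z x.2
  have h1 : D.S (D.R a₂) - D.S a₂ = -(x : P → A) := by rw [← map_sub, ha₂, hS]
  have h2 : D.T a₂ = D.S a₂ - (x : P → A) := by
    rw [T_eq]; rw [sub_eq_iff_eq_add] at h1; rw [h1]; abel
  rw [map_neg, h2, map_sub]
  have h3 : D.S a₁ = a₁ + (x : P → A) := by rw [← ha₁]; abel
  rw [h3]; abel

/-- **(PD3, ⊇)** -/
theorem exists_j_eq_of_d_eq_zero (q : D.Q) (hq : D.d q = 0) : ∃ x : D.Z, D.j x = q := by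
  induction q using Submodule.Quotient.induction_on with
  | _ m =>
    obtain ⟨a', ha'⟩ := (D.d_mk_eq_zero_iff m).mp hq
    -- `a = m + a'` satisfies `(T - S) m = (T - 1) a`
    set a := m + a' with ha
    have h1 : D.S (D.R m) - D.S m = D.S (D.R a) - a := by
      have e : D.T a - a = D.T m - D.S m := by
        rw [ha, map_add]
        have : D.T a' = a' + (m - D.S m) := by rw [← ha']; abel
        rw [this]; abel
      rw [← T_eq, ← T_eq, e]
    -- apply `S`
    have h2 : D.R m - m = D.R a - D.S a := by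
      have := congrArg D.S h1
      rwa [map_sub, map_sub, S_S, S_S, S_S] at this
    have hx : D.S (-a) - (-a) = D.R (m - a) - (m - a) := by
      rw [map_neg, map_sub]
      have : D.R m = m + (D.R a - D.S a) := by rw [← h2]; abel
      rw [this]; abel
    refine ⟨⟨D.S (-a) - (-a), D.S_sub_mem_Z_of_eq hx⟩, ?_⟩
    rw [D.j_eq _ (m₁ := -a) (m₂ := m - a) rfl hx.symm]
    congr 1; abel

/-- **(PD3)** `range j = ker d`. -/
theorem range_j : LinearMap.range D.j = LinearMap.ker D.d := by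
  ext q
  constructor
  · rintro ⟨x, rfl⟩; exact D.d_j x
  · intro hq; exact D.exists_j_eq_of_d_eq_zero q hq

/-- the cusp module has no torsion. -/
theorem MT_torsion_free {c : A} (hc : ∀ a : A, c * a = 0 → a = 0) (u : D.MT) (h : c • u = 0) :
    u = 0 := by
  induction u using Submodule.Quotient.induction_on with
  | _ m =>
    rw [← Submodule.Quotient.mk_smul, Submodule.Quotient.mk_eq_zero] at h
    rw [Submodule.Quotient.mk_eq_zero]
    exact mem_range_of_smul_mem_range _ hc h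

/-- `range j` is saturated in `Q`. -/
theorem mem_range_j_of_smul_mem {c : A} (hc : ∀ a : A, c * a = 0 → a = 0) (q : D.Q)
    (h : c • q ∈ LinearMap.range D.j) : q ∈ LinearMap.range D.j := by
  rw [range_j, LinearMap.mem_ker] at h ⊢
  rw [map_smul] at h
  exact D.MT_torsion_free hc _ h

end Cusps

section TorsionFree

variable [Fintype P] [DecidableEq P]

/-- `⟨σ, τ⟩` acts transitively on `P`. -/
def IsTrans : Prop :=
  ∀ s : Set P, s.Nonempty → (∀ a ∈ s, D.σ a ∈ s) → (∀ a ∈ s, D.τ a ∈ s) → s = Set.univ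

/-- transitivity of the generated subgroup implies `IsTrans`. -/
theorem isTrans_of_closure
    (h : ∀ a b : P, ∃ g ∈ Subgroup.closure ({D.σ, D.τ} : Set (Equiv.Perm P)), g a = b) :
    D.IsTrans := by
  intro s ⟨a₀, ha₀⟩ hσ hτ
  have key : ∀ g ∈ Subgroup.closure ({D.σ, D.τ} : Set (Equiv.Perm P)), ∀ a ∈ s, g a ∈ s := by
    intro g hg
    induction hg using Subgroup.closure_induction with
    | mem x hx =>
      rcases hx with rfl | rfl
      · exact hσ
      · exact hτ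
    | one => intro a ha; simpa using ha
    | mul x y _ _ hx hy => intro a ha; rw [Equiv.Perm.mul_apply]; exact hx _ (hy a ha)
    | inv x hx' hx =>
      -- `x⁻¹ = x ^ k` on a finite type
      intro a ha
      have hfin : IsOfFinOrder x := isOfFinOrder_of_finite x
      obtain ⟨k, hk⟩ : ∃ k : ℕ, x⁻¹ = x ^ k := by
        refine ⟨orderOf x - 1, ?_⟩
        rw [inv_eq_iff_mul_eq_one, ← pow_succ']
        have := orderOf_pos x
        rw [show orderOf x - 1 + 1 = orderOf x by omega, pow_orderOf_eq_one]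
      rw [hk]
      have : ∀ n : ℕ, ∀ b ∈ s, (x ^ n) b ∈ s := by
        intro n
        induction n with
        | zero => intro b hb; simpa using hb
        | succ n ih => intro b hb; rw [pow_succ', Equiv.Perm.mul_apply]; exact hx _ (ih b hb)
      exact this k a ha
  ext b
  simp only [Set.mem_univ, iff_true]
  obtain ⟨g, hg, rfl⟩ := h a₀ b
  exact key g hg a₀ ha₀

/-- **(PD0)** `Q` is torsion free. -/
theorem Q_torsion_free (ht : D.IsTrans) {c : A} (hc : ∀ a : A, c * a = 0 → a = 0) (q : D.Q)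
    (h : c • q = 0) : q = 0 := by
  induction q using Submodule.Quotient.induction_on with
  | _ m =>
    rw [← Submodule.Quotient.mk_smul, Submodule.Quotient.mk_eq_zero] at h
    rw [Submodule.Quotient.mk_eq_zero]
    rcases isEmpty_or_nonempty P with hP | ⟨⟨a₀⟩⟩
    · have : m = 0 := by ext a; exact (hP.false a).elim
      rw [this]; exact Submodule.zero_mem _
    obtain ⟨s, hs, r, hr, hsr⟩ := Submodule.mem_sup.mp h
    have hsS : ∀ b, s (D.σ b) = s b := fun b => congrFun (D.mem_MS.mp hs) b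
    have hrR : ∀ b, r (D.τ b) = r b := fun b => congrFun (D.mem_MR.mp hr) b
    have hsr' : ∀ b, s b = c * m b - r b := by
      intro b
      have := congrFun hsr b
      simp only [Pi.add_apply, Pi.smul_apply, smul_eq_mul] at this
      rw [← this]; ring
    have hU : {b : P | c ∣ s b - s a₀} = Set.univ := by
      apply ht
      · exact ⟨a₀, by simp⟩
      · intro b hb
        simp only [Set.mem_ofPred_eq] at hb ⊢
        rwa [hsS]
      · intro b hb
        simp only [Set.mem_ofPred_eq] at hb ⊢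
        have : s (D.τ b) - s a₀ = c * (m (D.τ b) - m b) + (s b - s a₀) := by
          rw [hsr' (D.τ b), hsr' b, hrR]; ring
        rw [this]
        exact dvd_add (dvd_mul_right _ _) hb
    have hdiv : ∀ b, c ∣ s b - s a₀ := by
      intro b
      have : b ∈ {b : P | c ∣ s b - s a₀} := by rw [hU]; trivial
      exact this
    choose s' hs' using hdiv
    have hs'S : s' ∈ D.MS := by
      rw [mem_MS]
      ext b
      rw [← sub_eq_zero]
      apply hc
      rw [S_apply, mul_sub, ← hs', ← hs', hsS]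
      ring
    have hr'R : m - s' ∈ D.MR := by
      rw [mem_MR]
      ext b
      rw [← sub_eq_zero]
      apply hc
      simp only [R_apply, Pi.sub_apply]
      have e1 : c * s' (D.τ b) = s (D.τ b) - s a₀ := (hs' _).symm
      have e2 : c * s' b = s b - s a₀ := (hs' _).symm
      have e3 := hsr' (D.τ b)
      have e4 := hsr' b
      have e5 := hrR b
      linear_combination (-1 : A) * e1 + e2 - e3 + e4 + e5
    have : m = s' + (m - s') := by abel
    rw [this]
    exact Submodule.add_mem _ (Submodule.mem_sup_left hs'S) (Submodule.mem_sup_right hr'R)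

end TorsionFree

section Unimodular

variable [Fintype P] [DecidableEq P]

theorem regular_cancel {c : A} (hc : IsRegular c) : ∀ a : A, c * a = 0 → a = 0 := by
  intro a ha
  apply hc.left
  simpa using ha

theorem Q_isTorsionFree (ht : D.IsTrans) : Module.IsTorsionFree A D.Q where
  isSMulRegular := by
    intro c hc q₁ q₂ h
    have h' : c • (q₁ - q₂) = 0 := by
      rw [smul_sub]; exact sub_eq_zero.mpr h
    exact sub_eq_zero.mp (D.Q_torsion_free ht (regular_cancel hc) _ h')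

/-- the parabolic part `H = range j ⊆ Q`. -/
noncomputable def H : Submodule A D.Q := LinearMap.range D.j

theorem quot_H_isTorsionFree : Module.IsTorsionFree A (D.Q ⧸ D.H) where
  isSMulRegular := by
    intro c hc u₁ u₂ h
    have h' : c • (u₁ - u₂) = 0 := by
      rw [smul_sub]; exact sub_eq_zero.mpr h
    apply sub_eq_zero.mp
    generalize u₁ - u₂ = u at h'
    induction u using Submodule.Quotient.induction_on with
    | _ q =>
      rw [← Submodule.Quotient.mk_smul, Submodule.Quotient.mk_eq_zero] at h'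
      rw [Submodule.Quotient.mk_eq_zero]
      exact D.mem_range_j_of_smul_mem (regular_cancel hc) q h'

variable [IsDomain A] [IsPrincipalIdealRing A]

/-- **(PD5, nondegeneracy)** -/
theorem j_eq_zero_of_β_eq_zero (ht : D.IsTrans) (x : D.Z) (h : ∀ x' : D.Z, D.β x x' = 0) :
    D.j x = 0 := by
  have := D.Q_isTorsionFree ht
  rw [← Module.forall_dual_apply_eq_zero_iff A]
  intro φ
  obtain ⟨x', hx'⟩ := D.exists_Z_of_dual φ
  rw [← hx', ← β_apply]
  have := D.β_skew x x'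
  rw [h x', zero_add] at this
  exact this

/-- a retraction of `Q` onto `H`. -/
theorem exists_retraction : ∃ ρ : D.Q →ₗ[A] D.H, ∀ h : D.H, ρ h = h := by
  have := D.quot_H_isTorsionFree
  obtain ⟨g, hg⟩ := LinearMap.exists_rightInverse_of_surjective D.H.mkQ (Submodule.range_mkQ _)
  have hmem : ∀ q : D.Q, q - g (D.H.mkQ q) ∈ D.H := by
    intro q
    rw [← Submodule.Quotient.mk_eq_zero, Submodule.Quotient.mk_sub, sub_eq_zero]
    have := congrArg (fun f : (D.Q ⧸ D.H) →ₗ[A] (D.Q ⧸ D.H) => f (D.H.mkQ q)) hg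
    exact this.symm
  refine ⟨(LinearMap.id - g ∘ₗ D.H.mkQ).codRestrict D.H hmem, ?_⟩
  intro h
  apply Subtype.ext
  rw [LinearMap.codRestrict_apply, LinearMap.sub_apply, LinearMap.id_apply, LinearMap.comp_apply,
    Submodule.mkQ_apply, (Submodule.Quotient.mk_eq_zero _).mpr h.2, map_zero, sub_zero]

/-- **(PD5, surjectivity)** every functional on `H` is `β x` for some `x ∈ Z`. -/
theorem exists_β_eq (φ : D.H →ₗ[A] A) :
    ∃ x : D.Z, ∀ x' : D.Z, D.β x x' = φ ⟨D.j x', LinearMap.mem_range_self _ _⟩ := by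
  obtain ⟨ρ, hρ⟩ := D.exists_retraction
  obtain ⟨x, hx⟩ := D.exists_Z_of_dual (φ ∘ₗ ρ)
  refine ⟨x, fun x' => ?_⟩
  rw [β_apply, hx, LinearMap.comp_apply]
  congr 1
  exact hρ ⟨D.j x', LinearMap.mem_range_self _ _⟩

/-- `j` with values in `H`. -/
noncomputable def jH : D.Z →ₗ[A] D.H := D.j.rangeRestrict

theorem jH_surjective : Function.Surjective D.jH := LinearMap.surjective_rangeRestrict _

@[simp] theorem coe_jH (x : D.Z) : ((D.jH x : D.H) : D.Q) = D.j x := rfl

/-- the auxiliary map `Z → Hom(H, A)`. -/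
noncomputable def γ : D.Z →ₗ[A] D.H →ₗ[A] A := D.pairZQ.compl₂ D.H.subtype

theorem γ_apply (x : D.Z) (h : D.H) : D.γ x h = D.pairZQ x (h : D.Q) := rfl

theorem γ_jH (x x' : D.Z) : D.γ x (D.jH x') = D.β x x' := rfl

theorem γ_eq_zero_of_mem_ker {x : D.Z} (hx : x ∈ LinearMap.ker D.jH) : D.γ x = 0 := by
  have hjx : D.j x = 0 := by
    have := LinearMap.mem_ker.mp hx
    have h2 := congrArg (fun h : D.H => (h : D.Q)) this
    simpa using h2
  ext h
  obtain ⟨x', rfl⟩ := D.jH_surjective h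
  rw [γ_jH, LinearMap.zero_apply]
  have := D.β_skew x x'
  rw [D.β_apply x' x, hjx, map_zero, add_zero] at this
  exact this

/-- **(PD5)** the pairing on `H = H¹_par`: `⟨j x, j x'⟩ = ⟨x, j x'⟩`. -/
noncomputable def pairH : D.H →ₗ[A] D.H →ₗ[A] A :=
  ((LinearMap.ker D.jH).liftQ D.γ (fun _ hx => LinearMap.mem_ker.mpr (D.γ_eq_zero_of_mem_ker hx)))
    ∘ₗ (D.jH.quotKerEquivOfSurjective D.jH_surjective).symm.toLinearMap

theorem pairH_jH (x : D.Z) (h : D.H) : D.pairH (D.jH x) h = D.pairZQ x (h : D.Q) := by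
  have : (D.jH.quotKerEquivOfSurjective D.jH_surjective).symm (D.jH x) =
      Submodule.Quotient.mk x := by
    rw [LinearEquiv.symm_apply_eq]
    rfl
  unfold pairH
  rw [LinearMap.comp_apply, LinearEquiv.coe_coe, this]
  rfl

theorem pairH_jH_jH (x x' : D.Z) : D.pairH (D.jH x) (D.jH x') = D.β x x' :=
  D.pairH_jH x _

theorem pairH_skew (h h' : D.H) : D.pairH h h' + D.pairH h' h = 0 := by
  obtain ⟨x, rfl⟩ := D.jH_surjective h
  obtain ⟨x', rfl⟩ := D.jH_surjective h'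
  rw [pairH_jH_jH, pairH_jH_jH]
  exact D.β_skew x x'

/-- **(PD5)** the pairing on `H¹_par` is unimodular. -/
theorem pairH_bijective (ht : D.IsTrans) : Function.Bijective D.pairH := by
  constructor
  · rw [← LinearMap.ker_eq_bot, LinearMap.ker_eq_bot']
    intro h hh
    obtain ⟨x, rfl⟩ := D.jH_surjective h
    apply Subtype.ext
    rw [coe_jH, Submodule.coe_zero]
    apply D.j_eq_zero_of_β_eq_zero ht
    intro x'
    rw [← pairH_jH_jH, hh, LinearMap.zero_apply]
  · intro φ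
    obtain ⟨x, hx⟩ := D.exists_β_eq φ
    refine ⟨D.jH x, ?_⟩
    ext h
    obtain ⟨x', rfl⟩ := D.jH_surjective h
    rw [pairH_jH_jH, hx]
    rfl

end Unimodular

end PermDatum

end Fermat.Agent.S41.PD
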