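import Fermat.Agent.S41.PD.Shapiro
import Fermat.Agent.S41.PD.Funct

/-!
# S41 / L5 : the Shapiro isomorphism is compatible with restriction and corestriction

`f : X' → X` an equivariant map of finite transitive `SL(2,ℤ)`-sets with `f x₀' = x₀`
(so `Γ' = Stab x₀' ≤ Γ = Stab x₀`).  Then

* `pullQ (shap ψ) = shap' (ψ|Γ')`                              (`shap_res`),
* `pushQ (shap' ψ') = shap (cor ψ')`, where
  `cor ψ' γ = ∑_{x' ∈ f⁻¹ x₀} ψ' ((σ' (γ x'))⁻¹ γ σ' x')` is the transfer (`shap_cor`, `cor_apply`).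
-/

set_option autoImplicit false
set_option linter.unusedSectionVars false

namespace Fermat.Agent.S41.PD.ShapiroFunct

open scoped MatrixGroups
open ModularGroup Fermat.Agent.S41.PD.Core Fermat.Agent.S41.PD.Present
  Fermat.Agent.S41.PD.Shapiro

noncomputable section

universe u u' v

variable {X : Type u} [Fintype X] [DecidableEq X] [MulAction SL(2, ℤ) X]
variable {X' : Type u'} [Fintype X'] [DecidableEq X'] [MulAction SL(2, ℤ) X']
variable (hX : ∀ x : X, (-1 : SL(2, ℤ)) • x = x) (htr : ∀ x y : X, ∃ g : SL(2, ℤ), g • x = y)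
variable (hX' : ∀ x : X', (-1 : SL(2, ℤ)) • x = x)
  (htr' : ∀ x y : X', ∃ g : SL(2, ℤ), g • x = y)
variable {x₀ : X} {Γ : Subgroup SL(2, ℤ)} (hΓ : ∀ g : SL(2, ℤ), g ∈ Γ ↔ g • x₀ = x₀)
variable {x₀' : X'} {Γ' : Subgroup SL(2, ℤ)} (hΓ' : ∀ g : SL(2, ℤ), g ∈ Γ' ↔ g • x₀' = x₀')
variable {σ : X → SL(2, ℤ)} (hσ : ∀ x : X, σ x • x₀ = x)
variable {σ' : X' → SL(2, ℤ)} (hσ' : ∀ x : X', σ' x • x₀' = x)
variable {f : X' → X} (hf : ∀ (g : SL(2, ℤ)) (x' : X'), f (g • x') = g • f x') (hf0 : f x₀' = x₀)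

/-- the map of data attached to an equivariant map. -/
def homOf : Datum.Hom (datumOf hX' htr') (datumOf hX htr) where
  f := f
  map_s p' := hf S p'
  map_r p' := hf (S * T) p'

include hΓ hΓ' hf hf0 in
theorem stab_le : Γ' ≤ Γ := by
  intro γ hγ
  rw [hΓ, ← hf0, ← hf, (hΓ' γ).1 hγ]

/-- restriction of characters. -/
def resChar {A : Type v} [AddCommGroup A] (ψ : Additive Γ →+ A) : Additive Γ' →+ A :=
  ψ.comp (MonoidHom.toAdditive (Subgroup.inclusion (stab_le hΓ hΓ' hf hf0)))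

theorem resChar_apply {A : Type v} [AddCommGroup A] (ψ : Additive Γ →+ A) (γ : Γ') :
    resChar hΓ hΓ' hf hf0 ψ (Additive.ofMul γ) =
      ψ (Additive.ofMul (Subgroup.inclusion (stab_le hΓ hΓ' hf hf0) γ)) := rfl

include hΓ hσ hσ' hf hf0 in
theorem u_mem (x' : X') : (σ (f x'))⁻¹ * σ' x' ∈ Γ := by
  rw [hΓ, mul_smul, inv_smul_eq_iff, hσ, ← hf0, ← hf, hσ']

/-- `u x' = σ (f x')⁻¹ σ' x' ∈ Γ`. -/
def uu (x' : X') : Γ := ⟨(σ (f x'))⁻¹ * σ' x', u_mem hΓ hσ hσ' hf hf0 x'⟩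

theorem kap_comparison (g : SL(2, ℤ)) (x' : X') :
    Subgroup.inclusion (stab_le hΓ hΓ' hf hf0) (kap hΓ' hσ' g x') =
      (uu hΓ hσ hσ' hf hf0 (g • x'))⁻¹ * kap hΓ hσ g (f x') * uu hΓ hσ hσ' hf hf0 x' := by
  apply Subtype.ext
  simp only [Subgroup.coe_inclusion, kap_coe, Subgroup.coe_mul, Subgroup.coe_inv, uu, hf]
  group

section ring

variable (A : Type v) [CommRing A]

/-- the Shapiro cocycle of the restricted character is the pull-back of the Shapiro cocycle,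
up to the coboundary of `v = ψ ∘ u`. -/
theorem dco_resChar (ψ : Additive Γ →+ A) (g : SL(2, ℤ)) (x' : X') :
    dco hΓ' hσ' (resChar hΓ hΓ' hf hf0 ψ) g x' =
      dco hΓ hσ ψ g (f x') -
        cob (fun y => ψ (Additive.ofMul (uu hΓ hσ hσ' hf hf0 y))) g x' := by
  unfold dco cob
  rw [resChar_apply, kap_comparison hΓ hΓ' hσ hσ' hf hf0, ofMul_mul, ofMul_mul, map_add, map_add,
    ofMul_inv, map_neg]
  abel

variable [IsDomain A] [CharZero A]

/-- **Shapiro commutes with restriction.** -/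
theorem shap_res (ψ : Additive Γ →+ A) :
    (homOf hX htr hX' htr' hf).pullQ A (shap hX htr hΓ hσ A ψ) =
      shap hX' htr' hΓ' hσ' A (resChar hΓ hΓ' hf hf0 ψ) := by
  obtain ⟨⟨m1, h1⟩, ⟨m2, h2⟩⟩ :=
    (mem_range_theta_iff _ A _).1 (cocL_mem hX htr hΓ hσ A ψ)
  change (datumOf hX htr).dS A m1 = dco hΓ hσ ψ S at h1
  change (datumOf hX htr).dR A m2 = dco hΓ hσ ψ (S * T) at h2
  set F := homOf hX htr hX' htr' hf with hF
  set v : X' → A := fun y => ψ (Additive.ofMul (uu hΓ hσ hσ' hf hf0 y)) with hv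
  rw [shap_eq hX htr hΓ hσ A ψ m1 m2 h1 h2, Datum.Hom.pullQ_mk]
  have e1 : (datumOf hX' htr').dS A (pull A f m1 - v) =
      dco hΓ' hσ' (resChar hΓ hΓ' hf hf0 ψ) S := by
    have hp : (datumOf hX' htr').dS A (pull A f m1) = pull A f ((datumOf hX htr).dS A m1) :=
      (F.pull_dS A m1).symm
    rw [map_sub, hp, h1, dS_eq_cob]
    funext x'
    rw [dco_resChar hΓ hΓ' hσ hσ' hf hf0 A ψ S x']
    rfl
  have e2 : (datumOf hX' htr').dR A (pull A f m2 - v) =
      dco hΓ' hσ' (resChar hΓ hΓ' hf hf0 ψ) (S * T) := by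
    have hp : (datumOf hX' htr').dR A (pull A f m2) = pull A f ((datumOf hX htr).dR A m2) :=
      (F.pull_dR A m2).symm
    rw [map_sub, hp, h2, dR_eq_cob]
    funext x'
    rw [dco_resChar hΓ hΓ' hσ hσ' hf hf0 A ψ (S * T) x']
    rfl
  rw [shap_eq hX' htr' hΓ' hσ' A _ _ _ e1 e2]
  congr 1
  rw [map_sub]
  abel

/-! ### Corestriction -/

omit [IsDomain A] [CharZero A] in
include hf in
theorem push_smul_fun (y : X' → A) (h : SL(2, ℤ)) :
    push A f (fun x' => y (h • x')) = fun x => push A f y (h • x) := by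
  have := push_op A f (MulAction.toPerm h : Equiv.Perm X') (MulAction.toPerm h : Equiv.Perm X)
    (fun p' => hf h p') y
  exact this.symm

/-- the pushed-forward cocycle `c g x = ∑_{f x' = x} dco' ψ' g x'`. -/
def pushCoc (ψ' : Additive Γ' →+ A) (g : SL(2, ℤ)) (x : X) : A :=
  push A f (dco hΓ' hσ' ψ' g) x

omit [IsDomain A] [CharZero A] in
include hf in
theorem pushCoc_mul (ψ' : Additive Γ' →+ A) (g h : SL(2, ℤ)) (x : X) :
    pushCoc (f := f) hΓ' hσ' A ψ' (g * h) x =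
      pushCoc (f := f) hΓ' hσ' A ψ' g (h • x) + pushCoc (f := f) hΓ' hσ' A ψ' h x := by
  unfold pushCoc
  have h1 : dco hΓ' hσ' ψ' (g * h) =
      (fun x' => dco hΓ' hσ' ψ' g (h • x')) + dco hΓ' hσ' ψ' h := by
    funext x'
    exact dco_mul hΓ' hσ' ψ' g h x'
  rw [h1, map_add, Pi.add_apply, push_smul_fun hf A]

/-- **corestriction (transfer)** of characters, defined through the pushed-forward cocycle. -/
def corChar (ψ' : Additive Γ' →+ A) : Additive Γ →+ A :=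
  evalChar hΓ A (pushCoc (f := f) hΓ' hσ' A ψ') (pushCoc_mul hΓ' hσ' hf A ψ')

omit [IsDomain A] [CharZero A] in
/-- the transfer formula. -/
theorem corChar_apply (ψ' : Additive Γ' →+ A) (γ : Γ) :
    corChar hΓ hΓ' hσ' hf A ψ' (Additive.ofMul γ) =
      ∑ x' : X', if f x' = x₀ then ψ' (Additive.ofMul (kap hΓ' hσ' (γ : SL(2, ℤ)) x')) else 0 :=
  rfl

/-- **Shapiro commutes with corestriction.** -/
theorem shap_cor (ψ' : Additive Γ' →+ A) :
    (homOf hX htr hX' htr' hf).pushQ A (shap hX' htr' hΓ' hσ' A ψ') =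
      shap hX htr hΓ hσ A (corChar hΓ hΓ' hσ' hf A ψ') := by
  obtain ⟨⟨m1, h1⟩, ⟨m2, h2⟩⟩ :=
    (mem_range_theta_iff _ A _).1 (cocL_mem hX' htr' hΓ' hσ' A ψ')
  change (datumOf hX' htr').dS A m1 = dco hΓ' hσ' ψ' S at h1
  change (datumOf hX' htr').dR A m2 = dco hΓ' hσ' ψ' (S * T) at h2
  set F := homOf hX htr hX' htr' hf with hF
  have key := cocycle_eq_dco_add_cob hΓ hσ A (pushCoc (f := f) hΓ' hσ' A ψ')
    (pushCoc_mul hΓ' hσ' hf A ψ')
  set v : X → A := fun y => pushCoc (f := f) hΓ' hσ' A ψ' (σ y) x₀ with hv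
  rw [shap_eq hX' htr' hΓ' hσ' A ψ' m1 m2 h1 h2, Datum.Hom.pushQ_mk]
  have e1 : (datumOf hX htr).dS A (push A f m1 - v) =
      dco hΓ hσ (corChar hΓ hΓ' hσ' hf A ψ') S := by
    have hp : (datumOf hX htr).dS A (push A f m1) = push A f ((datumOf hX' htr').dS A m1) :=
      (F.push_dS A m1).symm
    rw [map_sub, hp, h1, dS_eq_cob]
    funext x
    have := key S x
    rw [Pi.sub_apply]
    unfold pushCoc at this
    rw [this]
    unfold corChar
    abel
  have e2 : (datumOf hX htr).dR A (push A f m2 - v) =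
      dco hΓ hσ (corChar hΓ hΓ' hσ' hf A ψ') (S * T) := by
    have hp : (datumOf hX htr).dR A (push A f m2) = push A f ((datumOf hX' htr').dR A m2) :=
      (F.push_dR A m2).symm
    rw [map_sub, hp, h2, dR_eq_cob]
    funext x
    have := key (S * T) x
    rw [Pi.sub_apply]
    unfold pushCoc at this
    rw [this]
    unfold corChar
    abel
  rw [shap_eq hX htr hΓ hσ A _ _ _ e1 e2]
  congr 1
  rw [map_sub]
  abel

include hΓ hΓ' hσ hσ' hf hf0 in
theorem shap_resChar_mem (ψ : Additive Γ →+ A)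
    (h : shap hX htr hΓ hσ A ψ ∈ LinearMap.range ((datumOf hX htr).j A)) :
    shap hX' htr' hΓ' hσ' A (resChar hΓ hΓ' hf hf0 ψ) ∈
      LinearMap.range ((datumOf hX' htr').j A) := by
  rw [← shap_res hX htr hX' htr' hΓ hΓ' hσ hσ' hf hf0 A ψ]
  exact ((homOf hX htr hX' htr' hf).pullH A ⟨_, h⟩).2

include hΓ hΓ' hσ hσ' hf in
theorem shap_corChar_mem (ψ' : Additive Γ' →+ A)
    (h' : shap hX' htr' hΓ' hσ' A ψ' ∈ LinearMap.range ((datumOf hX' htr').j A)) :
    shap hX htr hΓ hσ A (corChar hΓ hΓ' hσ' hf A ψ') ∈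
      LinearMap.range ((datumOf hX htr).j A) := by
  rw [← shap_cor hX htr hX' htr' hΓ hΓ' hσ hσ' hf A ψ']
  exact ((homOf hX htr hX' htr' hf).pushH A ⟨_, h'⟩).2

/-- **adjointness of restriction and corestriction for the Poincaré form**:
`B' (res ψ, ψ') = B (ψ, cor ψ')`. -/
theorem BH_res_cor (ψ : Additive Γ →+ A) (ψ' : Additive Γ' →+ A)
    (h : shap hX htr hΓ hσ A ψ ∈ LinearMap.range ((datumOf hX htr).j A))
    (h' : shap hX' htr' hΓ' hσ' A ψ' ∈ LinearMap.range ((datumOf hX' htr').j A)) :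
    (datumOf hX' htr').BH A
        ⟨_, shap_resChar_mem hX htr hX' htr' hΓ hΓ' hσ hσ' hf hf0 A ψ h⟩ ⟨_, h'⟩ =
      (datumOf hX htr).BH A ⟨_, h⟩
        ⟨_, shap_corChar_mem hX htr hX' htr' hΓ hΓ' hσ hσ' hf A ψ' h'⟩ := by
  have key := (homOf hX htr hX' htr' hf).BH_pullH A ⟨_, h⟩ ⟨_, h'⟩
  have e1 : (homOf hX htr hX' htr' hf).pullH A ⟨_, h⟩ =
      ⟨_, shap_resChar_mem hX htr hX' htr' hΓ hΓ' hσ hσ' hf hf0 A ψ h⟩ := by
    apply Subtype.ext
    exact shap_res hX htr hX' htr' hΓ hΓ' hσ hσ' hf hf0 A ψ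
  have e2 : (homOf hX htr hX' htr' hf).pushH A ⟨_, h'⟩ =
      ⟨_, shap_corChar_mem hX htr hX' htr' hΓ hΓ' hσ hσ' hf A ψ' h'⟩ := by
    apply Subtype.ext
    exact shap_cor hX htr hX' htr' hΓ hΓ' hσ hσ' hf A ψ'
  rw [← e1, ← e2]
  exact key

end ring

end

end Fermat.Agent.S41.PD.ShapiroFunct
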