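import Fermat.Agent.S41.PD.ShapiroX
import Fermat.Agent.S41.PD.ShapiroFunct
import Fermat.Agent.S41.Degen.Defs

/-!
# S41 / L5 ↔ L1 junction (J-a) : restriction and corestriction on `XMod`, adjoint for `BX`

`projPN N q : PN (N*q) → PN N` the projection, `homPN N q : Datum.Hom (DN (N*q)) (DN N)`,

* `shapN_resA` : `shapN (N*q) (resA c) = pullQ (shapN N c)`  (restriction = pull-back);
* `corCharN` : the transfer `Hom(Γ₀(Nq), A) → Hom(Γ₀(N), A)` (formula `corCharN_apply`),
  `shapN_corCharN` : `shapN N (corCharN c') = pushQ (shapN (N*q) c')`;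
* `corCharX : XMod (N*q) A A →ₗ[A] XMod N A A`;
* `BX_resAX_corCharX` : `BX (N*q) (resAX x) h = BX N x (corCharX h)`.
-/

set_option autoImplicit false
set_option linter.unusedSectionVars false

namespace Fermat.Agent.S41.PD.ResCorX

open scoped MatrixGroups
open CongruenceSubgroup ModularGroup Fermat.Agent.S41.PD.Core Fermat.Agent.S41.PD.Present
  Fermat.Agent.S41.PD.Shapiro Fermat.Agent.S41.PD.ShapiroPar Fermat.Agent.S41.PD.ShapiroX
  Fermat.Agent.S41.PD.ShapiroFunct Fermat.Agent.S29.Betti Fermat.Agent.S41.Degen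

noncomputable section

universe v

variable (N q : ℕ) [NeZero N] [NeZero (N * q)]

/-- the projection `SL(2,ℤ) ⧸ Γ₀(Nq) → SL(2,ℤ) ⧸ Γ₀(N)`. -/
def projPN : PN (N * q) → PN N := Subgroup.quotientMapOfLE (gamma0_mul_le N q)

theorem projPN_mk (g : SL(2, ℤ)) : projPN N q (PN.mk (N * q) g) = PN.mk N g := rfl

theorem projPN_smul (g : SL(2, ℤ)) (x' : PN (N * q)) :
    projPN N q (g • x') = g • projPN N q x' := by
  obtain ⟨h, rfl⟩ := PN.mk_surjective (N * q) x'
  rw [PN.smul_mk, projPN_mk, projPN_mk, PN.smul_mk]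

theorem projPN_base : projPN N q (PN.base (N * q)) = PN.base N := rfl

/-- the map of data `DN (N*q) → DN N`. -/
def homPN : Datum.Hom (DN (N * q)) (DN N) :=
  homOf (PN.neg_one_smul N) (PN.exists_smul_eq N) (PN.neg_one_smul (N * q))
    (PN.exists_smul_eq (N * q)) (projPN_smul N q)

variable (A : Type v) [CommRing A] [IsDomain A] [CharZero A]

/-- **(J-a)** restriction is pull-back. -/
theorem shapN_resA (c : Additive (Gamma0 N) →+ A) :
    shapN (N * q) A (resA N q A c) = (homPN N q).pullQ A (shapN N A c) :=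
  (shap_res (PN.neg_one_smul N) (PN.exists_smul_eq N) (PN.neg_one_smul (N * q))
    (PN.exists_smul_eq (N * q)) (PN.mem_iff N) (PN.mem_iff (N * q)) (PN.out_smul_base N)
    (PN.out_smul_base (N * q)) (projPN_smul N q) (projPN_base N q) A c).symm

/-- the transfer `Hom(Γ₀(Nq), A) → Hom(Γ₀(N), A)`. -/
def corCharN (c' : Additive (Gamma0 (N * q)) →+ A) : Additive (Gamma0 N) →+ A :=
  corChar (PN.mem_iff N) (PN.mem_iff (N * q)) (PN.out_smul_base (N * q)) (projPN_smul N q) A c'

/-- the transfer formula. -/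
theorem corCharN_apply (c' : Additive (Gamma0 (N * q)) →+ A) (γ : Gamma0 N) :
    corCharN N q A c' (Additive.ofMul γ) =
      ∑ x' : PN (N * q), if projPN N q x' = PN.base N then
        c' (Additive.ofMul (kap (PN.mem_iff (N * q)) (PN.out_smul_base (N * q))
          (γ : SL(2, ℤ)) x')) else 0 := rfl

/-- corestriction is push-forward. -/
theorem shapN_corCharN (c' : Additive (Gamma0 (N * q)) →+ A) :
    shapN N A (corCharN N q A c') = (homPN N q).pushQ A (shapN (N * q) A c') :=
  (shap_cor (PN.neg_one_smul N) (PN.exists_smul_eq N) (PN.neg_one_smul (N * q))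
    (PN.exists_smul_eq (N * q)) (PN.mem_iff N) (PN.mem_iff (N * q)) (PN.out_smul_base N)
    (PN.out_smul_base (N * q)) (projPN_smul N q) A c').symm

theorem corCharN_add (c₁ c₂ : Additive (Gamma0 (N * q)) →+ A) :
    corCharN N q A (c₁ + c₂) = corCharN N q A c₁ + corCharN N q A c₂ := by
  apply AddMonoidHom.ext
  intro γ
  obtain ⟨γ, rfl⟩ := Additive.ofMul.surjective γ
  rw [AddMonoidHom.add_apply, corCharN_apply, corCharN_apply, corCharN_apply,
    ← Finset.sum_add_distrib]
  apply Finset.sum_congr rfl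
  intro x' _
  split_ifs
  · rfl
  · rw [add_zero]

theorem corCharN_smul (a : A) (c' : Additive (Gamma0 (N * q)) →+ A) :
    corCharN N q A (a • c') = a • corCharN N q A c' := by
  apply AddMonoidHom.ext
  intro γ
  obtain ⟨γ, rfl⟩ := Additive.ofMul.surjective γ
  rw [AddMonoidHom.smul_apply, corCharN_apply, corCharN_apply, Finset.smul_sum]
  apply Finset.sum_congr rfl
  intro x' _
  split_ifs
  · rfl
  · rw [smul_zero]

theorem corCharN_mem {c' : Additive (Gamma0 (N * q)) →+ A} (hc' : c' ∈ XMod (N * q) A A) :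
    corCharN N q A c' ∈ XMod N A A := by
  rw [mem_XMod_iff_d, shapN_corCharN, ← LinearMap.mem_ker, ← (DN N).range_j_eq_ker_d A]
  have h1 : shapN (N * q) A c' ∈ LinearMap.range ((DN (N * q)).j A) := by
    rw [(DN (N * q)).range_j_eq_ker_d A, LinearMap.mem_ker, ← mem_XMod_iff_d]
    exact hc'
  exact ((homPN N q).pushH A ⟨_, h1⟩).2

/-- **corestriction on `XMod`** (the transfer). -/
def corCharX : XMod (N * q) A A →ₗ[A] XMod N A A where
  toFun c' := ⟨corCharN N q A c'.1, corCharN_mem N q A c'.2⟩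
  map_add' c₁ c₂ := Subtype.ext (corCharN_add N q A c₁.1 c₂.1)
  map_smul' a c' := Subtype.ext (corCharN_smul N q A a c'.1)

@[simp] theorem corCharX_coe (c' : XMod (N * q) A A) :
    ((corCharX N q A c' : XMod N A A) : Additive (Gamma0 N) →+ A) = corCharN N q A c'.1 := rfl

/-- **adjointness of restriction and corestriction for the Poincaré pairing.** -/
theorem BX_resAX_corCharX (x : XMod N A A) (h : XMod (N * q) A A) :
    BX (N * q) A (resAX N q A A x) h = BX N A x (corCharX N q A h) := by
  rw [BX_apply, BX_apply]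
  have e1 : shapJ (N * q) A (resAX N q A A x) = (homPN N q).pullH A (shapJ N A x) := by
    apply Subtype.ext
    rw [shapJ_coe, resAX_coe, shapN_resA]
    rfl
  have e2 : shapJ N A (corCharX N q A h) = (homPN N q).pushH A (shapJ (N * q) A h) := by
    apply Subtype.ext
    rw [shapJ_coe, corCharX_coe, shapN_corCharN]
    rfl
  rw [e1, e2]
  exact (homPN N q).BH_pullH A _ _

end

end Fermat.Agent.S41.PD.ResCorX
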