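import Fermat.Agent.S41.PD.CuspFormula
import Fermat.Agent.S41.PD.ShapiroX

/-!
# S41 / L5 (PD6 bridge): the abstract cusp formula on `Γ₀(N)`

Instantiation of the abstract `CuspFormula.Setup` for `G = SL(2,ℤ)`, `Γ = Γ₀(N)`
(`gS = S`, `gU = S T`, `ζ = -1`, `D = DN N`), the translation `XMod N A A ↔ IsAdm`, the comparison
of the two Shapiro cocycles, and the resulting formula
`BX N A c c' = - ∑_y cc (κ(gT, y))` for any cup primitive `cc` of `(c, c')`.
-/

set_option autoImplicit false
set_option linter.unusedSectionVars false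

namespace Fermat.Agent.S41.PD.SetupN

open scoped MatrixGroups
open CongruenceSubgroup ModularGroup Fermat.Agent.S41.PD.Core Fermat.Agent.S41.PD.Present
  Fermat.Agent.S41.PD.Shapiro Fermat.Agent.S41.PD.ShapiroPar Fermat.Agent.S41.PD.ShapiroX
  Fermat.Agent.S41.PD.ShapiroSec Fermat.Agent.S41.PD.CuspFormula Fermat.Agent.S29.Betti

noncomputable section

universe v

variable (N : ℕ) [NeZero N]

/-- the `Fintype` structure of `PN N` on the quotient. -/
local instance instFintypeQuot : Fintype (SL(2, ℤ) ⧸ Gamma0 N) := instFintypePN N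

/-- the `DecidableEq` structure of `PN N` on the quotient. -/
local instance instDecEqQuot : DecidableEq (SL(2, ℤ) ⧸ Gamma0 N) := instDecidableEqPN N

/-- the section `PN.out`. -/
def secN : Sec (Gamma0 N) where
  σ := PN.out N
  mk_σ := PN.mk_out N

/-- the setup `(S, S T, -1)` on `SL(2,ℤ) ⧸ Γ₀(N)`. -/
def setupN : Setup (Gamma0 N) where
  D := DN N
  gS := S
  gU := S * T
  ζ := -1
  hS := rfl
  hU := rfl
  hζc := fun g => by simp
  hζΓ := neg_one_mem_Gamma0 N
  hζ2 := by simp
  hS2 := S_mul_S_SL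
  hU3 := U_cube_SL

theorem setupN_D : (setupN N).D = DN N := rfl

theorem setupN_gT : (setupN N).gT = tauP := rfl

/-- the trace of a power of `tauP` has square `4`. -/
theorem trace_tauP_pow_sq (n : ℕ) :
    ((tauP ^ n : SL(2, ℤ)) : Matrix (Fin 2) (Fin 2) ℤ).trace ^ 2 = 4 := by
  rw [tauP_eq_neg_tauQ, neg_pow]
  rcases neg_one_pow_eq_or (SL(2, ℤ)) n with h | h
  · rw [h, one_mul, trace_tauQ_pow]
    norm_num
  · rw [h, neg_one_mul, Matrix.SpecialLinearGroup.coe_neg, Matrix.trace_neg, trace_tauQ_pow]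
    norm_num

variable {N}

/-- admissible characters are admissible functions for `setupN`. -/
theorem isAdm_of_isAdmChar {A : Type v} [CommRing A] {c : Additive (Gamma0 N) →+ A}
    (hc : IsAdmChar c) : (setupN N).IsAdm (fun g : Gamma0 N => c (Additive.ofMul g)) where
  add a b := by rw [ofMul_mul, map_add]
  zeta := by
    apply hc
    left
    change ((-1 : SL(2, ℤ)) : Matrix (Fin 2) (Fin 2) ℤ).trace ^ 2 = 4
    rw [Matrix.SpecialLinearGroup.coe_neg, Matrix.trace_neg, Matrix.SpecialLinearGroup.coe_one,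
      Matrix.trace_one]
    norm_num
  par h n hm := by
    apply hc
    left
    change ((h⁻¹ * tauP ^ n * h : SL(2, ℤ)) : Matrix (Fin 2) (Fin 2) ℤ).trace ^ 2 = 4
    rw [trace_conj, trace_tauP_pow_sq]

/-- the two Shapiro cocycles agree. -/
theorem shap_secN {A : Type v} [CommRing A] (c : Additive (Gamma0 N) →+ A) (g : SL(2, ℤ)) :
    shap (secN N) (fun γ : Gamma0 N => c (Additive.ofMul γ)) g = dcoN N A c g := by
  funext y
  rw [shap_apply]
  unfold dcoN dco
  congr 2
  apply Subtype.ext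
  rw [Sec.kap_coe]
  change _ = ((PN.out N (g • y))⁻¹ * g * PN.out N y : SL(2, ℤ))
  rw [mul_assoc]
  rfl

section main

variable (A : Type v) [CommRing A] [IsDomain A] [CharZero A]

/-- the function on `Γ₀(N)` underlying a character. -/
def fn (c : Additive (Gamma0 N) →+ A) : Gamma0 N → A := fun γ => c (Additive.ofMul γ)

theorem fn_apply (c : Additive (Gamma0 N) →+ A) (γ : Gamma0 N) :
    fn A c γ = c (Additive.ofMul γ) := rfl

theorem isAdm_fn (c : XMod N A A) : (setupN N).IsAdm (fn A c.1) :=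
  isAdm_of_isAdmChar c.2

/-- the Shapiro cocycle of a character at `S` is a coboundary of `S`. -/
theorem exists_dS_eq (c : Additive (Gamma0 N) →+ A) :
    ∃ m1 : PN N → A, (DN N).dS A m1 = dcoN N A c S := by
  have h : dcoN N A c S ∈ LinearMap.range ((DN N).dS A) := by
    rw [← (DN N).ker_NS_eq_range_dS A (two_ne_zero_A A), Datum.mem_ker_NS_iff]
    intro p
    exact dco_S_rel (PN.neg_one_smul N) (PN.mem_iff N) (PN.out_smul_base N) A c p
  exact h

/-- the Shapiro cocycle of a character at `S T` is a coboundary of `S T`. -/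
theorem exists_dR_eq (c : Additive (Gamma0 N) →+ A) :
    ∃ m2 : PN N → A, (DN N).dR A m2 = dcoN N A c (S * T) := by
  have h : dcoN N A c (S * T) ∈ LinearMap.range ((DN N).dR A) := by
    rw [← (DN N).ker_NR_eq_range_dR A (three_ne_zero_A A), Datum.mem_ker_NR_iff]
    intro p
    exact dco_U_rel (PN.neg_one_smul N) (PN.mem_iff N) (PN.out_smul_base N) A c p
  exact h

/-- the compactly supported representative `x_c` attached to the adapted section. -/
def xN (s₀ : Sec (Gamma0 N)) (c : XMod N A A) : (DN N).Zsub A :=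
  ⟨(setupN N).xOf s₀ (fn A c.1),
    (setupN N).xOf_mem s₀ (isAdm_fn A c) (two_ne_zero_A A) (three_ne_zero_A A)⟩

/-- `j x_c` is the Shapiro class of `c`. -/
theorem j_xN (s₀ : Sec (Gamma0 N)) (c : XMod N A A) :
    (DN N).j A (xN A s₀ c) = shapN N A c.1 := by
  obtain ⟨m1, h1⟩ := exists_dS_eq A c.1
  obtain ⟨m2, h2⟩ := exists_dR_eq A c.1
  rw [shapN_eq N A c.1 m1 m2 h1 h2]
  exact (setupN N).j_xOf_eq s₀ (two_ne_zero_A A) (three_ne_zero_A A) (isAdm_fn A c) (secN N) m1 m2
    (h1.trans (shap_secN c.1 S).symm) (h2.trans (shap_secN c.1 (S * T)).symm)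

/-- **The Poincaré pairing `BX` is minus the cusp sum of any cup primitive.** -/
theorem BX_eq_neg_csum (s₀ : Sec (Gamma0 N)) (c c' : XMod N A A) (cc : Gamma0 N → A)
    (hcc : ∀ a b : Gamma0 N, cc (a * b) = cc a + cc b +
      c.1 (Additive.ofMul a) * c'.1 (Additive.ofMul b)) :
    BX N A c c' = - csum (adSec s₀ tauP) cc tauP := by
  rw [BX_eq_pair N A c c' (xN A s₀ c) (xN A s₀ c') (j_xN A s₀ c) (j_xN A s₀ c')]
  exact (setupN N).pair_eq_neg_csum s₀ (two_ne_zero_A A) (three_ne_zero_A A) (isAdm_fn A c)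
    (isAdm_fn A c') hcc

end main

end

end Fermat.Agent.S41.PD.SetupN
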