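import Fermat.Agent.S41.PD.ShapiroX
import Fermat.Agent.S41.PD.CuspFormula
import Fermat.Agent.S41.PD.CupPrim

/-!
# S41 / L5 (PD6 support) : the cusp-sum formula for the pairing `BX` on `XMod M A A`

Instantiation of `CuspFormula.Setup` for `Γ = Γ₀(M)` on `SL(2,ℤ) ⧸ Γ₀(M)` (instances of `PN M`),
`gS = S`, `gU = S T`, `ζ = -1`, `D = DN M`:

* `setupX M : Setup (Gamma0 M)`;
* `isAdm_of_mem_XMod` : elements of `XMod M A A` are admissible;
* `BX_eq_neg_csum` : `BX M A φ ψ = - csum (adSec s₀ gT) c gT` for every cup primitive `c`.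
-/

set_option autoImplicit false
set_option linter.unusedSectionVars false

namespace Fermat.Agent.S41.PD.SetupX

open scoped MatrixGroups
open CongruenceSubgroup ModularGroup Fermat.Agent.S41.PD.Core Fermat.Agent.S41.PD.Present
  Fermat.Agent.S41.PD.Shapiro Fermat.Agent.S41.PD.ShapiroPar Fermat.Agent.S41.PD.ShapiroX
  Fermat.Agent.S41.PD.ShapiroSec Fermat.Agent.S41.PD.CuspFormula Fermat.Agent.S29.Betti

noncomputable section

universe v

variable (M : ℕ) [NeZero M]

/-- the `Fintype` instance of `PN M`, on the raw quotient. -/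
@[reducible] def fintypeQuot : Fintype (SL(2, ℤ) ⧸ Gamma0 M) := instFintypePN M

/-- the `DecidableEq` instance of `PN M`, on the raw quotient. -/
@[reducible] def decEqQuot : DecidableEq (SL(2, ℤ) ⧸ Gamma0 M) := instDecidableEqPN M

attribute [local instance] fintypeQuot decEqQuot

/-- the datum `DN M`, on the raw quotient. -/
def DQ : Datum (SL(2, ℤ) ⧸ Gamma0 M) := DN M

/-- **the setup for `Γ₀(M)`**. -/
def setupX : Setup (Gamma0 M) where
  D := DQ M
  gS := S
  gU := S * T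
  ζ := -1
  hS := rfl
  hU := rfl
  hζc g := by rw [mul_neg_one, neg_one_mul]
  hζΓ := neg_one_mem_Gamma0 M
  hζ2 := by rw [neg_mul_neg, one_mul]
  hS2 := S_mul_S_SL
  hU3 := U_cube_SL

theorem setupX_gT : (setupX M).gT = tauP := rfl

/-- the section `PN.out`. -/
def outSecX : Sec (Gamma0 M) where
  σ := PN.out M
  mk_σ := PN.mk_out M

variable (A : Type v) [CommRing A]

/-- a character as a plain function. -/
def funOf (c : Additive (Gamma0 M) →+ A) : Gamma0 M → A := fun γ => c (Additive.ofMul γ)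

theorem funOf_mul (c : Additive (Gamma0 M) →+ A) (a b : Gamma0 M) :
    funOf M A c (a * b) = funOf M A c a + funOf M A c b := by
  unfold funOf
  rw [ofMul_mul, map_add]

theorem trace_tauP_sq : ((tauP : SL(2, ℤ)) : Matrix (Fin 2) (Fin 2) ℤ).trace ^ 2 = 4 := by
  decide

/-- elements of `XMod` are admissible for `setupX`. -/
theorem isAdm_of_mem_XMod {c : Additive (Gamma0 M) →+ A} (hc : c ∈ XMod M A A) :
    (setupX M).IsAdm (funOf M A c) where
  add := funOf_mul M A c
  zeta := by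
    apply hc
    left
    change (((-1 : SL(2, ℤ))) : Matrix (Fin 2) (Fin 2) ℤ).trace ^ 2 = 4
    decide
  par h n hm := by
    apply hc
    left
    change ((h⁻¹ * (setupX M).gT ^ n * h : SL(2, ℤ)) : Matrix (Fin 2) (Fin 2) ℤ).trace ^ 2 = 4
    rw [trace_conj, setupX_gT]
    exact trace_sq_pow_SL trace_tauP_sq n

/-- the Shapiro cocycles of `Shapiro` and `ShapiroSec` agree. -/
theorem dcoN_eq_shap (c : Additive (Gamma0 M) →+ A) (g : SL(2, ℤ)) :
    dco (PN.mem_iff M) (PN.out_smul_base M) c g =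
      ShapiroSec.shap (outSecX M) (funOf M A c) g := by
  funext x
  unfold dco ShapiroSec.shap funOf
  congr 2
  apply Subtype.ext
  change (PN.out M (g • x))⁻¹ * g * PN.out M x = (PN.out M (g • x))⁻¹ * (g * PN.out M x)
  rw [mul_assoc]

variable [IsDomain A] [CharZero A]

/-- **The Poincaré pairing on `XMod M A A` is minus the cusp sum of a cup primitive.** -/
theorem BX_eq_neg_csum (φ ψ : XMod M A A) (c : Gamma0 M → A)
    (hc : ∀ a b, c (a * b) = c a + c b + funOf M A φ.1 a * funOf M A ψ.1 b)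
    (s₀ : Sec (Gamma0 M)) :
    BX M A φ ψ = - csum (adSec s₀ (setupX M).gT) c (setupX M).gT := by
  have h2 : (2 : A) ≠ 0 := by norm_num
  have h3 : (3 : A) ≠ 0 := by norm_num
  have hφ := isAdm_of_mem_XMod M A φ.2
  have hψ := isAdm_of_mem_XMod M A ψ.2
  have hj : ∀ (χ : XMod M A A) (hχ : (setupX M).IsAdm (funOf M A χ.1)),
      (DN M).j A ⟨(setupX M).xOf s₀ (funOf M A χ.1), (setupX M).xOf_mem s₀ hχ h2 h3⟩ =
        shapN M A χ.1 := by
    intro χ hχ
    obtain ⟨⟨m1, h1⟩, ⟨m2, h2'⟩⟩ := (mem_range_theta_iff _ A _).1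
      (cocL_mem (PN.neg_one_smul M) (PN.exists_smul_eq M) (PN.mem_iff M) (PN.out_smul_base M) A χ.1)
    have e1 : (DN M).dS A m1 = dcoN M A χ.1 S := h1
    have e2 : (DN M).dR A m2 = dcoN M A χ.1 (S * T) := h2'
    rw [shapN_eq M A χ.1 m1 m2 e1 e2]
    refine (setupX M).j_xOf_eq s₀ h2 h3 hχ (outSecX M) m1 m2 ?_ ?_
    · rw [← dcoN_eq_shap]
      exact e1
    · rw [← dcoN_eq_shap]
      exact e2
  rw [BX_eq_pair M A φ ψ _ _ (hj φ hφ) (hj ψ hψ)]
  exact (setupX M).pair_eq_neg_csum s₀ h2 h3 hφ hψ hc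

/-- existence of a cup primitive together with the cusp-sum formula. -/
theorem exists_BX_eq_neg_csum (φ ψ : XMod M A A) (s₀ : Sec (Gamma0 M)) :
    ∃ c : Gamma0 M → A,
      (∀ a b, c (a * b) = c a + c b + funOf M A φ.1 a * funOf M A ψ.1 b) ∧
      BX M A φ ψ = - csum (adSec s₀ (setupX M).gT) c (setupX M).gT := by
  have h2 : ∀ a : A, 2 * a = 0 → a = 0 := fun a ha =>
    (mul_eq_zero.mp ha).resolve_left (by norm_num)
  have h3 : ∀ a : A, 3 * a = 0 → a = 0 := fun a ha =>
    (mul_eq_zero.mp ha).resolve_left (by norm_num)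
  obtain ⟨c, hc⟩ := Fermat.Agent.S41.PD.CupPrim.exists_cupPrim (neg_one_mem_Gamma0 M) h2 h3
    (funOf M A φ.1) (funOf M A ψ.1) (funOf_mul M A φ.1) (funOf_mul M A ψ.1)
    (isAdm_of_mem_XMod M A φ.2).zeta (isAdm_of_mem_XMod M A ψ.2).zeta
  exact ⟨c, hc, BX_eq_neg_csum M A φ ψ c hc s₀⟩

end

end Fermat.Agent.S41.PD.SetupX
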