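import Fermat.Agent.S41.PD.Dual

/-!
# S41 / L5 : `range j = ker d` (PD3) and the unimodular skew form on `range j` (PD5)
-/

set_option autoImplicit false
set_option linter.unusedSectionVars false

namespace Fermat.Agent.S41.PD.Core

open Module

universe u v

/-! ### Coinvariants of a permutation module are torsion-free -/

section CycleSum

variable {P : Type u} [Fintype P] [DecidableEq P]
variable (A : Type v) [CommRing A] [IsDomain A]

lemma apply_zpow_eq {X : Type*} (t : Equiv.Perm P) (f : P → X) (hf : ∀ p, f (t p) = f p)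
    (i : ℤ) : ∀ p : P, f ((t ^ i) p) = f p := by
  have hinv : ∀ p, f (t⁻¹ p) = f p := fun p => by
    rw [← hf (t⁻¹ p)]; simp
  induction i using Int.induction_on with
  | zero => intro p; simp
  | succ n ih => intro p; rw [zpow_add_one, Equiv.Perm.mul_apply, ih, hf]
  | pred n ih => intro p; rw [zpow_sub_one, Equiv.Perm.mul_apply, ih, hinv]

/-- `(P → A) ⧸ (op t - 1)(P → A)` is torsion-free. -/
theorem coinv_smul_eq_zero (t : Equiv.Perm P) (a : A)
    (q : (P → A) ⧸ LinearMap.range (op A t - LinearMap.id)) (h : a • q = 0) : a = 0 ∨ q = 0 := by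
  by_cases ha : a = 0
  · exact Or.inl ha
  right
  obtain ⟨m, rfl⟩ := Submodule.Quotient.mk_surjective _ q
  rw [← Submodule.Quotient.mk_smul, Submodule.Quotient.mk_eq_zero] at h
  rw [Submodule.Quotient.mk_eq_zero]
  obtain ⟨y, hy⟩ := h
  have hy' : ∀ p, y (t p) - y p = a * m p := fun p => by
    have := congrFun hy p
    simpa using this
  -- orbit representatives
  let rep : P → P := fun p => (Quotient.mk (Equiv.Perm.SameCycle.setoid t) p).out
  have hrep : ∀ p, Equiv.Perm.SameCycle t (rep p) p := fun p =>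
    Quotient.exact (Quotient.out_eq (Quotient.mk (Equiv.Perm.SameCycle.setoid t) p))
  have hrept : ∀ p, rep (t p) = rep p := fun p => by
    have : (Quotient.mk (Equiv.Perm.SameCycle.setoid t) (t p)) =
        Quotient.mk (Equiv.Perm.SameCycle.setoid t) p :=
      Quotient.sound (⟨-1, by simp⟩ : Equiv.Perm.SameCycle t (t p) p)
    show (Quotient.mk (Equiv.Perm.SameCycle.setoid t) (t p)).out = _
    rw [this]
  -- `y` is constant on cycles modulo `a`
  have hmod : ∀ p, Ideal.Quotient.mk (Ideal.span {a}) (y (t p)) =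
      Ideal.Quotient.mk (Ideal.span {a}) (y p) := fun p => by
    rw [← sub_eq_zero, ← map_sub, hy', Ideal.Quotient.eq_zero_iff_mem]
    exact Ideal.mul_mem_right _ _ (Ideal.mem_span_singleton_self a)
  have hdiv : ∀ p, ∃ c, y p - y (rep p) = a * c := fun p => by
    obtain ⟨i, hi⟩ := hrep p
    have := apply_zpow_eq t (fun p => Ideal.Quotient.mk (Ideal.span {a}) (y p)) hmod i (rep p)
    rw [hi] at this
    rw [← sub_eq_zero, ← map_sub, Ideal.Quotient.eq_zero_iff_mem, Ideal.mem_span_singleton'] at this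
    obtain ⟨c, hc⟩ := this
    exact ⟨c, by rw [← hc, mul_comm]⟩
  choose y' hy'' using hdiv
  refine ⟨y', ?_⟩
  ext p
  apply mul_left_cancel₀ ha
  show a * (((op A t - LinearMap.id : (P → A) →ₗ[A] (P → A)) y') p) = a * m p
  simp only [LinearMap.sub_apply, LinearMap.id_apply, op_apply, Pi.sub_apply]
  rw [mul_sub, ← hy'', ← hy'', hrept, ← hy']
  ring

end CycleSum

namespace Datum

variable {P : Type u} [Fintype P] [DecidableEq P] (D : Datum P)
variable (A : Type v) [CommRing A]

lemma T_eq_op : D.T A = op A (D.r * D.s) := by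
  rw [op_mul]

/-! ### PD3 : `range j = ker d` -/

/-- **PD3**: `range j = ker d`. -/
theorem range_j_eq_ker_d : LinearMap.range (D.j A) = LinearMap.ker (D.d A) := by
  apply le_antisymm
  · rintro _ ⟨x, rfl⟩
    obtain ⟨⟨m1, h1⟩, ⟨m2, h2⟩⟩ := x.2
    rw [LinearMap.mem_ker, D.j_eq A x m1 m2 h1 h2, d_mk, Submodule.Quotient.mk_eq_zero]
    refine ⟨-m2, ?_⟩
    have hx := D.NS_eq_zero_of_mem_Zsub A x.2
    rw [← h1] at hx
    have h12 : D.S A m1 - m1 = D.R A m2 - m2 := by
      have e1 : D.dS A m1 = D.S A m1 - m1 := rfl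
      have e2 : D.dR A m2 = D.R A m2 - m2 := rfl
      rw [← e1, ← e2, h1, h2]
    have hx' : (D.S A m1 - m1) + D.S A (D.S A m1 - m1) = 0 := hx
    simp only [T, LinearMap.sub_apply, LinearMap.comp_apply, LinearMap.id_apply, map_neg, map_sub]
    -- goal: -(S (R m2)) - -m2 = m2 - m1 - (S m2 - S m1)
    have key : D.S A (D.R A m2) = D.S A m2 + D.S A (D.S A m1 - m1) := by
      rw [h12, map_sub]; abel
    rw [key]
    have : D.S A (D.S A m1 - m1) = - (D.S A m1 - m1) := eq_neg_of_add_eq_zero_right hx'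
    rw [this]
    abel
  · intro q hq
    obtain ⟨m, rfl⟩ := Submodule.Quotient.mk_surjective _ q
    rw [LinearMap.mem_ker, d_mk, Submodule.Quotient.mk_eq_zero] at hq
    obtain ⟨a', ha'⟩ := hq
    have h1 : D.S A (D.R A a') - a' = m - D.S A m := by
      simpa [T] using ha'
    have h2 : D.R A a' - D.S A a' = D.S A m - m := by
      have := congrArg (D.S A) h1
      rwa [map_sub, map_sub, D.S_S, D.S_S] at this
    -- `x = a - S a`, `a = m + a'`
    have hxS : D.dS A (-(m + a')) = (m + a') - D.S A (m + a') := by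
      simp only [dS, LinearMap.sub_apply, LinearMap.id_apply, map_neg]
      abel
    have hxR : D.dR A (-a') = (m + a') - D.S A (m + a') := by
      simp only [dR, LinearMap.sub_apply, LinearMap.id_apply, map_neg, map_add]
      have : D.R A a' = D.S A m - m + D.S A a' := by rw [← h2]; abel
      rw [this]; abel
    have hx : (m + a') - D.S A (m + a') ∈ D.Zsub A := ⟨⟨_, hxS⟩, ⟨_, hxR⟩⟩
    refine ⟨⟨_, hx⟩, ?_⟩
    rw [D.j_eq A ⟨_, hx⟩ (-(m + a')) (-a') hxS hxR]
    congr 1
    abel

/-! ### PD5 : the unimodular skew form on `H = range j` -/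

/-- the map `Z → Hom(H, A)`, `x ↦ ⟨x, ·⟩`. -/
noncomputable def pairH : D.Zsub A →ₗ[A] Module.Dual A (LinearMap.range (D.j A)) :=
  (LinearMap.lcomp A A (LinearMap.range (D.j A)).subtype) ∘ₗ D.pair A

@[simp] lemma pairH_apply (x : D.Zsub A) (h : LinearMap.range (D.j A)) :
    D.pairH A x h = D.pair A x (h : D.Q A) := rfl

lemma ker_j_le_ker_pairH : LinearMap.ker (D.j A) ≤ LinearMap.ker (D.pairH A) := by
  intro x hx
  rw [LinearMap.mem_ker] at hx ⊢
  ext ⟨_, x', rfl⟩
  rw [pairH_apply, LinearMap.zero_apply]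
  have := D.pair_j_skew A x x'
  rw [hx, map_zero, add_zero] at this
  exact this

/-- **PD5**: the form `B_H` on `H = range j`, as a map `H → Hom(H, A)`:
`B_H (j x) (j x') = ⟨x, j x'⟩`. -/
noncomputable def BH : LinearMap.range (D.j A) →ₗ[A] Module.Dual A (LinearMap.range (D.j A)) :=
  (LinearMap.ker (D.j A)).liftQ (D.pairH A) (D.ker_j_le_ker_pairH A) ∘ₗ
    (D.j A).quotKerEquivRange.symm.toLinearMap

theorem BH_j (x x' : D.Zsub A) :
    D.BH A ((D.j A).rangeRestrict x) ((D.j A).rangeRestrict x') = D.pair A x (D.j A x') := by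
  have hq : (D.j A).quotKerEquivRange.symm ((D.j A).rangeRestrict x) =
      Submodule.Quotient.mk x := by
    rw [LinearEquiv.symm_apply_eq]; rfl
  simp only [BH, LinearMap.comp_apply, LinearEquiv.coe_coe, hq]
  rfl

theorem BH_skew (h h' : LinearMap.range (D.j A)) : D.BH A h h' + D.BH A h' h = 0 := by
  obtain ⟨_, x, rfl⟩ := h
  obtain ⟨_, x', rfl⟩ := h'
  have e1 := D.BH_j A x x'
  have e2 := D.BH_j A x' x
  have : ∀ y : D.Zsub A, (⟨D.j A y, y, rfl⟩ : LinearMap.range (D.j A)) =
      (D.j A).rangeRestrict y := fun y => rfl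
  rw [this x, this x', e1, e2]
  exact D.pair_j_skew A x x'

variable [IsDomain A]

theorem BH_injective (h2 : (2 : A) ≠ 0) (h3 : (3 : A) ≠ 0) [IsPrincipalIdealRing A] :
    Function.Injective (D.BH A) := by
  rw [← LinearMap.ker_eq_bot, LinearMap.ker_eq_bot']
  rintro ⟨_, x, rfl⟩ hx
  -- `⟨x', j x⟩ = 0` for all `x'`, so every functional kills `j x`
  have h0 : ∀ x' : D.Zsub A, D.pair A x' (D.j A x) = 0 := by
    intro x'
    have := D.pair_j_skew A x x'
    have hb : D.pair A x (D.j A x') = 0 := by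
      have := LinearMap.congr_fun hx ((D.j A).rangeRestrict x')
      rw [show (⟨D.j A x, x, rfl⟩ : LinearMap.range (D.j A)) = (D.j A).rangeRestrict x from rfl,
        D.BH_j A x x'] at this
      simpa using this
    rw [hb, zero_add] at this
    exact this
  have hfun : ∀ l : Module.Dual A (D.Q A), l (D.j A x) = 0 := by
    intro l
    obtain ⟨x', rfl⟩ := D.pair_surjective A h2 h3 l
    exact h0 x'
  have := D.Q_free A
  have hz : D.j A x = 0 := (Module.forall_dual_apply_eq_zero_iff A (D.j A x)).1 hfun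
  apply Subtype.ext
  exact hz


/-- `M ⧸ (T-1)M` is torsion-free. -/
theorem coinvT_smul_eq_zero (a : A) :
    ∀ q : (P → A) ⧸ LinearMap.range (D.T A - LinearMap.id), a • q = 0 → a = 0 ∨ q = 0 := by
  rw [D.T_eq_op A]
  exact coinv_smul_eq_zero A (D.r * D.s) a

/-- `H = range j` is saturated in `Q`. -/
theorem range_j_saturated (a : A) (q : D.Q A) (h : a • q ∈ LinearMap.range (D.j A)) :
    a = 0 ∨ q ∈ LinearMap.range (D.j A) := by
  rw [D.range_j_eq_ker_d A, LinearMap.mem_ker, map_smul] at h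
  rw [D.range_j_eq_ker_d A, LinearMap.mem_ker]
  exact D.coinvT_smul_eq_zero A a _ h

instance instIsTorsionFreeQuot :
    Module.IsTorsionFree A (D.Q A ⧸ LinearMap.range (D.j A)) :=
  Module.IsTorsionFree.of_smul_eq_zero fun a q h => by
    obtain ⟨q, rfl⟩ := Submodule.Quotient.mk_surjective _ q
    rw [← Submodule.Quotient.mk_smul, Submodule.Quotient.mk_eq_zero] at h
    rw [Submodule.Quotient.mk_eq_zero]
    exact D.range_j_saturated A a q h

/-- every functional on `H = range j` extends to `Q` (`H` is a direct summand). -/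
theorem exists_extension [IsPrincipalIdealRing A] (l : Module.Dual A (LinearMap.range (D.j A))) :
    ∃ L : Module.Dual A (D.Q A), ∀ h : LinearMap.range (D.j A), L (h : D.Q A) = l h := by
  have hfree : Module.Free A (D.Q A ⧸ LinearMap.range (D.j A)) :=
    Module.free_of_finite_type_torsion_free'
  obtain ⟨σ, hσ⟩ := Module.projective_lifting_property (LinearMap.range (D.j A)).mkQ
    LinearMap.id (Submodule.mkQ_surjective _)
  -- the retraction `ρ = id - σ ∘ mkQ`
  have hρ : ∀ q : D.Q A, q - σ ((LinearMap.range (D.j A)).mkQ q) ∈ LinearMap.range (D.j A) := by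
    intro q
    rw [← Submodule.Quotient.mk_eq_zero, Submodule.Quotient.mk_sub]
    have := LinearMap.congr_fun hσ ((LinearMap.range (D.j A)).mkQ q)
    simp only [LinearMap.comp_apply, LinearMap.id_apply] at this
    rw [← Submodule.mkQ_apply, ← Submodule.mkQ_apply, this, sub_self]
  let ρ : D.Q A →ₗ[A] LinearMap.range (D.j A) :=
    LinearMap.codRestrict _ (LinearMap.id - σ ∘ₗ (LinearMap.range (D.j A)).mkQ) hρ
  refine ⟨l ∘ₗ ρ, fun h => ?_⟩
  rw [LinearMap.comp_apply]
  congr 1
  apply Subtype.ext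
  show (h : D.Q A) - σ ((LinearMap.range (D.j A)).mkQ (h : D.Q A)) = h
  have : (LinearMap.range (D.j A)).mkQ (h : D.Q A) = 0 := by
    rw [Submodule.mkQ_apply, Submodule.Quotient.mk_eq_zero]; exact h.2
  rw [this, map_zero, sub_zero]

theorem BH_surjective (h2 : (2 : A) ≠ 0) (h3 : (3 : A) ≠ 0) [IsPrincipalIdealRing A] :
    Function.Surjective (D.BH A) := by
  intro l
  obtain ⟨L, hL⟩ := D.exists_extension A l
  obtain ⟨x, hx⟩ := D.pair_surjective A h2 h3 L
  refine ⟨(D.j A).rangeRestrict x, ?_⟩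
  apply LinearMap.ext
  rintro ⟨_, x', rfl⟩
  rw [show (⟨D.j A x', x', rfl⟩ : LinearMap.range (D.j A)) = (D.j A).rangeRestrict x' from rfl,
    D.BH_j A x x', hx, ← hL]
  rfl

/-- **PD5**: `B_H : H → Hom_A(H, A)` is bijective (the skew form on `H = range j = ker d` is
unimodular), for `A` a principal ideal domain with `2, 3 ≠ 0`. -/
theorem BH_bijective (h2 : (2 : A) ≠ 0) (h3 : (3 : A) ≠ 0) [IsPrincipalIdealRing A] :
    Function.Bijective (D.BH A) :=
  ⟨D.BH_injective A h2 h3, D.BH_surjective A h2 h3⟩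

end Datum

end Fermat.Agent.S41.PD.Core
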