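import Mathlib
import Fermat.Agent.S41.PD.Unimod
import Fermat.Agent.S41.PD.Present

/-!
# S41 / L5 / PD1b : Shapiro's lemma by hand

`X` a finite transitive `SL(2,ℤ)`-set on which `-1` acts trivially, `x₀ : X`, `Γ` its stabiliser,
`σ : X → SL(2,ℤ)` a section (`σ x • x₀ = x`).  For `ψ : Additive Γ →+ A` we have the cocycle
`dco σ ψ g x = ψ (kap σ g x)`, `kap σ g x = (σ (g • x))⁻¹ * g * σ x`, and

* `shap : (Additive Γ →+ A) →ₗ[A] D.Q A`, `ψ ↦ [m₂ - m₁]` with `dS m₁ = dco ψ S`,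
  `dR m₂ = dco ψ (S * T)`;
* `shap_bijective` (`A` a domain of characteristic zero);
* `d_shap` : `D.d A (shap ψ) = [dco ψ (S * T * S)]`.
-/

set_option autoImplicit false
set_option linter.unusedSectionVars false

namespace Fermat.Agent.S41.PD.Shapiro

open scoped MatrixGroups
open ModularGroup Fermat.Agent.S41.PD.Core Fermat.Agent.S41.PD.Present

noncomputable section

universe u v

/-! ## The datum of a transitive `SL(2,ℤ)`-set -/

section datum

variable {X : Type u} [Fintype X] [DecidableEq X] [MulAction SL(2, ℤ) X]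

theorem SS_smul' (hX : ∀ x : X, (-1 : SL(2, ℤ)) • x = x) (x : X) :
    (S : SL(2, ℤ)) • (S : SL(2, ℤ)) • x = x := by
  rw [← mul_smul, S_mul_S_SL, hX]

theorem UUU_smul' (hX : ∀ x : X, (-1 : SL(2, ℤ)) • x = x) (x : X) :
    (S * T : SL(2, ℤ)) • (S * T : SL(2, ℤ)) • (S * T : SL(2, ℤ)) • x = x := by
  rw [← mul_smul, ← mul_smul, U_cube_SL, hX]

/-- the datum `(s, r) = (toPerm S, toPerm (S T))`. -/
def datumOf (hX : ∀ x : X, (-1 : SL(2, ℤ)) • x = x)
    (htr : ∀ x y : X, ∃ g : SL(2, ℤ), g • x = y) : Datum X where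
  s := MulAction.toPerm (S : SL(2, ℤ))
  r := MulAction.toPerm (S * T : SL(2, ℤ))
  hs := by
    ext x
    exact SS_smul' hX x
  hr := by
    ext x
    exact UUU_smul' hX x
  trans := by
    intro p p'
    obtain ⟨g, hg⟩ := htr p p'
    refine ⟨MulAction.toPermHom SL(2, ℤ) X g, ?_, hg⟩
    have hg' : g ∈ Subgroup.closure ({S, S * T} : Set SL(2, ℤ)) := by
      rw [closure_S_U]
      trivial
    have := Subgroup.mem_map_of_mem (MulAction.toPermHom SL(2, ℤ) X) hg'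
    rw [MonoidHom.map_closure] at this
    convert this using 2
    ext σ
    simp only [Set.mem_insert_iff, Set.mem_singleton_iff, Set.mem_image]
    constructor
    · rintro (rfl | rfl)
      · exact ⟨S, Or.inl rfl, rfl⟩
      · exact ⟨S * T, Or.inr rfl, rfl⟩
    · rintro ⟨y, rfl | rfl, rfl⟩
      · exact Or.inl rfl
      · exact Or.inr rfl

end datum

/-! ## Sections, `kap`, the Shapiro cocycle -/

section shapiro

variable {X : Type u} [Fintype X] [DecidableEq X] [MulAction SL(2, ℤ) X]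
variable {x₀ : X} {Γ : Subgroup SL(2, ℤ)} (hΓ : ∀ g : SL(2, ℤ), g ∈ Γ ↔ g • x₀ = x₀)
variable {σ : X → SL(2, ℤ)} (hσ : ∀ x : X, σ x • x₀ = x)
variable {A : Type v} [CommRing A]

include hΓ hσ in
theorem kap_mem (g : SL(2, ℤ)) (x : X) : (σ (g • x))⁻¹ * g * σ x ∈ Γ := by
  rw [hΓ, mul_smul, mul_smul, hσ, inv_smul_eq_iff, hσ]

/-- `kap σ g x = (σ (g x))⁻¹ g σ(x) ∈ Γ`. -/
def kap (g : SL(2, ℤ)) (x : X) : Γ := ⟨(σ (g • x))⁻¹ * g * σ x, kap_mem hΓ hσ g x⟩

theorem kap_coe (g : SL(2, ℤ)) (x : X) :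
    ((kap hΓ hσ g x : Γ) : SL(2, ℤ)) = (σ (g • x))⁻¹ * g * σ x := rfl

theorem kap_mul (g h : SL(2, ℤ)) (x : X) :
    kap hΓ hσ (g * h) x = kap hΓ hσ g (h • x) * kap hΓ hσ h x := by
  apply Subtype.ext
  rw [Subgroup.coe_mul, kap_coe, kap_coe, kap_coe, mul_smul]
  group

/-- the Shapiro cocycle of `ψ`. -/
def dco (ψ : Additive Γ →+ A) (g : SL(2, ℤ)) (x : X) : A :=
  ψ (Additive.ofMul (kap hΓ hσ g x))

theorem dco_mul (ψ : Additive Γ →+ A) (g h : SL(2, ℤ)) (x : X) :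
    dco hΓ hσ ψ (g * h) x = dco hΓ hσ ψ g (h • x) + dco hΓ hσ ψ h x := by
  unfold dco
  rw [kap_mul, ofMul_mul, map_add]

theorem dco_add (ψ ψ' : Additive Γ →+ A) (g : SL(2, ℤ)) :
    dco hΓ hσ (ψ + ψ') g = dco hΓ hσ ψ g + dco hΓ hσ ψ' g := by
  funext x
  rfl

theorem dco_smul (a : A) (ψ : Additive Γ →+ A) (g : SL(2, ℤ)) :
    dco hΓ hσ (a • ψ) g = a • dco hΓ hσ ψ g := by
  funext x
  rfl

include hΓ hσ in
theorem sigma_x0_mem : σ x₀ ∈ Γ := by
  rw [hΓ, hσ]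

/-- at the base point, the cocycle of `ψ` evaluated at `γ ∈ Γ` is `ψ γ`. -/
theorem dco_x0 (ψ : Additive Γ →+ A) (γ : Γ) :
    dco hΓ hσ ψ (γ : SL(2, ℤ)) x₀ = ψ (Additive.ofMul γ) := by
  have hγ : (γ : SL(2, ℤ)) • x₀ = x₀ := (hΓ _).1 γ.2
  have h1 : kap hΓ hσ (γ : SL(2, ℤ)) x₀ =
      (⟨σ x₀, sigma_x0_mem hΓ hσ⟩ : Γ)⁻¹ * γ * ⟨σ x₀, sigma_x0_mem hΓ hσ⟩ := by
    apply Subtype.ext
    rw [kap_coe, hγ]
    rfl
  unfold dco
  rw [h1, ofMul_mul, ofMul_mul, map_add, map_add, ofMul_inv, map_neg]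
  abel

/-- the coboundary of `v`. -/
def cob (v : X → A) (g : SL(2, ℤ)) (x : X) : A := v (g • x) - v x

theorem cob_mul (v : X → A) (g h : SL(2, ℤ)) (x : X) :
    cob v (g * h) x = cob v g (h • x) + cob v h x := by
  unfold cob
  rw [mul_smul]
  abel

end shapiro

/-! ## The class map on pairs -/

section classmap

variable {P : Type u} [Fintype P] [DecidableEq P] (D : Datum P)
variable (A : Type v) [CommRing A]

/-- the class map `range θ → Q`, `((S-1) m₁, (R-1) m₂) ↦ [m₂ - m₁]`. -/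
def jj : LinearMap.range (D.theta A) →ₗ[A] D.Q A :=
  (LinearMap.ker (D.theta A)).liftQ (D.psi A) (D.ker_theta_le_ker_psi A) ∘ₗ
    (D.theta A).quotKerEquivRange.symm.toLinearMap

theorem jj_eq (y : LinearMap.range (D.theta A)) (m1 m2 : P → A)
    (h1 : D.dS A m1 = (y : (P → A) × (P → A)).1) (h2 : D.dR A m2 = (y : (P → A) × (P → A)).2) :
    jj D A y = Submodule.Quotient.mk (m2 - m1) := by
  have hd : y = (D.theta A).rangeRestrict (m1, m2) := by
    apply Subtype.ext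
    apply Prod.ext
    · simp [h1]
    · simp [h2]
  simp only [jj, LinearMap.comp_apply, LinearEquiv.coe_coe, hd]
  have hq : (D.theta A).quotKerEquivRange.symm ((D.theta A).rangeRestrict (m1, m2)) =
      Submodule.Quotient.mk (m1, m2) := by
    rw [LinearEquiv.symm_apply_eq]
    rfl
  rw [hq]
  rfl

theorem mem_range_theta_iff (y : (P → A) × (P → A)) :
    y ∈ LinearMap.range (D.theta A) ↔
      y.1 ∈ LinearMap.range (D.dS A) ∧ y.2 ∈ LinearMap.range (D.dR A) := by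
  constructor
  · rintro ⟨⟨m1, m2⟩, rfl⟩
    exact ⟨⟨m1, rfl⟩, ⟨m2, rfl⟩⟩
  · rintro ⟨⟨m1, h1⟩, ⟨m2, h2⟩⟩
    exact ⟨(m1, m2), Prod.ext h1 h2⟩

/-- the class of a pair vanishes iff the pair is a "coboundary" `((S-1) v, (R-1) v)`. -/
theorem jj_eq_zero_iff (y : LinearMap.range (D.theta A)) :
    jj D A y = 0 ↔ ∃ v : P → A, D.dS A v = (y : (P → A) × (P → A)).1 ∧
      D.dR A v = (y : (P → A) × (P → A)).2 := by
  obtain ⟨⟨m1, h1⟩, ⟨m2, h2⟩⟩ := (mem_range_theta_iff D A y).1 y.2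
  rw [jj_eq D A y m1 m2 h1 h2, Submodule.Quotient.mk_eq_zero]
  constructor
  · intro h
    obtain ⟨a, ha, b, hb, hab⟩ := Submodule.mem_sup.1 h
    refine ⟨m1 + a, ?_, ?_⟩
    · rw [map_add, LinearMap.mem_ker.1 ha, add_zero, h1]
    · have : m1 + a = m2 - b := by
        rw [eq_sub_iff_add_eq, add_assoc, hab]
        abel
      rw [this, map_sub, LinearMap.mem_ker.1 hb, sub_zero, h2]
  · rintro ⟨v, hv1, hv2⟩
    have : m2 - m1 = (v - m1) + (m2 - v) := by abel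
    rw [this]
    refine Submodule.add_mem_sup ?_ ?_
    · rw [LinearMap.mem_ker, map_sub, hv1, h1, sub_self]
    · rw [LinearMap.mem_ker, map_sub, hv2, h2, sub_self]

end classmap

/-! ## The Shapiro map -/

section main

variable {X : Type u} [Fintype X] [DecidableEq X] [MulAction SL(2, ℤ) X]
variable (hX : ∀ x : X, (-1 : SL(2, ℤ)) • x = x) (htr : ∀ x y : X, ∃ g : SL(2, ℤ), g • x = y)
variable {x₀ : X} {Γ : Subgroup SL(2, ℤ)} (hΓ : ∀ g : SL(2, ℤ), g ∈ Γ ↔ g • x₀ = x₀)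
variable {σ : X → SL(2, ℤ)} (hσ : ∀ x : X, σ x • x₀ = x)
variable (A : Type v) [CommRing A] [IsDomain A] [CharZero A]

/-- characters into a domain of characteristic zero kill torsion. -/
theorem psi_torsion (ψ : Additive Γ →+ A) (γ : Γ) (n : ℕ) (hn : 0 < n) (h : γ ^ n = 1) :
    ψ (Additive.ofMul γ) = 0 := by
  have h1 : n • ψ (Additive.ofMul γ) = 0 := by
    rw [← map_nsmul, ← ofMul_pow, h, ofMul_one, map_zero]
  rw [nsmul_eq_mul] at h1
  rcases mul_eq_zero.1 h1 with h2 | h2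
  · exact absurd h2 (Nat.cast_ne_zero.2 hn.ne')
  · exact h2

include hX in
theorem dco_neg_one (ψ : Additive Γ →+ A) (x : X) : dco hΓ hσ ψ (-1) x = 0 := by
  unfold dco
  apply psi_torsion A ψ _ 2 (by norm_num)
  apply Subtype.ext
  rw [SubgroupClass.coe_pow, kap_coe, hX, OneMemClass.coe_one, pow_two]
  simp

include hX in
theorem dco_S_rel (ψ : Additive Γ →+ A) (x : X) :
    dco hΓ hσ ψ S x + dco hΓ hσ ψ S ((S : SL(2, ℤ)) • x) = 0 := by
  rw [add_comm, ← dco_mul, S_mul_S_SL, dco_neg_one hX hΓ hσ A]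

include hX in
theorem dco_U_rel (ψ : Additive Γ →+ A) (x : X) :
    dco hΓ hσ ψ (S * T) x + dco hΓ hσ ψ (S * T) ((S * T : SL(2, ℤ)) • x) +
      dco hΓ hσ ψ (S * T) ((S * T : SL(2, ℤ)) • (S * T : SL(2, ℤ)) • x) = 0 := by
  have h := dco_neg_one hX hΓ hσ A ψ x
  rw [← U_cube_SL, dco_mul, dco_mul] at h
  rw [← h]
  abel

/-- the pair of values of the Shapiro cocycle at `S`, `S T`. -/
def cocL : (Additive Γ →+ A) →ₗ[A] (X → A) × (X → A) where
  toFun ψ := (dco hΓ hσ ψ S, dco hΓ hσ ψ (S * T))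
  map_add' ψ ψ' := by
    rw [dco_add, dco_add]
    rfl
  map_smul' a ψ := by
    rw [dco_smul, dco_smul]
    rfl

theorem two_ne_zero_A : (2 : A) ≠ 0 := by norm_num

theorem three_ne_zero_A : (3 : A) ≠ 0 := by norm_num

include hX in
theorem cocL_mem (ψ : Additive Γ →+ A) :
    cocL hΓ hσ A ψ ∈ LinearMap.range ((datumOf hX htr).theta A) := by
  rw [mem_range_theta_iff]
  constructor
  · rw [← (datumOf hX htr).ker_NS_eq_range_dS A (two_ne_zero_A A), Datum.mem_ker_NS_iff]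
    intro p
    exact dco_S_rel hX hΓ hσ A ψ p
  · rw [← (datumOf hX htr).ker_NR_eq_range_dR A (three_ne_zero_A A), Datum.mem_ker_NR_iff]
    intro p
    exact dco_U_rel hX hΓ hσ A ψ p

/-- **the Shapiro map** `Hom(Γ, A) → Q(M)`. -/
def shap : (Additive Γ →+ A) →ₗ[A] (datumOf hX htr).Q A :=
  jj (datumOf hX htr) A ∘ₗ (cocL hΓ hσ A).codRestrict _ (cocL_mem hX htr hΓ hσ A)

theorem shap_eq (ψ : Additive Γ →+ A) (m1 m2 : X → A)
    (h1 : (datumOf hX htr).dS A m1 = dco hΓ hσ ψ S)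
    (h2 : (datumOf hX htr).dR A m2 = dco hΓ hσ ψ (S * T)) :
    shap hX htr hΓ hσ A ψ = Submodule.Quotient.mk (m2 - m1) :=
  jj_eq (datumOf hX htr) A _ m1 m2 h1 h2

theorem dS_eq_cob (v : X → A) : (datumOf hX htr).dS A v = cob v S := rfl

theorem dR_eq_cob (v : X → A) : (datumOf hX htr).dR A v = cob v (S * T) := rfl

theorem shap_injective : Function.Injective (shap hX htr hΓ hσ A) := by
  rw [injective_iff_map_eq_zero]
  intro ψ h
  rw [shap, LinearMap.comp_apply, jj_eq_zero_iff] at h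
  obtain ⟨v, hv1, hv2⟩ := h
  have hc : dco hΓ hσ ψ = cob v := by
    apply cocycle_ext (dco_mul hΓ hσ ψ) (cob_mul v)
    · rw [← dS_eq_cob hX htr A v, hv1]
      rfl
    · rw [← dR_eq_cob hX htr A v, hv2]
      rfl
  apply AddMonoidHom.ext
  intro γ
  obtain ⟨γ, rfl⟩ := Additive.ofMul.surjective γ
  rw [← dco_x0 hΓ hσ ψ γ, hc, AddMonoidHom.zero_apply]
  unfold cob
  rw [(hΓ _).1 γ.2, sub_self]

/-- a cocycle `c` defines a character of `Γ` by evaluation at the base point. -/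
def evalChar (c : SL(2, ℤ) → X → A) (hc : ∀ g h x, c (g * h) x = c g (h • x) + c h x) :
    Additive Γ →+ A :=
  AddMonoidHom.mk' (fun γ => c ((Additive.toMul γ : Γ) : SL(2, ℤ)) x₀) (by
    intro γ γ'
    change c (((Additive.toMul γ * Additive.toMul γ' : Γ)) : SL(2, ℤ)) x₀ = _
    rw [Subgroup.coe_mul, hc, (hΓ _).1 (Additive.toMul γ').2])

theorem evalChar_apply (c : SL(2, ℤ) → X → A) (hc : ∀ g h x, c (g * h) x = c g (h • x) + c h x)
    (γ : Γ) : evalChar hΓ A c hc (Additive.ofMul γ) = c (γ : SL(2, ℤ)) x₀ := rfl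

/-- **Shapiro**: every cocycle is the cocycle of its base-point character plus a coboundary. -/
theorem cocycle_eq_dco_add_cob (c : SL(2, ℤ) → X → A)
    (hc : ∀ g h x, c (g * h) x = c g (h • x) + c h x) (g : SL(2, ℤ)) (x : X) :
    c g x = dco hΓ hσ (evalChar hΓ A c hc) g x + cob (fun y => c (σ y) x₀) g x := by
  have ha : c (g * σ x) x₀ = c g x + c (σ x) x₀ := by
    rw [hc, hσ]
  have hk : g * σ x = σ (g • x) * (kap hΓ hσ g x : SL(2, ℤ)) := by
    rw [kap_coe]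
    group
  have hb : c (g * σ x) x₀ = c (σ (g • x)) x₀ + c (kap hΓ hσ g x : SL(2, ℤ)) x₀ := by
    rw [hk, hc, (hΓ _).1 (kap hΓ hσ g x).2]
  unfold dco cob
  rw [evalChar_apply]
  rw [ha] at hb
  rw [eq_sub_of_add_eq hb]
  abel

theorem shap_surjective : Function.Surjective (shap hX htr hΓ hσ A) := by
  intro q
  obtain ⟨m, rfl⟩ := Submodule.Quotient.mk_surjective _ q
  obtain ⟨c, hc, hcS, hcU⟩ := exists_cocycle_of_rel (SS_smul' hX) (UUU_smul' hX)
    (0 : X → A) (cob m (S * T)) (fun x => by simp) (fun x => by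
      unfold cob
      rw [UUU_smul' hX]
      abel)
  refine ⟨evalChar hΓ A c hc, ?_⟩
  have key := cocycle_eq_dco_add_cob hΓ hσ A c hc
  set v : X → A := fun y => c (σ y) x₀ with hv
  have h1 : (datumOf hX htr).dS A (-v) = dco hΓ hσ (evalChar hΓ A c hc) S := by
    rw [map_neg, dS_eq_cob]
    funext x
    have := key S x
    rw [hcS, Pi.zero_apply] at this
    rw [Pi.neg_apply]
    exact (eq_neg_of_add_eq_zero_left this.symm).symm
  have h2 : (datumOf hX htr).dR A (m - v) = dco hΓ hσ (evalChar hΓ A c hc) (S * T) := by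
    rw [map_sub, dR_eq_cob, dR_eq_cob]
    funext x
    have := key (S * T) x
    rw [hcU] at this
    rw [Pi.sub_apply, this]
    abel
  rw [shap_eq hX htr hΓ hσ A _ (-v) (m - v) h1 h2]
  congr 1
  abel

theorem shap_bijective : Function.Bijective (shap hX htr hΓ hσ A) :=
  ⟨shap_injective hX htr hΓ hσ A, shap_surjective hX htr hΓ hσ A⟩

/-- the Shapiro isomorphism `Hom(Γ, A) ≃ Q(M)`. -/
def shapEquiv : (Additive Γ →+ A) ≃ₗ[A] (datumOf hX htr).Q A :=
  LinearEquiv.ofBijective (shap hX htr hΓ hσ A) (shap_bijective hX htr hΓ hσ A)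

/-! ### The boundary of the Shapiro class -/

/-- the parabolic generator `S T S` (conjugate to `T` up to sign). -/
abbrev tauP : SL(2, ℤ) := S * T * S

/-- **`d (shap ψ)` is the class of the cocycle at `S T S`**. -/
theorem d_shap (ψ : Additive Γ →+ A) :
    (datumOf hX htr).d A (shap hX htr hΓ hσ A ψ) =
      Submodule.Quotient.mk (dco hΓ hσ ψ tauP) := by
  obtain ⟨⟨m1, h1⟩, ⟨m2, h2⟩⟩ :=
    (mem_range_theta_iff _ A _).1 (cocL_mem hX htr hΓ hσ A ψ)
  rw [shap_eq hX htr hΓ hσ A ψ m1 m2 h1 h2, Datum.d_mk, Submodule.Quotient.eq]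
  refine ⟨-m2, ?_⟩
  funext x
  have e1 : m1 ((S : SL(2, ℤ)) • x) - m1 x = dco hΓ hσ ψ S x := congrFun h1 x
  have e2 : m2 ((S * T : SL(2, ℤ)) • (S : SL(2, ℤ)) • x) - m2 ((S : SL(2, ℤ)) • x) =
      dco hΓ hσ ψ (S * T) ((S : SL(2, ℤ)) • x) := congrFun h2 ((S : SL(2, ℤ)) • x)
  have e3 := dco_mul hΓ hσ ψ (S * T) S x
  change -m2 ((S * T : SL(2, ℤ)) • (S : SL(2, ℤ)) • x) - -m2 x =
    (m2 x - m1 x - (m2 ((S : SL(2, ℤ)) • x) - m1 ((S : SL(2, ℤ)) • x))) - dco hΓ hσ ψ tauP x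
  rw [tauP, e3, ← e1, ← e2]
  ring

end main

end

end Fermat.Agent.S41.PD.Shapiro
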