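import Mathlib
import Fermat.Agent.S41.PD.CycleSum
import Fermat.Agent.S41.PD.Shapiro

/-!
# S41 / L5 / PD1b, part 2 : parabolic characters are the kernel of `d`

* `exists_conj_T_zpow` : an element of `SL(2,ℤ)` of trace `2` is conjugate to a power of `T`;
* `d_shap_eq_zero_iff` : `d (shap ψ) = 0` iff `ψ` kills all elements of `Γ` with `tr² = 4`.
-/

set_option autoImplicit false
set_option linter.unusedSectionVars false

namespace Fermat.Agent.S41.PD.ShapiroPar

open scoped MatrixGroups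
open ModularGroup Fermat.Agent.S41.PD.Core Fermat.Agent.S41.PD.Present
  Fermat.Agent.S41.PD.Shapiro

noncomputable section

universe u v

/-! ## Elements of trace `2` -/

theorem eq_T_zpow_of_col (g : SL(2, ℤ)) (h00 : g 0 0 = 1) (h10 : g 1 0 = 0) :
    g = T ^ (g 0 1) := by
  have had := g.det_coe
  rw [Matrix.det_fin_two, h00, h10] at had
  have h11 : g 1 1 = 1 := by linarith
  ext i j
  fin_cases i <;> fin_cases j <;>
    simp [h00, h10, h11, coe_T_zpow, show (1 : Fin (0 + 2)) = (1 : Fin 2) from rfl]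

/-- a primitive fixed vector of an element of trace `2`. -/
theorem exists_fixed_vector (γ : SL(2, ℤ)) (htr : γ 0 0 + γ 1 1 = 2) :
    ∃ x y : ℤ, IsCoprime x y ∧ γ 0 0 * x + γ 0 1 * y = x ∧ γ 1 0 * x + γ 1 1 * y = y := by
  have hdet := γ.det_coe
  rw [Matrix.det_fin_two] at hdet
  -- a nonzero kernel vector of `γ - 1`
  have hker : ∃ x' y' : ℤ, (x' ≠ 0 ∨ y' ≠ 0) ∧ γ 0 0 * x' + γ 0 1 * y' = x' ∧
      γ 1 0 * x' + γ 1 1 * y' = y' := by
    by_cases h1 : γ 0 1 = 0 ∧ γ 0 0 = 1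
    · by_cases h2 : γ 1 0 = 0
      · refine ⟨1, 0, Or.inl one_ne_zero, ?_, ?_⟩
        · rw [h1.2]; ring
        · rw [h2]; ring
      · refine ⟨1 - γ 1 1, γ 1 0, Or.inr h2, ?_, ?_⟩
        · linear_combination (-1 : ℤ) * hdet + htr
        · ring
    · refine ⟨γ 0 1, 1 - γ 0 0, ?_, ?_, ?_⟩
      · by_contra hcon
        rw [not_or, not_not, not_not] at hcon
        exact h1 ⟨hcon.1, by linarith [hcon.2]⟩
      · ring
      · linear_combination (-1 : ℤ) * hdet + htr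
  obtain ⟨x', y', hne, hx, hy⟩ := hker
  have hg : (Int.gcd x' y' : ℤ) ≠ 0 := by
    rw [Ne, Int.natCast_eq_zero, Int.gcd_eq_zero_iff]
    tauto
  obtain ⟨x, hx'⟩ : (Int.gcd x' y' : ℤ) ∣ x' := Int.gcd_dvd_left x' y'
  obtain ⟨y, hy'⟩ : (Int.gcd x' y' : ℤ) ∣ y' := Int.gcd_dvd_right x' y'
  refine ⟨x, y, ?_, ?_, ?_⟩
  · have hpos : 0 < Int.gcd x' y' := Nat.pos_of_ne_zero (by exact_mod_cast hg)
    have h := Int.gcd_div_gcd_div_gcd hpos
    rw [← Int.isCoprime_iff_gcd_eq_one] at h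
    have e1 : x' / (Int.gcd x' y' : ℤ) = x := by
      nth_rewrite 1 [hx']
      exact Int.mul_ediv_cancel_left _ hg
    have e2 : y' / (Int.gcd x' y' : ℤ) = y := by
      nth_rewrite 1 [hy']
      exact Int.mul_ediv_cancel_left _ hg
    rwa [e1, e2] at h
  · apply mul_left_cancel₀ hg
    have h : γ 0 0 * ((Int.gcd x' y' : ℤ) * x) + γ 0 1 * ((Int.gcd x' y' : ℤ) * y) =
        (Int.gcd x' y' : ℤ) * x := by
      rw [← hx', ← hy']
      exact hx
    linear_combination h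
  · apply mul_left_cancel₀ hg
    have h : γ 1 0 * ((Int.gcd x' y' : ℤ) * x) + γ 1 1 * ((Int.gcd x' y' : ℤ) * y) =
        (Int.gcd x' y' : ℤ) * y := by
      rw [← hx', ← hy']
      exact hy
    linear_combination h

/-- **an element of trace `2` is conjugate to a power of `T`**. -/
theorem exists_conj_T_zpow (γ : SL(2, ℤ))
    (htr : ((γ : SL(2, ℤ)) : Matrix (Fin 2) (Fin 2) ℤ).trace = 2) :
    ∃ (g : SL(2, ℤ)) (k : ℤ), γ = g * T ^ k * g⁻¹ := by
  rw [Matrix.trace_fin_two] at htr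
  obtain ⟨x, y, hxy, hx, hy⟩ := exists_fixed_vector γ htr
  obtain ⟨G, hG0, hG1⟩ := hxy.exists_SL2_col 0
  have hGdet := G.det_coe
  rw [Matrix.det_fin_two, hG0, hG1] at hGdet
  have h00 : (G⁻¹ * γ * G) 0 0 = 1 := by
    simp only [Matrix.SpecialLinearGroup.coe_mul, Matrix.SpecialLinearGroup.coe_inv,
      Matrix.adjugate_fin_two, Matrix.mul_apply, Fin.sum_univ_two, Matrix.of_apply,
      Matrix.cons_val', Matrix.cons_val_zero, Matrix.cons_val_one, hG0, hG1]
    linear_combination hGdet + (G 1 1) * hx - (G 0 1) * hy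
  have h10 : (G⁻¹ * γ * G) 1 0 = 0 := by
    simp only [Matrix.SpecialLinearGroup.coe_mul, Matrix.SpecialLinearGroup.coe_inv,
      Matrix.adjugate_fin_two, Matrix.mul_apply, Fin.sum_univ_two, Matrix.of_apply,
      Matrix.cons_val', Matrix.cons_val_zero, Matrix.cons_val_one, hG0, hG1]
    linear_combination (-y) * hx + x * hy
  refine ⟨G, (G⁻¹ * γ * G) 0 1, ?_⟩
  rw [← eq_T_zpow_of_col _ h00 h10]
  group

/-- an element with `tr² = 4` is `±` a conjugate of a power of `T`. -/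
theorem exists_conj_T_zpow_of_trace_sq (γ : SL(2, ℤ))
    (htr : ((γ : SL(2, ℤ)) : Matrix (Fin 2) (Fin 2) ℤ).trace ^ 2 = 4) :
    ∃ (g : SL(2, ℤ)) (k : ℤ), γ = g * T ^ k * g⁻¹ ∨ γ = -(g * T ^ k * g⁻¹) := by
  have h : ((γ : SL(2, ℤ)) : Matrix (Fin 2) (Fin 2) ℤ).trace = 2 ∨
      ((γ : SL(2, ℤ)) : Matrix (Fin 2) (Fin 2) ℤ).trace = -2 := by
    have h4 : ((γ : SL(2, ℤ)) : Matrix (Fin 2) (Fin 2) ℤ).trace ^ 2 = 2 ^ 2 := by
      rw [htr]
      norm_num
    exact sq_eq_sq_iff_eq_or_eq_neg.1 h4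
  rcases h with h | h
  · obtain ⟨g, k, hg⟩ := exists_conj_T_zpow γ h
    exact ⟨g, k, Or.inl hg⟩
  · have h' : (((-γ : SL(2, ℤ))) : Matrix (Fin 2) (Fin 2) ℤ).trace = 2 := by
      rw [Matrix.SpecialLinearGroup.coe_neg, Matrix.trace_neg, h]
      norm_num
    obtain ⟨g, k, hg⟩ := exists_conj_T_zpow (-γ) h'
    exact ⟨g, k, Or.inr (by rw [← hg, neg_neg])⟩

/-! ## Cocycles along a cyclic subgroup -/

section cyc

variable {X : Type u} [Fintype X] [DecidableEq X] [MulAction SL(2, ℤ) X]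
variable {A : Type v} [CommRing A]

/-- the subgroup on which two cocycles agree. -/
def cocEqLocus (c c' : SL(2, ℤ) → X → A)
    (hc : ∀ g h x, c (g * h) x = c g (h • x) + c h x)
    (hc' : ∀ g h x, c' (g * h) x = c' g (h • x) + c' h x) : Subgroup SL(2, ℤ) where
  carrier := {g | c g = c' g}
  one_mem' := by
    funext x
    rw [cocycle_one hc, cocycle_one hc']
  mul_mem' := by
    intro g h (hg : c g = c' g) (hh : c h = c' h)
    funext x
    rw [hc, hc', hg, hh]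
  inv_mem' := by
    intro g (hg : c g = c' g)
    funext x
    rw [cocycle_inv hc, cocycle_inv hc', hg]

/-- **(G1)** if `c t` is a coboundary value, then `c` vanishes at the base points of all conjugates
of powers of `t`. -/
theorem cocycle_conj_zpow_eq_zero {c : SL(2, ℤ) → X → A}
    (hc : ∀ g h x, c (g * h) x = c g (h • x) + c h x) (t : SL(2, ℤ)) (w : X → A)
    (hw : c t = cob w t) (g : SL(2, ℤ)) (k : ℤ) (x : X) (hx : (g * t ^ k * g⁻¹) • x = x) :
    c (g * t ^ k * g⁻¹) x = 0 := by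
  have hk : c (t ^ k) = cob w (t ^ k) :=
    (cocEqLocus c (cob w) hc (cob_mul w)).zpow_mem hw k
  have hy : t ^ k • g⁻¹ • x = g⁻¹ • x := by
    rw [mul_smul, mul_smul] at hx
    rw [eq_inv_smul_iff]
    exact hx
  rw [hc, hc, hy, hk, cocycle_inv hc]
  unfold cob
  rw [hy]
  abel

/-- powers of a cocycle as orbit sums. -/
theorem cocycle_pow {c : SL(2, ℤ) → X → A}
    (hc : ∀ g h x, c (g * h) x = c g (h • x) + c h x) (t : SL(2, ℤ)) (n : ℕ) (x : X) :
    c (t ^ n) x = ∑ i ∈ Finset.range n, c t (t ^ i • x) := by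
  induction n with
  | zero => simp [cocycle_one hc]
  | succ n ih => rw [pow_succ', hc, ih, Finset.sum_range_succ, add_comm]

variable [IsDomain A] [CharZero A]

/-- **(G2)** if `c` vanishes on all `tⁿ` at the points fixed by `tⁿ`, then `c t` lies in the range of
`op t - 1`. -/
theorem mem_range_of_pow_fix {c : SL(2, ℤ) → X → A}
    (hc : ∀ g h x, c (g * h) x = c g (h • x) + c h x) (t : SL(2, ℤ))
    (h : ∀ (n : ℕ) (x : X), t ^ n • x = x → c (t ^ n) x = 0) :
    c t ∈ LinearMap.range (op A (MulAction.toPerm t : Equiv.Perm X) - LinearMap.id) := by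
  have hop : (op A (MulAction.toPerm t : Equiv.Perm X) - LinearMap.id) =
      (Fermat.Agent.S41.PD.opOf A (MulAction.toPerm t : Equiv.Perm X) - 1) := rfl
  rw [hop]
  apply Fermat.Agent.S41.PD.mem_range_opOf_sub_one
  intro f hf
  have hf' : ∀ x : X, f (t • x) = f x := fun x => congrFun hf x
  have hfi : ∀ (i : ℕ) (x : X), f (t ^ i • x) = f x := by
    intro i
    induction i with
    | zero => intro x; simp
    | succ i ih => intro x; rw [pow_succ', mul_smul, hf', ih]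
  set n := orderOf (MulAction.toPermHom SL(2, ℤ) X t) with hn
  have hnpos : 0 < n := orderOf_pos _
  have hfix : ∀ x : X, t ^ n • x = x := by
    intro x
    have h1 : (MulAction.toPermHom SL(2, ℤ) X t) ^ n = 1 := pow_orderOf_eq_one _
    rw [← map_pow] at h1
    exact congrArg (fun p : Equiv.Perm X => p x) h1
  have key : (n : A) * (f ⬝ᵥ c t) = 0 := by
    have h0 : ∑ x, f x * c (t ^ n) x = 0 := by
      apply Finset.sum_eq_zero
      intro x _
      rw [h n x (hfix x), mul_zero]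
    have hsum : ∀ i : ℕ, ∑ x, f x * c t (t ^ i • x) = f ⬝ᵥ c t := by
      intro i
      rw [dotProduct,
        ← Equiv.sum_comp (MulAction.toPerm (t ^ i) : Equiv.Perm X) (fun x => f x * c t x)]
      apply Finset.sum_congr rfl
      intro x _
      rw [MulAction.toPerm_apply, hfi]
    rw [← h0]
    simp only [cocycle_pow hc, Finset.mul_sum]
    rw [Finset.sum_comm]
    simp only [hsum]
    rw [Finset.sum_const, Finset.card_range, nsmul_eq_mul]
  rcases mul_eq_zero.1 key with h1 | h1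
  · exact absurd h1 (Nat.cast_ne_zero.2 hnpos.ne')
  · exact h1

end cyc

/-! ## The kernel of `d ∘ shap` -/

section final

variable {X : Type u} [Fintype X] [DecidableEq X] [MulAction SL(2, ℤ) X]
variable (hX : ∀ x : X, (-1 : SL(2, ℤ)) • x = x) (htr : ∀ x y : X, ∃ g : SL(2, ℤ), g • x = y)
variable {x₀ : X} {Γ : Subgroup SL(2, ℤ)} (hΓ : ∀ g : SL(2, ℤ), g ∈ Γ ↔ g • x₀ = x₀)
variable {σ : X → SL(2, ℤ)} (hσ : ∀ x : X, σ x • x₀ = x)
variable (A : Type v) [CommRing A] [IsDomain A] [CharZero A]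

/-- the honest conjugate `S T S⁻¹` of `T`. -/
abbrev tauQ : SL(2, ℤ) := S * T * S⁻¹

theorem tauP_eq_neg_tauQ : tauP = -tauQ := by
  rw [tauP, tauQ, ModularGroup.S_inv, mul_neg, neg_neg]

theorem tauQ_pow (n : ℕ) : tauQ ^ n = S * T ^ n * S⁻¹ := by
  rw [tauQ, conj_pow]

theorem tauQ_zpow (k : ℤ) : tauQ ^ k = S * T ^ k * S⁻¹ := by
  rw [tauQ, conj_zpow]

include hX in
theorem neg_smul' (g : SL(2, ℤ)) (x : X) : (-g) • x = g • x := by
  rw [← neg_one_mul, mul_smul, hX]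

include hX in
theorem dco_neg (ψ : Additive Γ →+ A) (g : SL(2, ℤ)) :
    dco hΓ hσ ψ (-g) = dco hΓ hσ ψ g := by
  funext x
  rw [← neg_one_mul, dco_mul, dco_neg_one hX hΓ hσ A, zero_add]

include hX in
theorem cob_neg (w : X → A) (g : SL(2, ℤ)) : cob w (-g) = cob w g := by
  funext x
  unfold cob
  rw [neg_smul' hX]

theorem datum_r_mul_s :
    (datumOf hX htr).r * (datumOf hX htr).s = (MulAction.toPerm tauP : Equiv.Perm X) := by
  ext x
  change (S * T : SL(2, ℤ)) • (S : SL(2, ℤ)) • x = tauP • x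
  rw [tauP, mul_smul (S * T)]

theorem trace_conj (a b : SL(2, ℤ)) :
    ((a⁻¹ * b * a : SL(2, ℤ)) : Matrix (Fin 2) (Fin 2) ℤ).trace =
      ((b : SL(2, ℤ)) : Matrix (Fin 2) (Fin 2) ℤ).trace := by
  rw [Matrix.SpecialLinearGroup.coe_mul, Matrix.trace_mul_comm, ← Matrix.SpecialLinearGroup.coe_mul,
    ← mul_assoc, mul_inv_cancel, one_mul]

theorem trace_tauQ_pow (n : ℕ) :
    ((tauQ ^ n : SL(2, ℤ)) : Matrix (Fin 2) (Fin 2) ℤ).trace = 2 := by
  have h : tauQ ^ n = (S⁻¹ : SL(2, ℤ))⁻¹ * T ^ n * S⁻¹ := by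
    rw [tauQ_pow, inv_inv]
  rw [h, trace_conj, ← zpow_natCast, coe_T_zpow, Matrix.trace_fin_two]
  simp

/-- **The kernel of `d ∘ shap` consists of the parabolic characters.** -/
theorem d_shap_eq_zero_iff (ψ : Additive Γ →+ A) :
    (datumOf hX htr).d A (shap hX htr hΓ hσ A ψ) = 0 ↔
      ∀ γ : Γ, ((γ : SL(2, ℤ)) : Matrix (Fin 2) (Fin 2) ℤ).trace ^ 2 = 4 →
        ψ (Additive.ofMul γ) = 0 := by
  rw [d_shap, Submodule.Quotient.mk_eq_zero, Datum.T_eq_op, datum_r_mul_s]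
  constructor
  · rintro ⟨w, hw⟩ γ hγ
    have hw1 : dco hΓ hσ ψ tauP = cob w tauP := hw.symm
    have hw2 : dco hΓ hσ ψ tauQ = cob w tauQ := by
      have e : tauQ = -tauP := by rw [tauP_eq_neg_tauQ, neg_neg]
      rw [e, dco_neg hX hΓ hσ A, cob_neg hX A, hw1]
    have hγ0 : (γ : SL(2, ℤ)) • x₀ = x₀ := (hΓ _).1 γ.2
    obtain ⟨g, k, hg | hg⟩ := exists_conj_T_zpow_of_trace_sq _ hγ
    · have hg' : (γ : SL(2, ℤ)) = (g * S⁻¹) * tauQ ^ k * (g * S⁻¹)⁻¹ := by
        rw [hg, tauQ_zpow]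
        group
      rw [← dco_x0 hΓ hσ ψ γ, hg']
      apply cocycle_conj_zpow_eq_zero (dco_mul hΓ hσ ψ) tauQ w hw2
      rw [← hg']
      exact hγ0
    · have hg' : (γ : SL(2, ℤ)) = -((g * S⁻¹) * tauQ ^ k * (g * S⁻¹)⁻¹) := by
        rw [hg, tauQ_zpow]
        congr 1
        group
      rw [← dco_x0 hΓ hσ ψ γ, hg', dco_neg hX hΓ hσ A]
      apply cocycle_conj_zpow_eq_zero (dco_mul hΓ hσ ψ) tauQ w hw2
      rw [← neg_smul' hX, ← hg']
      exact hγ0
  · intro h
    have h1 : dco hΓ hσ ψ tauQ ∈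
        LinearMap.range (op A (MulAction.toPerm tauQ : Equiv.Perm X) - LinearMap.id) := by
      apply mem_range_of_pow_fix (dco_mul hΓ hσ ψ) tauQ
      intro n x hx
      unfold dco
      apply h
      rw [kap_coe, hx, trace_conj, trace_tauQ_pow]
      norm_num
    have e : tauP = -tauQ := tauP_eq_neg_tauQ
    have hperm : (MulAction.toPerm tauP : Equiv.Perm X) = MulAction.toPerm tauQ := by
      ext x
      change tauP • x = tauQ • x
      rw [e, neg_smul' hX]
    rw [hperm, e, dco_neg hX hΓ hσ A]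
    exact h1

end final

end

end Fermat.Agent.S41.PD.ShapiroPar
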