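import Fermat.Agent.S41.PD.CupAlg
import Fermat.Agent.S41.PD.CycleSum

/-!
# S41 / L5 (PD6, part 2): Shapiro cocycles for an arbitrary section, cup primitives

`Γ ≤ G`, `P = G ⧸ Γ` (finite).  For a section `s` of `G → P` we define the `Γ`-valued cocycle
`s.kap g y = (σ (g • y))⁻¹ g σ y`, the Shapiro cocycle `shap s φ g y = φ (s.kap g y)` of an additive
function `φ : Γ → A`, and for a cup primitive `c` (`c (a b) = c a + c b + φ a * ψ b`) the sums
`csum s c g = ∑ y, c (s.kap g y)`; they satisfy the identities consumed by `CupAlg.cup_formula`.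
For an element `gT` we construct a `gT`-adapted section: `s.kap gT y` is `1` except at the last
point of each `gT`-cycle.
-/

set_option autoImplicit false
set_option linter.unusedSectionVars false

namespace Fermat.Agent.S41.PD.ShapiroSec

open Fermat.Agent.S41.PD.Core

variable {G : Type*} [Group G] (Γ : Subgroup G)

/-- a section of `G → G ⧸ Γ`. -/
structure Sec where
  /-- the section -/
  σ : G ⧸ Γ → G
  mk_σ : ∀ y, (QuotientGroup.mk (σ y) : G ⧸ Γ) = y

namespace Sec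

variable {Γ} (s : Sec Γ)

theorem mk_mul_σ (g : G) (y : G ⧸ Γ) : (QuotientGroup.mk (g * s.σ y) : G ⧸ Γ) = g • y := by
  conv_rhs => rw [← s.mk_σ y]
  rfl

/-- the `Γ`-valued cocycle of a section. -/
def kap (g : G) (y : G ⧸ Γ) : Γ :=
  ⟨(s.σ (g • y))⁻¹ * (g * s.σ y), by
    rw [← QuotientGroup.eq, s.mk_σ, s.mk_mul_σ]⟩

theorem kap_coe (g : G) (y : G ⧸ Γ) : ((s.kap g y : Γ) : G) = (s.σ (g • y))⁻¹ * (g * s.σ y) := rfl

theorem kap_mul (g h : G) (y : G ⧸ Γ) : s.kap (g * h) y = s.kap g (h • y) * s.kap h y := by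
  apply Subtype.ext
  simp only [kap_coe, mul_smul, Subgroup.coe_mul]
  group

/-- a central element of `G` lying in `Γ` acts trivially on `G ⧸ Γ`. -/
theorem central_smul {ζ : G} (hc : ∀ g, g * ζ = ζ * g) (hΓ : ζ ∈ Γ) (y : G ⧸ Γ) : ζ • y = y := by
  induction y using QuotientGroup.induction_on with
  | H g =>
    rw [MulAction.Quotient.smul_mk, smul_eq_mul, ← hc g]
    exact QuotientGroup.mk_mul_of_mem g hΓ

theorem kap_central {ζ : G} (hc : ∀ g, g * ζ = ζ * g) (hΓ : ζ ∈ Γ) (y : G ⧸ Γ) :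
    s.kap ζ y = ⟨ζ, hΓ⟩ := by
  apply Subtype.ext
  rw [kap_coe, central_smul hc hΓ, ← hc, inv_mul_cancel_left]

end Sec

section Coc

variable {Γ} {A : Type*} [CommRing A] [Fintype (G ⧸ Γ)] [DecidableEq (G ⧸ Γ)]

/-- the permutation representation on `G ⧸ Γ`. -/
abbrev perm : G →* Equiv.Perm (G ⧸ Γ) := MulAction.toPermHom G (G ⧸ Γ)

/-- the Shapiro cocycle. -/
def shap (s : Sec Γ) (φ : Γ → A) (g : G) : G ⧸ Γ → A := fun y => φ (s.kap g y)

theorem shap_apply (s : Sec Γ) (φ : Γ → A) (g : G) (y : G ⧸ Γ) :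
    shap s φ g y = φ (s.kap g y) := rfl

theorem shap_mul (s : Sec Γ) {φ : Γ → A} (hφ : ∀ a b, φ (a * b) = φ a + φ b) (g h : G) :
    shap s φ (g * h) = op A (perm h) (shap s φ g) + shap s φ h := by
  funext y
  simp only [shap_apply, Pi.add_apply, op_apply, s.kap_mul, hφ]
  rfl

/-- the sum of a function over the values of the cocycle. -/
def csum (s : Sec Γ) (c : Γ → A) (g : G) : A := ∑ y, c (s.kap g y)

theorem csum_mul (s : Sec Γ) {φ ψ c : Γ → A}
    (hc : ∀ a b, c (a * b) = c a + c b + φ a * ψ b) (g h : G) :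
    csum s c (g * h) = csum s c g + csum s c h +
      form A (op A (perm h) (shap s φ g)) (shap s ψ h) := by
  simp only [csum, s.kap_mul, hc, Finset.sum_add_distrib, form_apply, op_apply, shap_apply]
  congr 2
  exact Equiv.sum_comp (perm (Γ := Γ) h) (fun y => c (s.kap g y))

theorem shap_central (s : Sec Γ) (φ : Γ → A) {ζ : G} (hc : ∀ g, g * ζ = ζ * g) (hΓ : ζ ∈ Γ)
    (h0 : φ ⟨ζ, hΓ⟩ = 0) : shap s φ ζ = 0 := by
  funext y
  rw [shap_apply, s.kap_central hc hΓ, h0]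
  rfl

theorem csum_central (s : Sec Γ) (c : Γ → A) {ζ : G} (hc : ∀ g, g * ζ = ζ * g) (hΓ : ζ ∈ Γ)
    (h0 : c ⟨ζ, hΓ⟩ = 0) : csum s c ζ = 0 := by
  simp only [csum, s.kap_central hc hΓ, h0, Finset.sum_const_zero]

/-- changing the section changes the Shapiro cocycle by a coboundary. -/
theorem shap_change (s s' : Sec Γ) {φ : Γ → A} (hφ : ∀ a b, φ (a * b) = φ a + φ b) :
    ∃ β : G ⧸ Γ → A, ∀ g, shap s' φ g = shap s φ g - (op A (perm g) β - β) := by
  have hδ : ∀ y, (s.σ y)⁻¹ * s'.σ y ∈ Γ := fun y => by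
    rw [← QuotientGroup.eq, s.mk_σ, s'.mk_σ]
  have h1 : φ 1 = 0 := by
    have := hφ 1 1
    rw [mul_one] at this
    exact (add_eq_left.mp this.symm)
  have hinv : ∀ a, φ a⁻¹ = - φ a := fun a => by
    have := hφ a⁻¹ a
    rw [inv_mul_cancel, h1] at this
    exact eq_neg_of_add_eq_zero_left this.symm
  refine ⟨fun y => φ ⟨_, hδ y⟩, fun g => ?_⟩
  funext y
  have hk : s'.kap g y = (⟨_, hδ (g • y)⟩ : Γ)⁻¹ * s.kap g y * ⟨_, hδ y⟩ := by
    apply Subtype.ext
    simp only [Sec.kap_coe, Subgroup.coe_mul, Subgroup.coe_inv]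
    group
  simp only [shap_apply, hk, hφ, hinv, Pi.sub_apply, op_apply]
  change _ = _ - (φ ⟨_, hδ (g • y)⟩ - _)
  ring

end Coc


section Adapted

open Classical in
/-- the cycle representative of `y` reaches `y` by a nonnegative power. -/
theorem exists_pow_rep {Γ : Subgroup G} [Fintype (G ⧸ Γ)] (gT : G) (y : G ⧸ Γ) :
    ∃ n : ℕ, (perm (Γ := Γ) gT ^ n) (cycRep (perm gT) y) = y := by
  have h := (cycRep_sameCycle (perm (Γ := Γ) gT) y).symm
  obtain ⟨i, -, hi⟩ := h.exists_pow_eq'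
  exact ⟨i, hi⟩

variable {Γ} [Fintype (G ⧸ Γ)] [DecidableEq (G ⧸ Γ)] (s₀ : Sec Γ) (gT : G)

/-- the distance from the cycle representative. -/
noncomputable def kk (y : G ⧸ Γ) : ℕ := Nat.find (exists_pow_rep (Γ := Γ) gT y)

theorem kk_spec (y : G ⧸ Γ) : (perm (Γ := Γ) gT ^ kk gT y) (cycRep (perm gT) y) = y :=
  Nat.find_spec (exists_pow_rep (Γ := Γ) gT y)

theorem kk_min (y : G ⧸ Γ) {m : ℕ} (hm : m < kk gT y) :
    (perm (Γ := Γ) gT ^ m) (cycRep (perm gT) y) ≠ y :=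
  Nat.find_min (exists_pow_rep (Γ := Γ) gT y) hm

theorem perm_pow_apply (g : G) (n : ℕ) (y : G ⧸ Γ) : (perm (Γ := Γ) g ^ n) y = g ^ n • y := by
  rw [← map_pow]
  rfl

/-- the `gT`-adapted section. -/
noncomputable def adSec : Sec Γ where
  σ y := gT ^ kk gT y * s₀.σ (cycRep (perm gT) y)
  mk_σ y := by
    rw [s₀.mk_mul_σ, ← perm_pow_apply, kk_spec]

theorem adSec_σ (y : G ⧸ Γ) :
    (adSec s₀ gT).σ y = gT ^ kk gT y * s₀.σ (cycRep (perm gT) y) := rfl

theorem cycRep_smul (y : G ⧸ Γ) : cycRep (perm (Γ := Γ) gT) (gT • y) = cycRep (perm gT) y :=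
  cycRep_apply (perm (Γ := Γ) gT) y

/-- at the last point of a cycle. -/
theorem kk_smul_of_eq (y : G ⧸ Γ) (h : gT • y = cycRep (perm (Γ := Γ) gT) y) :
    kk gT (gT • y) = 0 := by
  refine (Nat.find_eq_zero (exists_pow_rep (Γ := Γ) gT (gT • y))).mpr ?_
  rw [pow_zero, cycRep_smul, h]
  rfl

/-- not at the last point of a cycle. -/
theorem kk_smul_of_ne (y : G ⧸ Γ) (h : gT • y ≠ cycRep (perm (Γ := Γ) gT) y) :
    kk gT (gT • y) = kk gT y + 1 := by
  refine (Nat.find_eq_iff (exists_pow_rep (Γ := Γ) gT (gT • y))).mpr ⟨?_, ?_⟩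
  · rw [cycRep_smul, pow_succ', Equiv.Perm.mul_apply, kk_spec]
    rfl
  · intro m hm hmeq
    rw [cycRep_smul] at hmeq
    rcases Nat.eq_zero_or_pos m with rfl | hpos
    · rw [pow_zero] at hmeq
      exact h hmeq.symm
    · obtain ⟨m', rfl⟩ : ∃ m', m = m' + 1 := ⟨m - 1, by omega⟩
      rw [pow_succ', Equiv.Perm.mul_apply] at hmeq
      have h2 : (perm (Γ := Γ) gT ^ m') (cycRep (perm gT) y) = y :=
        (perm (Γ := Γ) gT).injective hmeq
      exact kk_min gT y (by omega) h2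

/-- **the cocycle of the adapted section at `gT`**. -/
theorem adSec_kap_of_ne (y : G ⧸ Γ) (h : gT • y ≠ cycRep (perm (Γ := Γ) gT) y) :
    (adSec s₀ gT).kap gT y = 1 := by
  apply Subtype.ext
  rw [Sec.kap_coe, adSec_σ, adSec_σ, kk_smul_of_ne gT y h, cycRep_smul, OneMemClass.coe_one,
    pow_succ']
  group

theorem adSec_kap_of_eq (y : G ⧸ Γ) (h : gT • y = cycRep (perm (Γ := Γ) gT) y) :
    (((adSec s₀ gT).kap gT y : Γ) : G) =
      (s₀.σ (cycRep (perm gT) y))⁻¹ * gT ^ (kk gT y + 1) * s₀.σ (cycRep (perm gT) y) := by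
  rw [Sec.kap_coe, adSec_σ, adSec_σ, kk_smul_of_eq gT y h, cycRep_smul, pow_zero, one_mul,
    pow_succ']
  group

/-- minimality of the exponent at the last point of a cycle. -/
theorem kk_succ_le (y : G ⧸ Γ) {m : ℕ} (hm : 0 < m)
    (hfix : gT ^ m • cycRep (perm (Γ := Γ) gT) y = cycRep (perm gT) y) : kk gT y + 1 ≤ m := by
  by_contra hlt
  rw [not_le] at hlt
  have hmk : m ≤ kk gT y := by omega
  have h1 := kk_spec (Γ := Γ) gT y
  have h2 : (perm (Γ := Γ) gT ^ (kk gT y - m)) (cycRep (perm gT) y) = y := by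
    conv_rhs => rw [← h1]
    conv_rhs => rw [show kk gT y = (kk gT y - m) + m by omega, pow_add, Equiv.Perm.mul_apply,
      perm_pow_apply gT m, hfix]
  exact kk_min gT y (by omega) h2

end Adapted

end Fermat.Agent.S41.PD.ShapiroSec
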